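import Fermat.Agent.S52.Defs2

/-! # S52, task FF: the Frobenius on `W₀(K)`, its fixed points. -/

set_option autoImplicit false
open WeierstrassCurve WeierstrassCurve.Affine Polynomial
open Fermat.Agent.DivPoly (px pz)
open Fermat.Agent.S05 (xc yc)

namespace Fermat.Agent.S52

section FF
variable (p : ℕ) [Fact p.Prime] (W₀ : WeierstrassCurve (ZMod p)) (K : Type*) [Field K]
  [Algebra (ZMod p) K] [DecidableEq K]

namespace FF

omit [DecidableEq K] in
lemma frob_apply (a : K) : FiniteField.frobeniusAlgHom (ZMod p) K a = a ^ p := by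
  rw [FiniteField.coe_frobeniusAlgHom, ZMod.card]

omit [DecidableEq K] in
/-- an element of `K` fixed by the `p`-power map comes from `ZMod p` -/
lemma exists_of_pow_eq (a : K) (ha : a ^ p = a) : ∃ c : ZMod p, algebraMap (ZMod p) K c = a := by
  classical
  by_contra hne
  push Not at hne
  have hp1 : 1 < p := (Fact.out : p.Prime).one_lt
  have hP : (X ^ p - X : K[X]) ≠ 0 := FiniteField.X_pow_card_sub_X_ne_zero K hp1
  have hdeg : (X ^ p - X : K[X]).natDegree = p := FiniteField.X_pow_card_sub_X_natDegree_eq K hp1
  let S : Finset K := insert a (Finset.univ.image (algebraMap (ZMod p) K))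
  have hS : S.card = p + 1 := by
    rw [Finset.card_insert_of_notMem, Finset.card_image_of_injective _ (algebraMap (ZMod p) K).injective,
      Finset.card_univ, ZMod.card]
    intro h
    obtain ⟨c, -, hc⟩ := Finset.mem_image.mp h
    exact hne c hc
  have hsub : S.val ⊆ (X ^ p - X : K[X]).roots := by
    intro b hb
    rw [mem_roots hP, IsRoot.def, eval_sub, eval_pow, eval_X, sub_eq_zero]
    rcases Finset.mem_insert.mp hb with rfl | hb
    · exact ha
    · obtain ⟨c, -, rfl⟩ := Finset.mem_image.mp hb
      rw [← map_pow, ZMod.pow_card]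
  have h1 : S.card ≤ Multiset.card (X ^ p - X : K[X]).roots :=
    Multiset.card_le_card ((Multiset.le_iff_subset S.nodup).mpr hsub)
  have h2 := (X ^ p - X : K[X]).card_roots'
  omega

end FF

theorem isFrob_frobPt : IsFrob (W₀⁄K).toAffine p (frobPt p W₀ K) where
  map_zero := map_zero _
  ne_zero := by
    intro P hP h
    apply hP
    exact Point.map_injective (W' := W₀.toAffine) (FiniteField.frobeniusAlgHom (ZMod p) K)
      (h.trans (map_zero _).symm)
  xc := by
    intro P
    rcases P with _ | ⟨x, y, h⟩
    · have : (0 : K) ^ p = 0 := zero_pow (Fact.out : p.Prime).ne_zero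
      exact this.symm
    · exact FF.frob_apply p K x
  yc := by
    intro P
    rcases P with _ | ⟨x, y, h⟩
    · have : (0 : K) ^ p = 0 := zero_pow (Fact.out : p.Prime).ne_zero
      exact this.symm
    · have e : yc (frobPt p W₀ K (Point.some x y h)) =
          2 * (FiniteField.frobeniusAlgHom (ZMod p) K y) + (W₀⁄K).toAffine.a₁ *
            (FiniteField.frobeniusAlgHom (ZMod p) K x) + (W₀⁄K).toAffine.a₃ := rfl
      rw [e, Fermat.Agent.S05.yc_some, ← FF.frob_apply p K]
      simp only [map_add, map_mul, map_ofNat]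
      have h1 : FiniteField.frobeniusAlgHom (ZMod p) K (W₀⁄K).toAffine.a₁ = (W₀⁄K).toAffine.a₁ := by
        change FiniteField.frobeniusAlgHom (ZMod p) K (algebraMap (ZMod p) K W₀.a₁) = _
        rw [AlgHom.commutes]; rfl
      have h3 : FiniteField.frobeniusAlgHom (ZMod p) K (W₀⁄K).toAffine.a₃ = (W₀⁄K).toAffine.a₃ := by
        change FiniteField.frobeniusAlgHom (ZMod p) K (algebraMap (ZMod p) K W₀.a₃) = _
        rw [AlgHom.commutes]; rfl
      rw [h1, h3]

theorem card_fixed_frobPt :
    Nat.card {P : (W₀⁄K).toAffine.Point // frobPt p W₀ K P = P} = Nat.card W₀.toAffine.Point := by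
  have hinj : Function.Injective (algebraMap (ZMod p) K) := (algebraMap (ZMod p) K).injective
  have hfix : ∀ c : ZMod p, FiniteField.frobeniusAlgHom (ZMod p) K (algebraMap (ZMod p) K c)
      = algebraMap (ZMod p) K c := fun c => AlgHom.commutes _ c
  let f : W₀.toAffine.Point → {P : (W₀⁄K).toAffine.Point // frobPt p W₀ K P = P} := fun P =>
    match P with
    | .zero => ⟨0, map_zero _⟩
    | .some x y h => ⟨Point.some (algebraMap (ZMod p) K x) (algebraMap (ZMod p) K y)
        ((W₀.toAffine.map_nonsingular hinj x y).mpr h), by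
          change Point.some _ _ _ = Point.some _ _ _
          simp only [hfix]⟩
  refine (Nat.card_congr (Equiv.ofBijective f ⟨?_, ?_⟩)).symm
  · rintro (_ | ⟨x₁, y₁, h₁⟩) (_ | ⟨x₂, y₂, h₂⟩) h
    · rfl
    · exact absurd (congrArg Subtype.val h) (Point.some_ne_zero _).symm
    · exact absurd (congrArg Subtype.val h) (Point.some_ne_zero _)
    · have h' := congrArg Subtype.val h
      have h'' : Point.some (algebraMap (ZMod p) K x₁) (algebraMap (ZMod p) K y₁)
          ((W₀.toAffine.map_nonsingular hinj x₁ y₁).mpr h₁) =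
          Point.some (algebraMap (ZMod p) K x₂) (algebraMap (ZMod p) K y₂)
          ((W₀.toAffine.map_nonsingular hinj x₂ y₂).mpr h₂) := h'
      simp only [Point.some.injEq] at h''
      obtain ⟨hx, hy⟩ := h''
      have hx' := hinj hx
      have hy' := hinj hy
      subst hx' hy'
      rfl
  · rintro ⟨P, hP⟩
    rcases P with _ | ⟨x, y, h⟩
    · exact ⟨.zero, rfl⟩
    · have hP' : Point.some (FiniteField.frobeniusAlgHom (ZMod p) K x)
          (FiniteField.frobeniusAlgHom (ZMod p) K y)
          ((W₀.toAffine.baseChange_nonsingular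
            (FiniteField.frobeniusAlgHom (ZMod p) K).injective ..).mpr h) = Point.some x y h := hP
      simp only [Point.some.injEq, FF.frob_apply] at hP'
      obtain ⟨c, rfl⟩ := FF.exists_of_pow_eq p K x hP'.1
      obtain ⟨d, rfl⟩ := FF.exists_of_pow_eq p K y hP'.2
      exact ⟨.some c d ((W₀.toAffine.map_nonsingular hinj c d).mp h), rfl⟩

theorem separable_X_pow_sub_X : (X ^ p - X : K[X]).Separable := by
  have : CharP K p := charP_of_injective_algebraMap (algebraMap (ZMod p) K).injective p
  exact galois_poly_separable p p (dvd_refl p)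
end FF

end Fermat.Agent.S52
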