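import Fermat.Agent.S52.FrobSeedPoly

/-! # S52, task FS2: Manin's count `deg (Φ - 1) = #Fix Φ`. -/

set_option autoImplicit false
open WeierstrassCurve WeierstrassCurve.Affine Polynomial
open Fermat.Agent.DivPoly (px pz)
open Fermat.Agent.S05 (xc yc)

namespace Fermat.Agent.S52

namespace FS2

variable {K : Type*} [Field K] {W : Affine K}

/-- a nonzero point is determined by `xc` and `yc` -/
lemma eq_of_xc_yc (h2 : (2 : K) ≠ 0) {P Q : W.Point} (hP : P ≠ 0) (hQ : Q ≠ 0)
    (hx : xc P = xc Q) (hy : yc P = yc Q) : P = Q := by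
  rcases P with _ | ⟨x₁, y₁, h₁⟩
  · exact absurd rfl hP
  rcases Q with _ | ⟨x₂, y₂, h₂⟩
  · exact absurd rfl hQ
  simp only [Fermat.Agent.S05.xc_some] at hx
  subst hx
  simp only [Fermat.Agent.S05.yc_some] at hy
  have : y₁ = y₂ := by
    have h : 2 * (y₁ - y₂) = 0 := by linear_combination hy
    exact sub_eq_zero.mp ((mul_eq_zero.mp h).resolve_left h2)
  subst this
  rfl

lemma neg_ne_zero' {P : W.Point} (hP : P ≠ 0) : -P ≠ 0 := by
  rcases P with _ | ⟨x₁, y₁, h₁⟩
  · exact absurd rfl hP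
  · exact Point.some_ne_zero _

/-- value of `fsRp` at the `x`-coordinate of a fixed point -/
lemma eval_fsRp (h2 : (2 : K) ≠ 0) {q : ℕ} (hq : Odd q) {P : W.Point} (hP : P ≠ 0)
    (hx : xc P ^ q = xc P) (hy : yc P ^ q = yc P) : (fsRp W q).eval (xc P) = yc P ^ 2 := by
  obtain ⟨m, rfl⟩ := hq
  have hm : (2 * m + 1 + 1) / 2 = m + 1 := by omega
  have hD : (fsD W).eval (xc P) = yc P ^ 2 := by
    rw [Fermat.Agent.S05.yc_sq P hP]
    simp [fsD, Fermat.Agent.S05.D2]
  have hS : (fsS1 W (2 * m + 1)).eval (xc P) = yc P ^ 2 := by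
    rw [Fermat.Agent.S05.yc_sq P hP]
    simp only [fsS1, Fermat.Agent.DivPoly.T1, eval_add, eval_mul, eval_pow, eval_X, eval_C,
      eval_ofNat, eval_one, hx, Fermat.Agent.S05.D2]
    ring
  have hpow : (yc P ^ 2) ^ (m + 1) = yc P ^ 2 := by
    calc (yc P ^ 2) ^ (m + 1) = yc P ^ (2 * m + 1) * yc P := by ring
      _ = yc P ^ 2 := by rw [hy]; ring
  rw [fsRp, hm, eval_mul, eval_C, eval_add, eval_pow, hD, hS, hpow]
  field_simp
  ring

end FS2

theorem hasDeg_frob_sub_id {K : Type*} [Field K] [DecidableEq K] [IsAlgClosed K] {W : Affine K}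
    (hΔ : W.Δ ≠ 0) (h2 : (2 : K) ≠ 0) {q : ℕ} (hq : Odd q) (hq1 : 1 < q)
    (hsep : (X ^ q - X : K[X]).Separable) {Φ : W.Point → W.Point} (hΦ : IsFrob W q Φ) :
    HasDeg W (Φ - id) (Nat.card {P : W.Point // Φ P = P}) := by
  classical
  obtain ⟨F, G, hX, hFG⟩ := exists_xrat_frob_sub_id hΔ h2 hq hq1 hΦ
  obtain ⟨hRm, hRd⟩ := monic_fsRp W h2 hq hq1
  suffices hcard : F.natDegree = Nat.card {P : W.Point // Φ P = P} by
    rw [← hcard]; exact ⟨F, G, hX⟩
  have hF0 : F ≠ 0 := hX.monic.ne_zero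
  have hQ0 : (X ^ q - X : K[X]) ≠ 0 := FiniteField.X_pow_card_sub_X_ne_zero K hq1
  have hQd : (X ^ q - X : K[X]).natDegree = q := FiniteField.X_pow_card_sub_X_natDegree_eq K hq1
  have hL0 : F * (X ^ q - X) ^ 2 ≠ 0 := mul_ne_zero hF0 (pow_ne_zero 2 hQ0)
  have hG0 : G ≠ 0 := by
    rintro rfl
    rw [zero_mul] at hFG
    exact hL0 hFG
  have hR0 : fsRp W q ≠ 0 := hRm.ne_zero
  -- degrees
  have hdeg : F.natDegree = G.natDegree + 1 := by
    have h := congrArg natDegree hFG
    rw [natDegree_mul hF0 (pow_ne_zero 2 hQ0), natDegree_mul hG0 hR0, natDegree_pow, hQd, hRd] at h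
    omega
  -- fixed points and roots of `G`
  have hfix : ∀ P : W.Point, P ≠ 0 → (G.eval (xc P) = 0 ↔ Φ P = P) := by
    intro P hP
    rcases P with _ | ⟨x, y, h⟩
    · exact absurd rfl hP
    obtain ⟨c, hc, -, hG⟩ := hX.rep x y h
    rw [Fermat.Agent.S05.xc_some, hG, mul_eq_zero, or_iff_right hc,
      Fermat.Agent.DivPoly.pz_eq_zero_iff, Pi.sub_apply, id, sub_eq_zero]
  -- a chosen point above each `x`
  have hpt : ∀ x : K, ∃ P : W.Point, P ≠ 0 ∧ xc P = x := by
    intro x
    obtain ⟨y, hy⟩ := Fermat.Agent.DivPoly.exists_point' W hΔ x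
    exact ⟨Point.some x y hy, Point.some_ne_zero _, rfl⟩
  choose pt hpt0 hptx using hpt
  -- multiplicities
  have hmult : ∀ x ∈ G.roots.toFinset,
      ({pt x, -pt x} : Finset W.Point).card = G.roots.count x := by
    intro x hx
    rw [Multiset.mem_toFinset, mem_roots hG0, IsRoot.def] at hx
    have hPfix : Φ (pt x) = pt x := (hfix _ (hpt0 x)).mp (by rw [hptx]; exact hx)
    have hxq : xc (pt x) ^ q = xc (pt x) := by rw [← hΦ.xc, hPfix]
    have hyq : yc (pt x) ^ q = yc (pt x) := by rw [← hΦ.yc, hPfix]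
    have hRx := FS2.eval_fsRp h2 hq (hpt0 x) hxq hyq
    rw [hptx] at hRx hxq
    have hFx : F.eval x ≠ 0 := fun h => hX.noroot x ⟨h, hx⟩
    have hQroot : (X ^ q - X : K[X]).IsRoot x := by
      rw [IsRoot.def, eval_sub, eval_pow, eval_X, hxq, sub_self]
    have hQm : rootMultiplicity x (X ^ q - X : K[X]) = 1 :=
      le_antisymm (rootMultiplicity_le_one_of_separable hsep x)
        ((rootMultiplicity_pos hQ0).mpr hQroot)
    have hm := congrArg (rootMultiplicity x) hFG
    rw [rootMultiplicity_mul hL0, pow_two, rootMultiplicity_mul (mul_ne_zero hQ0 hQ0), hQm,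
      rootMultiplicity_eq_zero (show ¬ IsRoot F x from hFx),
      rootMultiplicity_mul (mul_ne_zero hG0 hR0)] at hm
    have hGm : 0 < rootMultiplicity x G := (rootMultiplicity_pos hG0).mpr hx
    rw [count_roots]
    by_cases hy : yc (pt x) = 0
    · have hRroot : (fsRp W q).IsRoot x := by rw [IsRoot.def, hRx, hy]; ring
      have hRm' : 0 < rootMultiplicity x (fsRp W q) := (rootMultiplicity_pos hR0).mpr hRroot
      have heq : -pt x = pt x := by
        apply FS2.eq_of_xc_yc h2 (FS2.neg_ne_zero' (hpt0 x)) (hpt0 x)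
          (Fermat.Agent.S05.xc_neg _)
        rw [Fermat.Agent.S05.yc_neg, hy, neg_zero]
      rw [heq, Finset.pair_eq_singleton, Finset.card_singleton]
      omega
    · have hRroot : ¬ (fsRp W q).IsRoot x := by
        rw [IsRoot.def, hRx]; exact pow_ne_zero 2 hy
      rw [rootMultiplicity_eq_zero hRroot] at hm
      have hne : pt x ≠ -pt x := by
        intro h
        have h' := congrArg yc h
        rw [Fermat.Agent.S05.yc_neg] at h'
        apply hy
        have h'' : 2 * yc (pt x) = 0 := by linear_combination h'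
        exact (mul_eq_zero.mp h'').resolve_left h2
      rw [Finset.card_pair hne]
      omega
  -- the finite set of nonzero fixed points
  let S : Finset W.Point := G.roots.toFinset.biUnion fun x => {pt x, -pt x}
  have hScard : S.card = G.natDegree := by
    rw [Finset.card_biUnion, Finset.sum_congr rfl hmult, Multiset.toFinset_sum_count_eq,
      IsAlgClosed.card_roots_eq_natDegree]
    intro x _ x' _ hxx'
    rw [Function.onFun, Finset.disjoint_left]
    intro P hP hP'
    apply hxx'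
    have e1 : xc P = x := by
      rcases Finset.mem_insert.mp hP with rfl | hP
      · exact hptx x
      · rw [Finset.mem_singleton.mp hP, Fermat.Agent.S05.xc_neg]; exact hptx x
    have e2 : xc P = x' := by
      rcases Finset.mem_insert.mp hP' with rfl | hP'
      · exact hptx x'
      · rw [Finset.mem_singleton.mp hP', Fermat.Agent.S05.xc_neg]; exact hptx x'
    rw [← e1, e2]
  have hSmem : ∀ P : W.Point, P ∈ S ↔ (P ≠ 0 ∧ Φ P = P) := by
    intro P
    simp only [S, Finset.mem_biUnion, Multiset.mem_toFinset, mem_roots hG0, IsRoot.def,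
      Finset.mem_insert, Finset.mem_singleton]
    constructor
    · rintro ⟨x, hx, rfl | rfl⟩
      · exact ⟨hpt0 x, (hfix _ (hpt0 x)).mp (by rw [hptx]; exact hx)⟩
      · refine ⟨FS2.neg_ne_zero' (hpt0 x), (hfix _ (FS2.neg_ne_zero' (hpt0 x))).mp ?_⟩
        rw [Fermat.Agent.S05.xc_neg, hptx]; exact hx
    · rintro ⟨hP0, hP⟩
      refine ⟨xc P, (hfix P hP0).mpr hP, ?_⟩
      exact Fermat.Agent.S05.eq_or_eq_neg_of_xc_eq hP0 (hpt0 _) (hptx _).symm
  have h0S : (0 : W.Point) ∉ S := fun h => ((hSmem 0).mp h).1 rfl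
  rw [hdeg, ← hScard, ← Finset.card_insert_of_notMem h0S]
  symm
  apply Nat.subtype_card
  intro P
  rw [Finset.mem_insert, hSmem]
  constructor
  · rintro (rfl | h)
    · exact hΦ.map_zero
    · exact h.2
  · intro h
    by_cases hP : P = 0
    · exact Or.inl hP
    · exact Or.inr ⟨hP, h⟩

end Fermat.Agent.S52
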