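import Fermat.Agent.S52.SignedAddSub

/-! # S52, task FS1: the `x`-rational description of `Φ` and of `Φ - id` -/

set_option autoImplicit false
open WeierstrassCurve WeierstrassCurve.Affine Polynomial
open Fermat.Agent.DivPoly (px pz)
open Fermat.Agent.S05 (xc yc)

namespace Fermat.Agent.S52

namespace FS1

open Fermat.Agent.DivPoly

variable {K : Type*} [Field K]

/-- reduce a fraction `p / s` with monic numerator to lowest terms -/
lemma exists_reduced {p s : K[X]} (hp : p.Monic) :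
    ∃ g F G : K[X], p = g * F ∧ s = g * G ∧ F.Monic ∧ IsCoprime F G ∧ g ≠ 0 := by
  classical
  let _ := EuclideanDomain.gcdMonoid K[X]
  obtain ⟨F', G', hF, hG, hu⟩ := extract_gcd p s
  have hcop : IsCoprime F' G' := (gcd_isUnit_iff F' G').1 hu
  set g := gcd p s
  have hF0 : F' ≠ 0 := by
    rintro rfl
    rw [mul_zero] at hF
    exact hp.ne_zero hF
  have hg0 : g ≠ 0 := by
    intro h
    rw [h, zero_mul] at hF
    exact hp.ne_zero hF
  set u := F'.leadingCoeff with hu'
  have hu0 : u ≠ 0 := leadingCoeff_ne_zero.mpr hF0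
  have hCu : (C u⁻¹ : K[X]) * C u = 1 := by rw [← C_mul, inv_mul_cancel₀ hu0, C_1]
  have hunit : IsUnit (C u⁻¹ : K[X]) := IsUnit.of_mul_eq_one _ hCu
  refine ⟨C u * g, C u⁻¹ * F', C u⁻¹ * G', ?_, ?_, ?_, ?_, ?_⟩
  · rw [hF]; linear_combination (-(g * F')) * hCu
  · rw [hG]; linear_combination (-(g * G')) * hCu
  · exact monic_C_mul_of_mul_leadingCoeff_eq_one (inv_mul_cancel₀ hu0)
  · exact (isCoprime_mul_unit_left hunit _ _).2 hcop
  · exact mul_ne_zero (C_ne_zero.mpr hu0) hg0

lemma prop_of_det {u₁ u₂ v₁ v₂ : K} (hu : ¬ (u₁ = 0 ∧ u₂ = 0)) (hv : ¬ (v₁ = 0 ∧ v₂ = 0))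
    (hdet : u₁ * v₂ = u₂ * v₁) : ∃ c : K, c ≠ 0 ∧ u₁ = c * v₁ ∧ u₂ = c * v₂ := by
  by_cases h1 : v₁ = 0
  · have h2 : v₂ ≠ 0 := fun h => hv ⟨h1, h⟩
    have hu1 : u₁ = 0 := by
      rw [h1, mul_zero] at hdet
      exact (mul_eq_zero.mp hdet).resolve_right h2
    have hu2 : u₂ ≠ 0 := fun h => hu ⟨hu1, h⟩
    exact ⟨u₂ / v₂, div_ne_zero hu2 h2, by rw [hu1, h1, mul_zero], by field_simp⟩
  · have hu1 : u₁ ≠ 0 := by
      intro h
      rw [h, zero_mul] at hdet
      exact hu ⟨h, (mul_eq_zero.mp hdet.symm).resolve_right h1⟩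
    refine ⟨u₁ / v₁, div_ne_zero hu1 h1, by field_simp, ?_⟩
    field_simp
    linear_combination -hdet

lemma eval_fsD (W : Affine K) (x : K) : (fsD W).eval x = Fermat.Agent.S05.D2 W x := by
  simp [fsD, Fermat.Agent.S05.D2]

lemma eval_fsS0 (W : Affine K) (q : ℕ) (x : K) :
    (fsS0 W q).eval x = T0 W.b₄ W.b₆ W.b₈ (x ^ q * x) (x ^ q + x) 1 := by
  simp [fsS0, T0]

lemma eval_fsS1 (W : Affine K) (q : ℕ) (x : K) :
    (fsS1 W q).eval x = T1 W.b₂ W.b₄ W.b₆ (x ^ q * x) (x ^ q + x) 1 := by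
  simp [fsS1, T1]

lemma half_mul_two (h2 : (2 : K) ≠ 0) : (C (1 / 2 : K) : K[X]) * 2 = 1 := by
  rw [← map_ofNat C 2, ← C_mul, one_div_mul_cancel h2, C_1]

end FS1

theorem hasDeg_frob {K : Type*} [Field K] [DecidableEq K] {W : Affine K} {q : ℕ} (hq : 0 < q)
    {Φ : W.Point → W.Point} (hΦ : IsFrob W q Φ) : HasDeg W Φ q := by
  refine ⟨X ^ q, 1, monic_X_pow q, natDegree_X_pow q, ?_, by simp, hΦ.map_zero, fun x y h => ?_⟩
  · rw [degree_one]; exact_mod_cast hq
  · have hne : Φ (Point.some x y h) ≠ 0 := hΦ.ne_zero _ (Point.some_ne_zero _)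
    refine ⟨1, one_ne_zero, ?_, ?_⟩
    · rw [Fermat.Agent.DivPoly.px_of_ne hne, hΦ.xc]; simp
    · rw [Fermat.Agent.DivPoly.pz_of_ne hne]; simp

theorem monic_fsRp {K : Type*} [Field K] (W : Affine K) (h2 : (2 : K) ≠ 0) {q : ℕ} (hq : Odd q)
    (hq1 : 1 < q) : (fsRp W q).Monic ∧ (fsRp W q).natDegree = 2 * q + 1 := by
  obtain ⟨m, rfl⟩ := hq
  have hm : 0 < m := by omega
  have hhalf : (2 * m + 1 + 1) / 2 = m + 1 := by omega
  have h12 := FS1.half_mul_two h2
  set R : K[X] := X ^ (2 * m + 1 + 2) + C (1 / 2) * (C W.b₂ * X ^ (2 * m + 1 + 1)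
    + C W.b₄ * (X ^ (2 * m + 1) + X) + C W.b₆ + fsD W ^ (m + 1)) with hR
  have heq : fsRp W (2 * m + 1) = X ^ (2 * (2 * m + 1) + 1) + R := by
    rw [hR, fsRp, fsS1, hhalf, Fermat.Agent.DivPoly.T1]
    linear_combination (X ^ (2 * (2 * m + 1) + 1) + X ^ (2 * m + 1 + 2)) * h12
  have hD : (fsD W).natDegree ≤ 3 := by
    unfold fsD
    compute_degree
  have hDp : (fsD W ^ (m + 1)).natDegree ≤ 3 * (m + 1) :=
    (natDegree_pow_le_of_le (m + 1) hD).trans (by omega)
  have hRd : R.natDegree < 2 * (2 * m + 1) + 1 := by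
    have : R.natDegree ≤ 2 * (2 * m + 1) := by
      rw [hR]
      refine natDegree_add_le_of_degree_le ((natDegree_X_pow_le _).trans (by omega))
        ((natDegree_C_mul_le _ _).trans ?_)
      refine natDegree_add_le_of_degree_le (natDegree_add_le_of_degree_le
        (natDegree_add_le_of_degree_le ?_ ?_) ?_) (hDp.trans (by omega))
      · exact (natDegree_C_mul_le _ _).trans ((natDegree_X_pow_le _).trans (by omega))
      · refine (natDegree_C_mul_le _ _).trans (natDegree_add_le_of_degree_le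
          ((natDegree_X_pow_le _).trans (by omega)) (natDegree_X_le.trans (by omega)))
      · exact (natDegree_C _).le.trans (by omega)
    omega
  have hX : (X ^ (2 * (2 * m + 1) + 1) : K[X]).natDegree = 2 * (2 * m + 1) + 1 := natDegree_X_pow _
  rw [heq]
  refine ⟨(monic_X_pow _).add_of_left (degree_lt_degree (by rw [hX]; exact hRd)), ?_⟩
  rw [natDegree_add_eq_left_of_natDegree_lt (by rw [hX]; exact hRd), hX]

open Fermat.Agent.DivPoly in
theorem exists_xrat_frob_sub_id {K : Type*} [Field K] [DecidableEq K] [IsAlgClosed K] {W : Affine K}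
    (hΔ : W.Δ ≠ 0) (h2 : (2 : K) ≠ 0) {q : ℕ} (hq : Odd q) (hq1 : 1 < q)
    {Φ : W.Point → W.Point} (hΦ : IsFrob W q Φ) :
    ∃ F G : K[X], XRat W (Φ - id) F.natDegree F G ∧ F * (X ^ q - X) ^ 2 = G * fsRp W q := by
  obtain ⟨hmon, hdeg⟩ := monic_fsRp W h2 hq hq1
  set S2 : K[X] := (X ^ q - X) ^ 2 with hS2
  set Ψ : W.Point → W.Point := Φ - id with hΨ
  -- pointwise relations
  have pw : ∀ (x y : K) (h : W.Nonsingular x y),
      px (Ψ (Point.some x y h)) * S2.eval x
        = pz (Ψ (Point.some x y h)) * (fsRp W q).eval x ∧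
      px (Ψ (Point.some x y h)) * (fsRm W q).eval x
        = pz (Ψ (Point.some x y h)) * (fsS0 W q).eval x := by
    intro x y h
    have hP : (Point.some x y h : W.Point) ≠ 0 := Point.some_ne_zero _
    have hne : Φ (Point.some x y h) ≠ 0 := hΦ.ne_zero _ hP
    obtain ⟨e1, e2⟩ := signed_addSub hΔ hne hP
    rw [hΦ.xc, hΦ.yc] at e1 e2
    have hρ : yc (Point.some x y h : W.Point) ^ q * yc (Point.some x y h : W.Point)
        = (fsD W ^ ((q + 1) / 2)).eval x := by
      obtain ⟨m, rfl⟩ := hq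
      have hhalf : (2 * m + 1 + 1) / 2 = m + 1 := by omega
      rw [hhalf, eval_pow, FS1.eval_fsD]
      have := Fermat.Agent.S05.yc_sq (Point.some x y h : W.Point) hP
      rw [Fermat.Agent.S05.xc_some] at this
      rw [← this]
      ring
    rw [hρ, Fermat.Agent.S05.xc_some, ← FS1.eval_fsS1] at e1 e2
    rw [← FS1.eval_fsS0] at e2
    have hT2 : T2 (x ^ q * x) (x ^ q + x) 1 = S2.eval x := by
      simp only [hS2, T2, eval_pow, eval_sub, eval_X]; ring
    rw [hT2] at e1
    have hsub : Ψ (Point.some x y h) = Φ (Point.some x y h) - Point.some x y h := rfl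
    rw [hsub]
    constructor
    · apply mul_left_cancel₀ h2
      simp only [fsRp, eval_mul, eval_C, eval_add]
      field_simp
      linear_combination e1
    · apply mul_left_cancel₀ h2
      simp only [fsRm, eval_mul, eval_C, eval_sub]
      field_simp
      linear_combination e2
  -- not all four vanish
  have nz : ∀ x : K, ¬ (S2.eval x = 0 ∧ (fsRp W q).eval x = 0 ∧ (fsRm W q).eval x = 0 ∧
      (fsS0 W q).eval x = 0) := by
    rintro x ⟨z2, zp, zm, z0⟩
    have z1 : (fsS1 W q).eval x = 0 := by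
      have : (fsS1 W q).eval x = (fsRp W q).eval x + (fsRm W q).eval x := by
        simp only [fsRp, fsRm, eval_mul, eval_C, eval_add, eval_sub]
        field_simp
        ring
      rw [this, zp, zm, add_zero]
    have hT2 : T2 (x ^ q * x) (x ^ q + x) 1 = 0 := by
      rw [← z2]
      simp only [hS2, T2, eval_pow, eval_sub, eval_X]; ring
    rw [FS1.eval_fsS0] at z0
    rw [FS1.eval_fsS1] at z1
    exact one_ne_zero (T_ne_zero W hΔ z0 z1 hT2).2.2
  -- the polynomial identity
  have hprod : fsRp W q * fsRm W q = fsS0 W q * S2 := by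
    apply Polynomial.funext
    intro x
    obtain ⟨y, h⟩ := exists_point' W hΔ x
    obtain ⟨e1, e2⟩ := pw x y h
    have hab := px_pz_ne_zero (Ψ (Point.some x y h))
    set a := px (Ψ (Point.some x y h))
    set b := pz (Ψ (Point.some x y h))
    rw [eval_mul, eval_mul]
    have hA : a * ((fsRp W q).eval x * (fsRm W q).eval x - (fsS0 W q).eval x * S2.eval x) = 0 := by
      linear_combination (fsRp W q).eval x * e2 - (fsS0 W q).eval x * e1
    have hB : b * ((fsRp W q).eval x * (fsRm W q).eval x - (fsS0 W q).eval x * S2.eval x) = 0 := by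
      linear_combination (-(fsRm W q).eval x) * e1 + S2.eval x * e2
    by_cases ha : a = 0
    · have hb : b ≠ 0 := fun hb => hab ⟨ha, hb⟩
      exact sub_eq_zero.mp ((mul_eq_zero.mp hB).resolve_left hb)
    · exact sub_eq_zero.mp ((mul_eq_zero.mp hA).resolve_left ha)
  obtain ⟨g, F, G, hF, hG, hFm, hcop, hg0⟩ := FS1.exists_reduced (p := fsRp W q) (s := S2) hmon
  have r1 : F * S2 = G * fsRp W q := by rw [hF, hG]; ring
  have r2 : F * fsRm W q = G * fsS0 W q := by
    apply mul_left_cancel₀ hg0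
    have := hprod
    rw [hF, hG] at this
    linear_combination this
  have hXq : (X ^ q - X : K[X]).Monic := by
    apply monic_X_pow_sub
    rw [degree_X]
    exact_mod_cast hq1
  have hXqd : (X ^ q - X : K[X]).natDegree = q := by
    rw [natDegree_sub_eq_left_of_natDegree_lt (by rw [natDegree_X, natDegree_X_pow]; exact hq1),
      natDegree_X_pow]
  have hS2m : S2.Monic := hXq.pow 2
  have hS2d : S2.natDegree = 2 * q := by rw [hS2, hXq.natDegree_pow, hXqd]
  have hG0 : G ≠ 0 := by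
    rintro rfl
    rw [mul_zero] at hG
    exact hS2m.ne_zero hG
  have hdegs : F.natDegree + 2 * q = G.natDegree + (2 * q + 1) := by
    have := congrArg natDegree r1
    rw [hFm.natDegree_mul hS2m, natDegree_mul hG0 hmon.ne_zero, hS2d, hdeg] at this
    exact this
  refine ⟨F, G, ⟨hFm, rfl, ?_, ?_, ?_, ?_⟩, r1⟩
  · rw [degree_eq_natDegree hG0]
    norm_cast
    omega
  · rintro x ⟨hx1, hx2⟩
    obtain ⟨u, v, huv⟩ := hcop
    have := congrArg (eval x) huv
    simp [hx1, hx2] at this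
  · show Φ 0 - id 0 = 0
    rw [hΦ.map_zero]; simp
  · intro x y h
    obtain ⟨e1, e2⟩ := pw x y h
    have hab := px_pz_ne_zero (Ψ (Point.some x y h))
    set a := px (Ψ (Point.some x y h))
    set b := pz (Ψ (Point.some x y h))
    have f1 : F.eval x * S2.eval x = G.eval x * (fsRp W q).eval x := by
      rw [← eval_mul, r1, eval_mul]
    have f2 : F.eval x * (fsRm W q).eval x = G.eval x * (fsS0 W q).eval x := by
      rw [← eval_mul, r2, eval_mul]
    have hFG : ¬ (F.eval x = 0 ∧ G.eval x = 0) := by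
      rintro ⟨hx1, hx2⟩
      obtain ⟨u, v, huv⟩ := hcop
      have := congrArg (eval x) huv
      simp [hx1, hx2] at this
    apply FS1.prop_of_det hFG hab
    have d1 : (F.eval x * b - G.eval x * a) * S2.eval x = 0 := by
      linear_combination b * f1 - G.eval x * e1
    have d2 : (F.eval x * b - G.eval x * a) * (fsRp W q).eval x = 0 := by
      linear_combination a * f1 - F.eval x * e1
    have d3 : (F.eval x * b - G.eval x * a) * (fsRm W q).eval x = 0 := by
      linear_combination b * f2 - G.eval x * e2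
    have d4 : (F.eval x * b - G.eval x * a) * (fsS0 W q).eval x = 0 := by
      linear_combination a * f2 - F.eval x * e2
    by_contra hne
    have hne' : F.eval x * b - G.eval x * a ≠ 0 := fun h => hne (sub_eq_zero.mp h)
    exact nz x ⟨(mul_eq_zero.mp d1).resolve_left hne', (mul_eq_zero.mp d2).resolve_left hne',
      (mul_eq_zero.mp d3).resolve_left hne', (mul_eq_zero.mp d4).resolve_left hne'⟩

end Fermat.Agent.S52
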