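import Mathlib

/-! # S52, task LAT: a relation satisfying the parallelogram law is a quadratic form on `ℤe + ℤf` -/

set_option autoImplicit false

namespace Fermat.Agent.S52

namespace LAT

variable {M : Type*} [AddCommGroup M] (H : M → ℕ → Prop)

/-- propagation along a line `x₀ + ℤ g`. -/
theorem line (hneg : ∀ x d, H x d → H (-x) d)
    (hadd : ∀ x y a b c, H x a → H y b → H (x - y) c → ∃ d, H (x + y) d ∧ d + c = 2 * a + 2 * b)
    (x₀ g : M) (G : ℕ) (hg : H g G) (q : ℤ → ℤ)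
    (hq : ∀ k, q (k + 1) + q (k - 1) = 2 * q k + 2 * G)
    (h0 : ∃ d : ℕ, H x₀ d ∧ (d : ℤ) = q 0)
    (h1 : ∃ d : ℕ, H (x₀ - g) d ∧ (d : ℤ) = q (-1)) (k : ℤ) :
    ∃ d : ℕ, H (x₀ + k • g) d ∧ (d : ℤ) = q k := by
  have up : ∀ k : ℤ, (∃ d : ℕ, H (x₀ + k • g) d ∧ (d : ℤ) = q k) →
      (∃ d : ℕ, H (x₀ + (k - 1) • g) d ∧ (d : ℤ) = q (k - 1)) →
      ∃ d : ℕ, H (x₀ + (k + 1) • g) d ∧ (d : ℤ) = q (k + 1) := by
    rintro k ⟨a, ha, hqa⟩ ⟨c, hc, hqc⟩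
    have e1 : x₀ + k • g - g = x₀ + (k - 1) • g := by rw [sub_smul, one_smul]; abel
    have e2 : x₀ + k • g + g = x₀ + (k + 1) • g := by rw [add_smul, one_smul]; abel
    obtain ⟨d, hd, hdc⟩ := hadd (x₀ + k • g) g a G c ha hg (e1 ▸ hc)
    refine ⟨d, e2 ▸ hd, ?_⟩
    have := hq k
    have h3 : (d : ℤ) + c = 2 * a + 2 * G := by exact_mod_cast hdc
    linarith
  have down : ∀ k : ℤ, (∃ d : ℕ, H (x₀ + k • g) d ∧ (d : ℤ) = q k) →
      (∃ d : ℕ, H (x₀ + (k + 1) • g) d ∧ (d : ℤ) = q (k + 1)) →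
      ∃ d : ℕ, H (x₀ + (k - 1) • g) d ∧ (d : ℤ) = q (k - 1) := by
    rintro k ⟨a, ha, hqa⟩ ⟨c, hc, hqc⟩
    have e1 : x₀ + k • g - -g = x₀ + (k + 1) • g := by rw [add_smul, one_smul]; abel
    have e2 : x₀ + k • g + -g = x₀ + (k - 1) • g := by rw [sub_smul, one_smul]; abel
    obtain ⟨d, hd, hdc⟩ := hadd (x₀ + k • g) (-g) a G c ha (hneg _ _ hg) (e1 ▸ hc)
    refine ⟨d, e2 ▸ hd, ?_⟩
    have := hq k
    have h3 : (d : ℤ) + c = 2 * a + 2 * G := by exact_mod_cast hdc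
    linarith
  have b0 : ∃ d : ℕ, H (x₀ + (0 : ℤ) • g) d ∧ (d : ℤ) = q 0 := by simpa using h0
  have b1 : ∃ d : ℕ, H (x₀ + (-1 : ℤ) • g) d ∧ (d : ℤ) = q (-1) := by
    simpa [sub_eq_add_neg] using h1
  have pos : ∀ n : ℕ, (∃ d : ℕ, H (x₀ + (n : ℤ) • g) d ∧ (d : ℤ) = q n) ∧
      (∃ d : ℕ, H (x₀ + ((n : ℤ) - 1) • g) d ∧ (d : ℤ) = q ((n : ℤ) - 1)) := by
    intro n
    induction n with
    | zero => exact ⟨by simpa using b0, by simpa using b1⟩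
    | succ n ih =>
      refine ⟨?_, ?_⟩
      · have := up n ih.1 ih.2
        simpa using this
      · have : ((n + 1 : ℕ) : ℤ) - 1 = n := by push_cast; ring
        rw [this]; exact ih.1
  have negc : ∀ n : ℕ, (∃ d : ℕ, H (x₀ + (-(n : ℤ)) • g) d ∧ (d : ℤ) = q (-(n : ℤ))) ∧
      (∃ d : ℕ, H (x₀ + (-(n : ℤ) - 1) • g) d ∧ (d : ℤ) = q (-(n : ℤ) - 1)) := by
    intro n
    induction n with
    | zero => exact ⟨by simpa using b0, by simpa using b1⟩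
    | succ n ih =>
      have e : -((n + 1 : ℕ) : ℤ) = -(n : ℤ) - 1 := by push_cast; ring
      rw [e]
      refine ⟨ih.2, ?_⟩
      have h2 : ∃ d : ℕ, H (x₀ + (-(n : ℤ) - 1 + 1) • g) d ∧ (d : ℤ) = q (-(n : ℤ) - 1 + 1) := by
        rw [sub_add_cancel]; exact ih.1
      exact down _ ih.2 h2
  rcases le_total 0 k with hk | hk
  · obtain ⟨n, rfl⟩ := Int.eq_ofNat_of_zero_le hk
    exact (pos n).1
  · obtain ⟨n, hn⟩ := Int.eq_ofNat_of_zero_le (neg_nonneg.mpr hk)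
    have : k = -(n : ℤ) := by omega
    rw [this]
    exact (negc n).1

end LAT

theorem lattice_deg {M : Type*} [AddCommGroup M] (H : M → ℕ → Prop)
    (h0 : H 0 0) (hneg : ∀ x d, H x d → H (-x) d)
    (hadd : ∀ x y a b c, H x a → H y b → H (x - y) c → ∃ d, H (x + y) d ∧ d + c = 2 * a + 2 * b)
    (e f : M) (A B C : ℕ) (he : H e A) (hf : H f B) (hef : H (e - f) C) (j k : ℤ) :
    ∃ d : ℕ, H (j • e + k • f) d ∧
      (d : ℤ) = A * j ^ 2 + ((A : ℤ) + B - C) * j * k + B * k ^ 2 := by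
  -- row `j = 0`
  have r0 : ∀ k : ℤ, ∃ d : ℕ, H (0 + k • f) d ∧ (d : ℤ) = B * k ^ 2 :=
    LAT.line H hneg hadd 0 f B hf (fun k => B * k ^ 2) (fun k => by ring)
      ⟨0, h0, by simp⟩ ⟨B, by rw [zero_sub]; exact hneg _ _ hf, by simp⟩
  -- row `j = 1`
  have r1 : ∀ k : ℤ, ∃ d : ℕ, H (e + k • f) d ∧
      (d : ℤ) = A + ((A : ℤ) + B - C) * k + B * k ^ 2 :=
    LAT.line H hneg hadd e f B hf (fun k => A + ((A : ℤ) + B - C) * k + B * k ^ 2)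
      (fun k => by ring) ⟨A, he, by simp⟩ ⟨C, hef, by ring⟩
  have := LAT.line H hneg hadd (k • f) e A he
    (fun j => A * j ^ 2 + ((A : ℤ) + B - C) * j * k + B * k ^ 2) (fun j => by ring)
    (by
      obtain ⟨d, hd, hdq⟩ := r0 k
      exact ⟨d, by simpa using hd, by rw [hdq]; ring⟩)
    (by
      obtain ⟨d, hd, hdq⟩ := r1 (-k)
      refine ⟨d, ?_, by rw [hdq]; ring⟩
      have e1 : k • f - e = -(e + (-k) • f) := by rw [neg_smul]; abel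
      rw [e1]
      exact hneg _ _ hd) j
  rwa [add_comm] at this

end Fermat.Agent.S52
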