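import Fermat.Agent.S52.Defs2

/-! # S52, task XA: the parallelogram law for degrees of `x`-rational self-maps -/

set_option autoImplicit false
open WeierstrassCurve WeierstrassCurve.Affine Polynomial
open Fermat.Agent.DivPoly (px pz)
open Fermat.Agent.S05 (xc yc)

namespace Fermat.Agent.S52

namespace XA

open Fermat.Agent.DivPoly

variable {K : Type*} [Field K]

lemma degree_mul_lt' {p q : K[X]} {m n : ℕ} (hp : p.degree < (m : WithBot ℕ))
    (hq : q.degree ≤ (n : WithBot ℕ)) : (p * q).degree < ((m + n : ℕ) : WithBot ℕ) := by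
  rcases eq_or_ne p 0 with rfl | hp0
  · simp
  rcases eq_or_ne q 0 with rfl | hq0
  · simp
  rw [degree_mul, degree_eq_natDegree hp0, degree_eq_natDegree hq0]
  rw [degree_eq_natDegree hp0] at hp
  rw [degree_eq_natDegree hq0] at hq
  norm_cast at *
  omega

lemma degree_C_mul_lt {p : K[X]} {m : ℕ} (c : K) (hp : p.degree < (m : WithBot ℕ)) :
    (C c * p).degree < (m : WithBot ℕ) := by
  have := degree_mul_lt' (m := m) (n := 0) hp (degree_C_le (a := c))
  rwa [mul_comm, add_zero] at this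

/-- the degree bookkeeping -/
lemma degrees (W : Affine K) {s t w : K[X]} {n : ℕ} (hs : s.Monic) (hsd : s.natDegree = n)
    (ht : t.degree < (n : WithBot ℕ)) (hw : w.degree < (n : WithBot ℕ)) :
    (T0 (C W.b₄) (C W.b₆) (C W.b₈) s t w).Monic ∧
    (T0 (C W.b₄) (C W.b₆) (C W.b₈) s t w).natDegree = 2 * n ∧
    (T1 (C W.b₂) (C W.b₄) (C W.b₆) s t w).degree < ((2 * n : ℕ) : WithBot ℕ) := by
  have hs' : s.degree ≤ (n : WithBot ℕ) := by rw [← hsd]; exact degree_le_natDegree
  have h2n : 2 * n = n + n := two_mul n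
  have hws : (w * s).degree < ((2 * n : ℕ) : WithBot ℕ) := h2n ▸ degree_mul_lt' hw hs'
  have hwt : (w * t).degree < ((2 * n : ℕ) : WithBot ℕ) := h2n ▸ degree_mul_lt' hw ht.le
  have hww : (w * w).degree < ((2 * n : ℕ) : WithBot ℕ) := h2n ▸ degree_mul_lt' hw hw.le
  have hts : (t * s).degree < ((2 * n : ℕ) : WithBot ℕ) := h2n ▸ degree_mul_lt' ht hs'
  have hsq : (s ^ 2).Monic := hs.pow 2
  have hsqd : (s ^ 2).natDegree = 2 * n := by rw [hs.natDegree_pow, hsd]
  have hsqd' : (s ^ 2).degree = ((2 * n : ℕ) : WithBot ℕ) := by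
    rw [degree_eq_natDegree hsq.ne_zero, hsqd]
  have hR : (-(C W.b₄ * (w * s)) - C W.b₆ * (w * t) - C W.b₈ * (w * w)).degree
      < ((2 * n : ℕ) : WithBot ℕ) := by
    refine lt_of_le_of_lt (degree_sub_le _ _) (max_lt (lt_of_le_of_lt (degree_sub_le _ _)
      (max_lt ?_ ?_)) ?_)
    · rw [degree_neg]; exact degree_C_mul_lt _ hws
    · exact degree_C_mul_lt _ hwt
    · exact degree_C_mul_lt _ hww
  have heq : T0 (C W.b₄) (C W.b₆) (C W.b₈) s t w = s ^ 2 +
      (-(C W.b₄ * (w * s)) - C W.b₆ * (w * t) - C W.b₈ * (w * w)) := by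
    unfold T0; ring
  have heq1 : T1 (C W.b₂) (C W.b₄) (C W.b₆) s t w = C 2 * (t * s) + C W.b₂ * (w * s)
      + C W.b₄ * (w * t) + C W.b₆ * (w * w) := by
    unfold T1
    simp only [map_ofNat]
    ring
  refine ⟨?_, ?_, ?_⟩
  · rw [heq]
    exact hsq.add_of_left (by rw [hsqd']; exact hR)
  · rw [heq, natDegree_add_eq_left_of_degree_lt (by rw [hsqd']; exact hR), hsqd]
  · rw [heq1]
    refine lt_of_le_of_lt (degree_add_le _ _) (max_lt (lt_of_le_of_lt (degree_add_le _ _)
      (max_lt (lt_of_le_of_lt (degree_add_le _ _) (max_lt ?_ ?_)) ?_)) ?_)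
    · exact degree_C_mul_lt _ hts
    · exact degree_C_mul_lt _ hws
    · exact degree_C_mul_lt _ hwt
    · exact degree_C_mul_lt _ hww

lemma eval_T0 (b4 b6 b8 : K) (s t w : K[X]) (x : K) :
    (T0 (C b4) (C b6) (C b8) s t w).eval x = T0 b4 b6 b8 (s.eval x) (t.eval x) (w.eval x) := by
  simp [T0]

lemma eval_T1 (b2 b4 b6 : K) (s t w : K[X]) (x : K) :
    (T1 (C b2) (C b4) (C b6) s t w).eval x = T1 b2 b4 b6 (s.eval x) (t.eval x) (w.eval x) := by
  simp [T1]

lemma eval_T2 (s t w : K[X]) (x : K) :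
    (T2 s t w).eval x = T2 (s.eval x) (t.eval x) (w.eval x) := by
  simp [T2]

end XA

open Fermat.Agent.DivPoly in
theorem HasDeg.add {K : Type*} [Field K] [DecidableEq K] [IsAlgClosed K] {W : Affine K}
    (hΔ : W.Δ ≠ 0) {α β : W.Point → W.Point} {a b c : ℕ}
    (hα : HasDeg W α a) (hβ : HasDeg W β b) (hsub : HasDeg W (α - β) c) :
    ∃ d, HasDeg W (α + β) d ∧ d + c = 2 * a + 2 * b := by
  obtain ⟨F1, G1, h1⟩ := hα
  obtain ⟨F2, G2, h2⟩ := hβ
  obtain ⟨F0, G0, h0⟩ := hsub
  set s : K[X] := F1 * F2 with hs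
  set t : K[X] := F1 * G2 + G1 * F2 with ht
  set w : K[X] := G1 * G2 with hw
  set S0 : K[X] := T0 (C W.b₄) (C W.b₆) (C W.b₈) s t w with hS0
  set S1 : K[X] := T1 (C W.b₂) (C W.b₄) (C W.b₆) s t w with hS1
  set S2 : K[X] := T2 s t w with hS2
  -- pointwise description
  have pointwise : ∀ (x y : K) (h : W.Nonsingular x y), ∃ e : K, e ≠ 0 ∧
      S0.eval x = e * (px ((α + β) (Point.some x y h)) * px ((α - β) (Point.some x y h))) ∧
      S1.eval x = e * (px ((α + β) (Point.some x y h)) * pz ((α - β) (Point.some x y h))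
          + pz ((α + β) (Point.some x y h)) * px ((α - β) (Point.some x y h))) ∧
      S2.eval x = e * (pz ((α + β) (Point.some x y h)) * pz ((α - β) (Point.some x y h))) := by
    intro x y h
    obtain ⟨c1, hc1, eF1, eG1⟩ := h1.rep x y h
    obtain ⟨c2, hc2, eF2, eG2⟩ := h2.rep x y h
    obtain ⟨e, he, e0, e1, e2⟩ := addSub hΔ (α (Point.some x y h)) (β (Point.some x y h))
    refine ⟨(c1 * c2) ^ 2 * e, mul_ne_zero (pow_ne_zero 2 (mul_ne_zero hc1 hc2)) he, ?_, ?_, ?_⟩
    · rw [hS0, XA.eval_T0, Pi.add_apply, Pi.sub_apply, mul_assoc, ← e0, ← T0_smul]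
      simp only [hs, ht, hw, eval_add, eval_mul, eF1, eG1, eF2, eG2]
      congr 1 <;> ring
    · rw [hS1, XA.eval_T1, Pi.add_apply, Pi.sub_apply, mul_assoc, ← e1, ← T1_smul]
      simp only [hs, ht, hw, eval_add, eval_mul, eF1, eG1, eF2, eG2]
      congr 1 <;> ring
    · rw [hS2, XA.eval_T2, Pi.add_apply, Pi.sub_apply, mul_assoc, ← e2, ← T2_smul]
      simp only [hs, ht, hw, eval_add, eval_mul, eF1, eG1, eF2, eG2]
      congr 1 <;> ring
  -- the polynomial identity
  have hQ : S2 * F0 ^ 2 - S1 * F0 * G0 + S0 * G0 ^ 2 = 0 := by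
    apply Polynomial.funext
    intro x
    obtain ⟨y, h⟩ := exists_point' W hΔ x
    obtain ⟨e, -, e0, e1, e2⟩ := pointwise x y h
    obtain ⟨c0, -, eF, eG⟩ := h0.rep x y h
    simp only [eval_add, eval_sub, eval_mul, eval_pow, eval_zero]
    rw [e0, e1, e2, eF, eG]
    ring
  have hcop : IsCoprime F0 G0 := by
    rw [Polynomial.isCoprime_iff_aeval_ne_zero_of_isAlgClosed (k := K) K]
    intro x
    have := h0.noroot x
    simp only [coe_aeval_eq_eval]
    tauto
  have hF0 : F0 ≠ 0 := h0.monic.ne_zero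
  have hd0 : F0 ∣ S0 := by
    have : F0 ∣ S0 * G0 ^ 2 := ⟨S1 * G0 - S2 * F0, by linear_combination hQ⟩
    exact (hcop.pow_right (n := 2)).dvd_of_dvd_mul_right this
  obtain ⟨F, hF⟩ := hd0
  have hQ' : S2 * F0 - S1 * G0 + F * G0 ^ 2 = 0 := by
    apply mul_left_cancel₀ hF0
    rw [hF] at hQ
    linear_combination hQ
  have hd1 : F0 ∣ S1 - F * G0 := by
    have : F0 ∣ (S1 - F * G0) * G0 := ⟨S2, by linear_combination -hQ'⟩
    exact hcop.dvd_of_dvd_mul_right this
  obtain ⟨G, hG⟩ := hd1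
  have hT2 : S2 = G * G0 := by
    apply mul_left_cancel₀ hF0
    linear_combination hQ' + G0 * hG
  -- degrees
  have hsm : s.Monic := h1.monic.mul h2.monic
  have hsd : s.natDegree = a + b := by
    rw [hs, h1.monic.natDegree_mul h2.monic, h1.degF, h2.degF]
  have hF1d : F1.degree ≤ (a : WithBot ℕ) := by rw [← h1.degF]; exact degree_le_natDegree
  have hF2d : F2.degree ≤ (b : WithBot ℕ) := by rw [← h2.degF]; exact degree_le_natDegree
  have htd : t.degree < ((a + b : ℕ) : WithBot ℕ) := by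
    refine lt_of_le_of_lt (degree_add_le _ _) (max_lt ?_ ?_)
    · rw [mul_comm, add_comm a b]; exact XA.degree_mul_lt' h2.degG hF1d
    · exact XA.degree_mul_lt' h1.degG hF2d
  have hwd : w.degree < ((a + b : ℕ) : WithBot ℕ) := XA.degree_mul_lt' h1.degG h2.degG.le
  obtain ⟨hm0, hd0, hd1⟩ := XA.degrees W hsm hsd htd hwd
  rw [← hS0] at hm0 hd0
  rw [← hS1] at hd1
  have hFm : F.Monic := by
    rw [hF] at hm0
    exact h0.monic.of_mul_monic_left hm0
  have hFd : c + F.natDegree = 2 * (a + b) := by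
    have := h0.monic.natDegree_mul hFm
    rw [← hF, hd0, h0.degF] at this
    exact this.symm
  have hGd : G.degree < (F.natDegree : WithBot ℕ) := by
    rcases eq_or_ne G 0 with rfl | hG0
    · simp
    have h3 : (F0 * G).degree < ((2 * (a + b) : ℕ) : WithBot ℕ) := by
      rw [← hG]
      refine lt_of_le_of_lt (degree_sub_le _ _) (max_lt hd1 ?_)
      rw [mul_comm, ← hFd]
      exact XA.degree_mul_lt' h0.degG degree_le_natDegree
    rw [degree_mul, degree_eq_natDegree hF0, degree_eq_natDegree hG0, h0.degF, ← hFd] at h3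
    rw [degree_eq_natDegree hG0]
    norm_cast at *
    omega
  refine ⟨F.natDegree, ⟨F, G, hFm, rfl, hGd, ?_, ?_, ?_⟩, by omega⟩
  · -- no common root
    rintro x ⟨hx1, hx2⟩
    have z0 : S0.eval x = 0 := by rw [hF, eval_mul, hx1, mul_zero]
    have z1 : S1.eval x = 0 := by
      have := congrArg (eval x) hG
      rw [eval_sub, eval_mul, eval_mul, hx1, hx2] at this
      simpa using this
    have z2 : S2.eval x = 0 := by rw [hT2, eval_mul, hx2, zero_mul]
    rw [hS0, XA.eval_T0] at z0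
    rw [hS1, XA.eval_T1] at z1
    rw [hS2, XA.eval_T2] at z2
    obtain ⟨hs0, ht0, hw0⟩ := T_ne_zero W hΔ z0 z1 z2
    simp only [hs, ht, hw, eval_add, eval_mul] at hs0 ht0 hw0
    have n1 := h1.noroot x
    have n2 := h2.noroot x
    rcases mul_eq_zero.mp hs0 with hz | hz
    · have hG1 : G1.eval x ≠ 0 := fun h => n1 ⟨hz, h⟩
      have hG2 : G2.eval x = 0 := (mul_eq_zero.mp hw0).resolve_left hG1
      rw [hz, zero_mul, zero_add] at ht0
      exact n2 ⟨(mul_eq_zero.mp ht0).resolve_left hG1, hG2⟩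
    · have hG2 : G2.eval x ≠ 0 := fun h => n2 ⟨hz, h⟩
      have hG1 : G1.eval x = 0 := (mul_eq_zero.mp hw0).resolve_right hG2
      rw [hz, mul_zero, add_zero] at ht0
      exact n1 ⟨(mul_eq_zero.mp ht0).resolve_right hG2, hG1⟩
  · rw [Pi.add_apply, h1.map_zero, h2.map_zero, add_zero]
  · -- representation
    intro x y h
    obtain ⟨e, he, e0, e1, e2⟩ := pointwise x y h
    obtain ⟨c0, hc0, eF, eG⟩ := h0.rep x y h
    have hab := px_pz_ne_zero ((α - β) (Point.some x y h))
    set a' := px ((α - β) (Point.some x y h))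
    set b' := pz ((α - β) (Point.some x y h))
    set α' := px ((α + β) (Point.some x y h))
    set β' := pz ((α + β) (Point.some x y h))
    have E0 : c0 * a' * F.eval x = e * (α' * a') := by
      rw [← e0, hF, eval_mul, eF]
    have E1 : e * (α' * b' + β' * a') - F.eval x * (c0 * b') = c0 * a' * G.eval x := by
      rw [← e1, ← eF, ← eG, ← eval_mul, ← eval_mul, ← eval_sub, hG]
    have E2 : e * (β' * b') = G.eval x * (c0 * b') := by
      rw [← e2, hT2, eval_mul, eG]
    have hA : (c0 * F.eval x - e * α') * a' = 0 := by linear_combination E0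
    have hB : (c0 * G.eval x - e * β') * b' = 0 := by linear_combination -E2
    have hAB : (c0 * F.eval x - e * α') * b' + (c0 * G.eval x - e * β') * a' = 0 := by
      linear_combination -E1
    have hboth : c0 * F.eval x - e * α' = 0 ∧ c0 * G.eval x - e * β' = 0 := by
      by_cases ha : a' = 0
      · have hb : b' ≠ 0 := fun hb => hab ⟨ha, hb⟩
        have hB' := (mul_eq_zero.mp hB).resolve_right hb
        rw [hB', ha] at hAB
        simp only [add_zero, mul_zero] at hAB
        exact ⟨(mul_eq_zero.mp hAB).resolve_right hb, hB'⟩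
      · have hA' := (mul_eq_zero.mp hA).resolve_right ha
        rw [hA'] at hAB
        simp only [zero_mul, zero_add] at hAB
        exact ⟨hA', (mul_eq_zero.mp hAB).resolve_right ha⟩
    refine ⟨e / c0, div_ne_zero he hc0, ?_, ?_⟩
    · field_simp
      linear_combination hboth.1
    · field_simp
      linear_combination hboth.2

end Fermat.Agent.S52
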