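import Fermat.Agent.S52.XRatBasic
import Fermat.Agent.S52.XRatAdd
import Fermat.Agent.S52.Lattice
import Fermat.Agent.S52.FrobSeedPoly
import Fermat.Agent.S52.FrobSeed
import Fermat.Agent.S52.FrobFix

/-! # S52, task FQ: the quadratic relation of Frobenius (up to a factor `2`). -/

set_option autoImplicit false
open WeierstrassCurve WeierstrassCurve.Affine Polynomial
open Fermat.Agent.DivPoly (px pz)
open Fermat.Agent.S05 (xc yc)

namespace Fermat.Agent.S52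

/-- abstract form: an additive self-map `Φ` of degree `p` with `deg (Φ - 1) = N` satisfies
`2 (Φ² - (p + 1 - N) Φ + p) = 0`. -/
theorem FQ.core {K : Type*} [Field K] [DecidableEq K] [IsAlgClosed K] {W : Affine K}
    (hΔ : W.Δ ≠ 0) (Φ : W.Point →+ W.Point) (p N : ℕ) (he : HasDeg W Φ p)
    (hef : HasDeg W (⇑Φ - id) N) (P : W.Point) :
    (2 : ℤ) • (Φ (Φ P) - ((p : ℤ) + 1 - (N : ℤ)) • Φ P + (p : ℤ) • P) = 0 := by
  have hlat := lattice_deg (HasDeg W) HasDeg.zero (fun x d h => HasDeg.neg h)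
    (fun x y a b c hx hy hxy => HasDeg.add hΔ hx hy hxy) Φ id p 1 N he HasDeg.id hef
  obtain ⟨a, ha⟩ : ∃ a : ℤ, a = (p : ℤ) + 1 - (N : ℤ) := ⟨_, rfl⟩
  rw [← ha]
  obtain ⟨d1, h1, e1⟩ := hlat 1 2
  obtain ⟨d2, h2, e2⟩ := hlat 1 p
  obtain ⟨d3, h3, e3⟩ := hlat 1 (-2 * a - 2 - p)
  obtain ⟨d4, h4, e4⟩ := hlat (2 * a + 2 * p + 4) (2 * p)
  have hφ := HasDeg.comp h1 h2
  have hψ := HasDeg.comp h3 he
  have hsub : (((1 : ℤ) • ⇑Φ + (2 : ℤ) • id) ∘ ((1 : ℤ) • ⇑Φ + (p : ℤ) • id)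
      - ((1 : ℤ) • ⇑Φ + (-2 * a - 2 - p) • id) ∘ ⇑Φ : W.Point → W.Point)
      = (2 * a + 2 * p + 4) • ⇑Φ + (2 * (p : ℤ)) • id := by
    funext Q
    simp only [Pi.sub_apply, Function.comp_apply, Pi.add_apply, Pi.smul_apply, id, map_add,
      map_zsmul]
    module
  rw [← hsub] at h4
  obtain ⟨d, hd, ed⟩ := HasDeg.add hΔ hφ hψ h4
  have hd0 : d = 0 := by
    have ed' : (d : ℤ) + d4 = 2 * (d1 * d2) + 2 * (d3 * p) := by exact_mod_cast ed
    rw [e1, e2, e3, e4] at ed'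
    have hA : ((p : ℤ) + (1 : ℕ) - N) = a := by rw [ha]; push_cast; ring
    rw [hA] at ed'
    have : (d : ℤ) = 0 := by
      push_cast at ed'
      linear_combination ed'
    exact_mod_cast this
  subst hd0
  have hz := HasDeg.eq_zero hd P
  simp only [Function.comp_apply, Pi.add_apply, Pi.smul_apply, id, map_add, map_zsmul] at hz
  rw [← hz]
  module

theorem frobenius_quadratic_two (p : ℕ) [Fact p.Prime] (hp : p ≠ 2) (W₀ : WeierstrassCurve (ZMod p))
    (hΔ : W₀.Δ ≠ 0) (K : Type*) [Field K] [Algebra (ZMod p) K] [IsAlgClosed K] [DecidableEq K]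
    (P : (W₀⁄K).toAffine.Point) :
    (2 : ℤ) • (frobPt p W₀ K (frobPt p W₀ K P)
      - ((p : ℤ) + 1 - (Nat.card W₀.toAffine.Point : ℤ)) • frobPt p W₀ K P + (p : ℤ) • P) = 0 := by
  have hpp : p.Prime := Fact.out
  have hchar : CharP K p := charP_of_injective_algebraMap (algebraMap (ZMod p) K).injective p
  have h2 : (2 : K) ≠ 0 := by
    intro h
    have h' : ((2 : ℕ) : K) = 0 := by exact_mod_cast h
    rw [CharP.cast_eq_zero_iff K p] at h'
    exact hp ((Nat.prime_dvd_prime_iff_eq hpp Nat.prime_two).mp h')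
  have hΔK : (W₀⁄K).toAffine.Δ ≠ 0 := by
    change (W₀.map (algebraMap (ZMod p) K)).Δ ≠ 0
    rw [WeierstrassCurve.map_Δ]
    exact (map_ne_zero_iff _ (algebraMap (ZMod p) K).injective).mpr hΔ
  have hFr : IsFrob (W₀⁄K).toAffine p (frobPt p W₀ K) := isFrob_frobPt p W₀ K
  have hef : HasDeg (W₀⁄K).toAffine (⇑(frobPt p W₀ K) - id) (Nat.card W₀.toAffine.Point) := by
    have := hasDeg_frob_sub_id hΔK h2 (hpp.odd_of_ne_two hp) hpp.one_lt
      (separable_X_pow_sub_X p K) hFr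
    rwa [card_fixed_frobPt p W₀ K] at this
  exact FQ.core hΔK (frobPt p W₀ K) p _ (hasDeg_frob hpp.pos hFr) hef P

end Fermat.Agent.S52
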