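import Mathlib

/-! S52 task E2: rigidity of integer sequences close to finitely many polynomial branches. -/

set_option autoImplicit false
open Polynomial

namespace Fermat.Agent.S52
namespace E2

/-- integer numerators of the Lagrange basis: `∏_{l ∈ A0 \ k} (j - l)`. -/
def num (A0 : Finset ℕ) (j k : ℕ) : ℤ := ∏ l ∈ A0.erase k, ((j : ℤ) - l)

lemma num_self_ne_zero (A0 : Finset ℕ) (k : ℕ) : num A0 k k ≠ 0 := by
  unfold num
  rw [Finset.prod_ne_zero_iff]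
  intro l hl
  have := Finset.ne_of_mem_erase hl
  omega

lemma abs_num_le (A0 : Finset ℕ) (D L J' : ℕ) (hcard : A0.card = D + 1)
    (hA0 : ∀ k ∈ A0, J' ≤ k ∧ k < J' + L) (j k : ℕ) (hj : J' ≤ j ∧ j < J' + L) (hk : k ∈ A0) :
    |num A0 j k| ≤ (L : ℤ) ^ D := by
  unfold num
  rw [Finset.abs_prod]
  have hc : (A0.erase k).card = D := by rw [Finset.card_erase_of_mem hk, hcard]; rfl
  rw [← hc, ← Finset.prod_const]
  apply Finset.prod_le_prod (fun _ _ => abs_nonneg _)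
  intro l hl
  have := hA0 l (Finset.mem_of_mem_erase hl)
  rw [abs_le]
  constructor <;> omega

lemma eval_interp {F : Type*} [Field F] [CharZero F] (A0 : Finset ℕ) (r : ℕ → F) (j : ℕ) :
    (Lagrange.interpolate A0 (fun k : ℕ => (k : F)) r).eval (j : F) =
      ∑ k ∈ A0, r k * ((num A0 j k : F) / (num A0 k k : F)) := by
  rw [Lagrange.interpolate_apply, eval_finsetSum]
  refine Finset.sum_congr rfl fun k _ => ?_
  simp only [Lagrange.basis, Lagrange.basisDivisor, eval_mul, eval_C, eval_prod, eval_sub, eval_X,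
    num, Int.cast_prod, Int.cast_sub, Int.cast_natCast]
  rw [Finset.prod_mul_distrib, Finset.prod_inv_distrib]
  ring

/-- the integer `M * (s j - R j)`. -/
def zz (A0 : Finset ℕ) (s : ℕ → ℤ) (j : ℕ) : ℤ :=
  (∏ k ∈ A0, num A0 k k) * s j -
    ∑ k ∈ A0, s k * num A0 j k * ∏ k' ∈ A0.erase k, num A0 k' k'

lemma zz_cast {F : Type*} [Field F] [CharZero F] (A0 : Finset ℕ) (s : ℕ → ℤ) (j : ℕ) :
    (zz A0 s j : F) = ((∏ k ∈ A0, num A0 k k : ℤ) : F) *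
      ((s j : F) - ∑ k ∈ A0, (s k : F) * ((num A0 j k : F) / (num A0 k k : F))) := by
  unfold zz
  rw [mul_sub, Finset.mul_sum]
  push_cast
  congr 1
  refine Finset.sum_congr rfl fun k hk => ?_
  rw [← Finset.mul_prod_erase A0 _ hk]
  have : (num A0 k k : F) ≠ 0 := by exact_mod_cast num_self_ne_zero A0 k
  field_simp

lemma norm_num_le (A0 : Finset ℕ) (D L J' : ℕ) (hcard : A0.card = D + 1)
    (hA0 : ∀ k ∈ A0, J' ≤ k ∧ k < J' + L) (j k : ℕ) (hj : J' ≤ j ∧ j < J' + L) (hk : k ∈ A0) :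
    ‖(num A0 j k : ℂ)‖ ≤ (L : ℝ) ^ D := by
  rw [Complex.norm_intCast]
  exact_mod_cast abs_num_le A0 D L J' hcard hA0 j k hj hk

lemma one_le_norm_num (A0 : Finset ℕ) (k : ℕ) : 1 ≤ ‖(num A0 k k : ℂ)‖ := by
  rw [Complex.norm_intCast]
  exact_mod_cast Int.one_le_abs (num_self_ne_zero A0 k)

lemma key (A0 : Finset ℕ) (D L J' : ℕ) (hcard : A0.card = D + 1)
    (hA0 : ∀ k ∈ A0, J' ≤ k ∧ k < J' + L) (j : ℕ) (hj : J' ≤ j ∧ j < J' + L)
    (P : ℂ[X]) (hP : P.natDegree ≤ D) (s : ℕ → ℤ) (ε : ℝ)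
    (hε : ∀ k ∈ A0, ‖(s k : ℂ) - P.eval (k : ℂ)‖ ≤ ε) (hεj : ‖(s j : ℂ) - P.eval (j : ℂ)‖ ≤ ε)
    (hsmall : ((L : ℝ) ^ D) ^ (D + 1) * (ε + (D + 1) * (ε * (L : ℝ) ^ D)) < 1) :
    (Lagrange.interpolate A0 (fun k : ℕ => (k : ℚ)) (fun k => (s k : ℚ))).eval (j : ℚ) = s j := by
  have hinj : Set.InjOn (fun k : ℕ => (k : ℂ)) A0 := fun a _ b _ h => by
    simpa using h
  have hPj : P.eval (j : ℂ) =
      ∑ k ∈ A0, P.eval (k : ℂ) * ((num A0 j k : ℂ) / (num A0 k k : ℂ)) := by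
    have h1 := Lagrange.eq_interpolate (f := P) hinj (by
      rw [hcard]
      exact lt_of_le_of_lt degree_le_natDegree (by exact_mod_cast Nat.lt_succ_of_le hP))
    conv_lhs => rw [h1]
    exact eval_interp A0 _ j
  have hzC := zz_cast (F := ℂ) A0 s j
  have hrew : (s j : ℂ) - ∑ k ∈ A0, (s k : ℂ) * ((num A0 j k : ℂ) / (num A0 k k : ℂ)) =
      ((s j : ℂ) - P.eval (j : ℂ)) -
        ∑ k ∈ A0, ((s k : ℂ) - P.eval (k : ℂ)) * ((num A0 j k : ℂ) / (num A0 k k : ℂ)) := by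
    rw [hPj]; simp only [sub_mul, Finset.sum_sub_distrib]; ring
  have hε0 : 0 ≤ ε := le_trans (norm_nonneg _) hεj
  have hL0 : (0 : ℝ) ≤ (L : ℝ) ^ D := by positivity
  have hM : ‖((∏ k ∈ A0, num A0 k k : ℤ) : ℂ)‖ ≤ ((L : ℝ) ^ D) ^ (D + 1) := by
    rw [Int.cast_prod, norm_prod, ← hcard, ← Finset.prod_const]
    exact Finset.prod_le_prod (fun _ _ => norm_nonneg _)
      (fun k hk => norm_num_le A0 D L J' hcard hA0 k k (hA0 k hk) hk)
  have hsum : ‖∑ k ∈ A0, ((s k : ℂ) - P.eval (k : ℂ)) *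
      ((num A0 j k : ℂ) / (num A0 k k : ℂ))‖ ≤ (D + 1) * (ε * (L : ℝ) ^ D) := by
    calc _ ≤ ∑ k ∈ A0, ‖((s k : ℂ) - P.eval (k : ℂ)) *
          ((num A0 j k : ℂ) / (num A0 k k : ℂ))‖ := norm_sum_le _ _
      _ ≤ ∑ _k ∈ A0, ε * (L : ℝ) ^ D := by
          refine Finset.sum_le_sum fun k hk => ?_
          rw [norm_mul, norm_div]
          refine mul_le_mul (hε k hk) ?_ (by positivity) hε0
          calc ‖(num A0 j k : ℂ)‖ / ‖(num A0 k k : ℂ)‖ ≤ ‖(num A0 j k : ℂ)‖ :=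
                div_le_self (norm_nonneg _) (one_le_norm_num A0 k)
            _ ≤ _ := norm_num_le A0 D L J' hcard hA0 j k hj hk
      _ = (D + 1) * (ε * (L : ℝ) ^ D) := by
          rw [Finset.sum_const, hcard, nsmul_eq_mul]; push_cast; ring
  have hz : ‖(zz A0 s j : ℂ)‖ < 1 := by
    rw [hzC, hrew, norm_mul]
    refine lt_of_le_of_lt ?_ hsmall
    refine mul_le_mul hM ?_ (norm_nonneg _) (by positivity)
    calc _ ≤ ‖(s j : ℂ) - P.eval (j : ℂ)‖ + ‖∑ k ∈ A0, ((s k : ℂ) - P.eval (k : ℂ)) *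
          ((num A0 j k : ℂ) / (num A0 k k : ℂ))‖ := norm_sub_le _ _
      _ ≤ _ := add_le_add hεj hsum
  have hz0 : zz A0 s j = 0 := by
    rw [Complex.norm_intCast] at hz
    exact Int.abs_lt_one_iff.mp (by exact_mod_cast hz)
  have hzQ := zz_cast (F := ℚ) A0 s j
  rw [hz0, Int.cast_zero] at hzQ
  have hMne : ((∏ k ∈ A0, num A0 k k : ℤ) : ℚ) ≠ 0 := by
    rw [Int.cast_ne_zero, Finset.prod_ne_zero_iff]
    exact fun k _ => num_self_ne_zero A0 k
  have h2 := (mul_eq_zero.mp hzQ.symm).resolve_left hMne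
  rw [eval_interp]
  exact (sub_eq_zero.mp h2).symm

end E2

theorem rigidity {m D : ℕ} (Pb : Fin m → ℂ[X]) (hdeg : ∀ i, (Pb i).natDegree ≤ D) (B : ℝ) (J : ℕ)
    (s : ℕ → ℤ) (hs : ∀ j, J ≤ j → ∃ i, ‖(s j : ℂ) - (Pb i).eval (j : ℂ)‖ ≤ B / j) (n : ℕ) :
    ∃ (R : ℚ[X]) (A : Finset ℕ), R.natDegree ≤ D ∧ n ≤ A.card ∧
      ∀ j ∈ A, R.eval (j : ℚ) = s j := by
  classical
  obtain ⟨i0, -⟩ := hs J le_rfl
  have hm : 0 < m := i0.pos
  set N : ℕ := max n (D + 1) with hN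
  set L : ℕ := m * N with hL
  set Cc : ℝ := ((L : ℝ) ^ D) ^ (D + 1) * (1 + (D + 1) * (L : ℝ) ^ D) with hCc
  have hCc0 : 0 ≤ Cc := by positivity
  set J' : ℕ := max J (⌈|B| * Cc⌉₊ + 1) with hJ'
  have hJ'J : J ≤ J' := le_max_left _ _
  have hJ'pos : (0 : ℝ) < J' := by
    have : 0 < J' := lt_of_lt_of_le (Nat.succ_pos _) (le_max_right _ _)
    exact_mod_cast this
  have hJ'big : |B| * Cc < J' := by
    have h1 : |B| * Cc ≤ (⌈|B| * Cc⌉₊ : ℝ) := Nat.le_ceil _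
    have h2 : ((⌈|B| * Cc⌉₊ + 1 : ℕ) : ℝ) ≤ J' := by exact_mod_cast le_max_right _ _
    push_cast at h2
    linarith
  have : Nonempty (Fin m) := ⟨i0⟩
  choose! f hf using hs
  obtain ⟨i, -, hi⟩ := Finset.exists_le_card_fiber_of_mul_le_card_of_maps_to
    (s := Finset.Ico J' (J' + L)) (t := (Finset.univ : Finset (Fin m))) (f := f) (n := N)
    (fun _ _ => Finset.mem_univ _) ⟨i0, Finset.mem_univ _⟩ (by simp [hL])
  set A : Finset ℕ := (Finset.Ico J' (J' + L)).filter (fun x => f x = i) with hA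
  have hAmem : ∀ k ∈ A, (J' ≤ k ∧ k < J' + L) ∧ f k = i := by
    intro k hk
    rw [hA, Finset.mem_filter, Finset.mem_Ico] at hk
    exact hk
  obtain ⟨A0, hA0A, hA0card⟩ := Finset.exists_subset_card_eq
    (le_trans (le_max_right n (D + 1)) hi)
  set ε : ℝ := |B| / J' with hε
  have hbound : ∀ k ∈ A, ‖(s k : ℂ) - (Pb i).eval (k : ℂ)‖ ≤ ε := by
    intro k hk
    obtain ⟨⟨h1, _⟩, h3⟩ := hAmem k hk
    have h4 := hf k (le_trans hJ'J h1)
    rw [h3] at h4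
    refine le_trans h4 ?_
    have hk' : (J' : ℝ) ≤ k := by exact_mod_cast h1
    calc B / k ≤ |B| / k := by gcongr; exact le_abs_self B
      _ ≤ |B| / J' := by gcongr
  have hinjQ : Set.InjOn (fun k : ℕ => (k : ℚ)) A0 := fun a _ b _ h => by
    simpa using h
  refine ⟨Lagrange.interpolate A0 (fun k : ℕ => (k : ℚ)) (fun k => (s k : ℚ)), A, ?_,
    le_trans (le_max_left n (D + 1)) hi, ?_⟩
  · have h1 := Lagrange.degree_interpolate_lt (s := A0) (v := fun k : ℕ => (k : ℚ))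
      (fun k => (s k : ℚ)) hinjQ
    rw [hA0card] at h1
    exact natDegree_le_of_degree_le (Order.le_of_lt_succ (by exact_mod_cast h1))
  · intro j hj
    refine E2.key A0 D L J' hA0card (fun k hk => (hAmem k (hA0A hk)).1) j (hAmem j hj).1 (Pb i)
      (hdeg i) s ε (fun k hk => hbound k (hA0A hk)) (hbound j hj) ?_
    have : ((L : ℝ) ^ D) ^ (D + 1) * (ε + (D + 1) * (ε * (L : ℝ) ^ D)) = |B| * Cc / J' := by
      rw [hε, hCc]; field_simp
    rw [this, div_lt_one hJ'pos]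
    exact hJ'big

end Fermat.Agent.S52
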