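import Fermat.Agent.S52.HilbertApprox
import Fermat.Agent.S52.HilbertRigid

/-!
# S52, task E3: Hilbert irreducibility "light" for the 3-division quartic
-/

set_option autoImplicit false
open Polynomial

namespace Fermat.Agent.S52

namespace E3

theorem map_quartic3' {A B : Type*} [CommRing A] [CommRing B] (f : A →+* B) (a b s : A) :
    f (quartic3 a b s) = quartic3 (f a) (f b) (f s) := by
  simp only [quartic3, map_sub, map_mul, map_pow, map_ofNat]

theorem natDegree_quartic3_le (h t R : ℚ[X]) (a b : ℕ) (hh : h.natDegree ≤ a) (ht : t.natDegree ≤ b)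
    (hR : R.natDegree ≤ 10) : (quartic3 h t R).natDegree ≤ 40 + 2 * a + b := by
  unfold quartic3
  have h6 : (6 : ℚ[X]).natDegree ≤ 0 := by rw [natDegree_ofNat]
  have h8 : (8 : ℚ[X]).natDegree ≤ 0 := by rw [natDegree_ofNat]
  have h3 : (3 : ℚ[X]).natDegree ≤ 0 := by rw [natDegree_ofNat]
  have e1 : (R ^ 4).natDegree ≤ 40 + 2 * a + b :=
    le_trans (natDegree_pow_le_of_le 4 hR) (by omega)
  have e2 : (6 * h * R ^ 2).natDegree ≤ 40 + 2 * a + b :=
    le_trans (natDegree_mul_le_of_le (natDegree_mul_le_of_le h6 hh) (natDegree_pow_le_of_le 2 hR))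
      (by omega)
  have e3 : (8 * t * R).natDegree ≤ 40 + 2 * a + b :=
    le_trans (natDegree_mul_le_of_le (natDegree_mul_le_of_le h8 ht) hR) (by omega)
  have e4 : (3 * h ^ 2).natDegree ≤ 40 + 2 * a + b :=
    le_trans (natDegree_mul_le_of_le h3 (natDegree_pow_le_of_le 2 hh)) (by omega)
  simpa using natDegree_sub_le_of_le (natDegree_sub_le_of_le (natDegree_sub_le_of_le e1 e2) e3) e4

theorem eval_map_cast (P : ℤ[X]) (j : ℕ) :
    (P.map (Int.castRingHom ℚ)).eval (j : ℚ) = ((P.eval (j : ℤ) : ℤ) : ℚ) := by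
  simp

end E3

open E3 in
theorem exists_no_int_root (H T Hr Tr : ℤ[X])
    (hH : ∀ z : ℂ, z ≠ 0 → aeval z H = z ^ 20 * aeval z⁻¹ Hr)
    (hT : ∀ z : ℂ, z ≠ 0 → aeval z T = z ^ 30 * aeval z⁻¹ Tr)
    (hlead : Hr.eval 0 ^ 3 ≠ Tr.eval 0 ^ 2)
    (hnoroot : ∀ S : ℂ[X],
      quartic3 (H.map (Int.castRingHom ℂ)) (T.map (Int.castRingHom ℂ)) S ≠ 0) :
    ∃ j : ℕ, 0 < j ∧ ∀ s : ℤ, quartic3 (H.eval (j : ℤ)) (T.eval (j : ℤ)) s ≠ 0 := by
  classical
  by_contra hcon
  have hex : ∀ j : ℕ, ∃ s : ℤ, 0 < j → quartic3 (H.eval (j : ℤ)) (T.eval (j : ℤ)) s = 0 := by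
    intro j
    by_cases hj : 0 < j
    · by_contra hno
      apply hcon
      refine ⟨j, hj, fun s hs => hno ⟨s, fun _ => hs⟩⟩
    · exact ⟨0, fun h => absurd h hj⟩
  choose s hs using hex
  obtain ⟨Pb, B, J, hdeg, hbr⟩ := exists_branches H T Hr Tr hH hT hlead
  set n : ℕ := 40 + 2 * H.natDegree + T.natDegree + 2 with hn
  obtain ⟨R, A, hRdeg, hAcard, hA⟩ := rigidity Pb hdeg B (max J 1) s
    (fun j hj => hbr j (le_trans (le_max_left _ _) hj) (s j)
      (hs j (lt_of_lt_of_le one_pos (le_trans (le_max_right _ _) hj)))) n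
  set Hq : ℚ[X] := H.map (Int.castRingHom ℚ) with hHq
  set Tq : ℚ[X] := T.map (Int.castRingHom ℚ) with hTq
  have hzero : quartic3 Hq Tq R = 0 := by
    refine eq_zero_of_natDegree_lt_card_of_eval_eq_zero' _
      ((A.erase 0).image (Nat.cast : ℕ → ℚ)) ?_ ?_
    · intro x hx
      obtain ⟨j, hj, rfl⟩ := Finset.mem_image.mp hx
      have hj0 : 0 < j := Nat.pos_of_ne_zero (Finset.ne_of_mem_erase hj)
      have hjA : j ∈ A := Finset.mem_of_mem_erase hj
      have := map_quartic3' (evalRingHom (j : ℚ)) Hq Tq R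
      simp only [coe_evalRingHom] at this
      rw [this, hA j hjA, hHq, hTq, eval_map_cast, eval_map_cast]
      have h2 := map_quartic3' (Int.castRingHom ℚ) (H.eval (j : ℤ)) (T.eval (j : ℤ)) (s j)
      simp only [eq_intCast] at h2
      rw [← h2, hs j hj0, Int.cast_zero]
    · rw [Finset.card_image_of_injective _ Nat.cast_injective]
      have h1 : (quartic3 Hq Tq R).natDegree ≤ 40 + 2 * H.natDegree + T.natDegree :=
        natDegree_quartic3_le Hq Tq R _ _ natDegree_map_le natDegree_map_le hRdeg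
      have h2 : A.card - 1 ≤ (A.erase 0).card := Finset.pred_card_le_card_erase
      omega
  apply hnoroot (R.map (algebraMap ℚ ℂ))
  have h3 := map_quartic3' (mapRingHom (algebraMap ℚ ℂ)) Hq Tq R
  simp only [coe_mapRingHom] at h3
  rw [hzero, Polynomial.map_zero, hHq, hTq, Polynomial.map_map, Polynomial.map_map] at h3
  have hcomp : (algebraMap ℚ ℂ).comp (Int.castRingHom ℚ) = Int.castRingHom ℂ :=
    RingHom.ext_int _ _
  rw [hcomp] at h3
  exact h3.symm

end Fermat.Agent.S52
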