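import Fermat.Agent.S52.Defs2

/-!
# S52: cheap identities (symmetries, special values, homogeneity, functoriality)
-/

set_option autoImplicit false
set_option maxHeartbeats 1000000

namespace Fermat.Agent.S52

variable {R : Type*} [CommRing R]

theorem c4T_cube_sub (a b : R) : c4T a b ^ 3 - c6T a b ^ 2 = 1728 * dT a b := by
  simp only [c4T, c6T, dT]; ring

theorem IsTate.swap {c4 c6 a b : R} (h : IsTate c4 c6 a b) : IsTate c4 c6 (-b) a :=
  ⟨by rw [← h.h4]; simp only [c4T]; ring, by rw [← h.h6]; simp only [c6T]; ring⟩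

theorem IsTate.neg {c4 c6 a b : R} (h : IsTate c4 c6 a b) : IsTate c4 c6 (-a) (-b) :=
  ⟨by rw [← h.h4]; simp only [c4T]; ring, by rw [← h.h6]; simp only [c6T]; ring⟩

theorem famA_swap (a b u v : R) : famA (-b) a u v = - famB a b u v := by
  simp only [famA, famB, famP, famQ, famX, famY]; ring

theorem famB_swap (a b u v : R) : famB (-b) a u v = famA a b u v := by
  simp only [famA, famB, famP, famQ, famX, famY]; ring

theorem famA_neg (a b u v : R) : famA (-a) (-b) u v = - famA a b u v := by
  simp only [famA, famP, famQ, famX, famY]; ring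

theorem famB_neg (a b u v : R) : famB (-a) (-b) u v = - famB a b u v := by
  simp only [famB, famP, famQ, famX, famY]; ring

theorem famA_one_zero (a b : R) : famA a b 1 0 = a := by
  simp only [famA, famP, famQ, famX, famY]; ring

theorem famB_one_zero (a b : R) : famB a b 1 0 = b := by
  simp only [famB, famP, famQ, famX, famY]; ring

theorem famH_one_zero (c4 c6 : R) : famH c4 c6 1 0 = c4 := by
  simp only [famH]; ring

theorem famT_one_zero (c4 c6 : R) : famT c4 c6 1 0 = c6 := by
  simp only [famT]; ring

theorem famD_one_zero (c4 c6 : R) : famD c4 c6 1 0 = 1 := by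
  simp only [famD]; ring

theorem famH_smul (c4 c6 l u v : R) :
    famH c4 c6 (l * u) (l * v) = l ^ 20 * famH c4 c6 u v := by
  simp only [famH]; ring

theorem famT_smul (c4 c6 l u v : R) :
    famT c4 c6 (l * u) (l * v) = l ^ 30 * famT c4 c6 u v := by
  simp only [famT]; ring

theorem famD_smul (c4 c6 l u v : R) :
    famD c4 c6 (l * u) (l * v) = l ^ 12 * famD c4 c6 u v := by
  simp only [famD]; ring

/-- the norm form `a² - 11ab - b²` of the new Tate parameters. -/
theorem fam_norm (a b u v : R) :
    famA a b u v ^ 2 - 11 * famA a b u v * famB a b u v - famB a b u v ^ 2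
      = (a ^ 2 - 11 * a * b - b ^ 2) * (famX a b u v ^ 2 - 5 * famY a b v ^ 2) ^ 5 := by
  simp only [famA, famB, famP, famQ]
  generalize famX a b u v = X
  generalize famY a b v = Y
  ring

section Map

variable {S : Type*} [CommRing S] (f : R →+* S)

theorem map_c4T (a b : R) : f (c4T a b) = c4T (f a) (f b) := by
  simp only [c4T, map_add, map_sub, map_mul, map_pow, map_ofNat]

theorem map_c6T (a b : R) : f (c6T a b) = c6T (f a) (f b) := by
  simp only [c6T, map_add, map_sub, map_mul, map_pow, map_ofNat, map_neg]

theorem map_famA (a b u v : R) : f (famA a b u v) = famA (f a) (f b) (f u) (f v) := by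
  simp only [famA, famP, famQ, famX, famY, map_add, map_sub, map_mul, map_pow, map_ofNat]

theorem map_famB (a b u v : R) : f (famB a b u v) = famB (f a) (f b) (f u) (f v) := by
  simp only [famB, famP, famQ, famX, famY, map_add, map_sub, map_mul, map_pow, map_ofNat]

theorem map_famH (a b u v : R) : f (famH a b u v) = famH (f a) (f b) (f u) (f v) := by
  simp only [famH, map_add, map_sub, map_mul, map_pow, map_ofNat, map_neg, map_one]

theorem map_famT (a b u v : R) : f (famT a b u v) = famT (f a) (f b) (f u) (f v) := by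
  simp only [famT, map_add, map_sub, map_mul, map_pow, map_ofNat, map_neg, map_one]

theorem map_famD (a b u v : R) : f (famD a b u v) = famD (f a) (f b) (f u) (f v) := by
  simp only [famD, map_add, map_sub, map_mul, map_pow, map_ofNat, map_neg, map_one]

theorem map_tX (a b : R) : f (tX a b) = tX (f a) (f b) := by
  simp only [tX, map_add, map_mul, map_pow, map_ofNat]

theorem map_tY (a b : R) : f (tY a b) = tY (f a) (f b) := by
  simp only [tY, map_mul, map_pow]

theorem map_quartic3 (a b s : R) : f (quartic3 a b s) = quartic3 (f a) (f b) (f s) := by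
  simp only [quartic3, map_sub, map_mul, map_pow, map_ofNat]

theorem AddRel.map {a₁ b₁ a₂ b₂ a₃ b₃ : R} (h : AddRel a₁ b₁ a₂ b₂ a₃ b₃) :
    AddRel (f a₁) (f b₁) (f a₂) (f b₂) (f a₃) (f b₃) := by
  obtain ⟨h1, h2⟩ := h
  constructor
  · have := congrArg f h1
    simpa only [map_add, map_sub, map_mul, map_pow, map_ofNat, map_tX, map_tY] using this
  · have := congrArg f h2
    simpa only [map_add, map_sub, map_mul, map_pow, map_ofNat, map_tX, map_tY] using this

theorem AddRel.of_map (hf : Function.Injective f) {a₁ b₁ a₂ b₂ a₃ b₃ : R}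
    (h : AddRel (f a₁) (f b₁) (f a₂) (f b₂) (f a₃) (f b₃)) : AddRel a₁ b₁ a₂ b₂ a₃ b₃ := by
  obtain ⟨h1, h2⟩ := h
  constructor
  · apply hf
    simpa only [map_add, map_sub, map_mul, map_pow, map_ofNat, map_tX, map_tY] using h1
  · apply hf
    simpa only [map_add, map_sub, map_mul, map_pow, map_ofNat, map_tX, map_tY] using h2

theorem IsTate.map {c4 c6 a b : R} (h : IsTate c4 c6 a b) : IsTate (f c4) (f c6) (f a) (f b) :=
  ⟨by rw [← map_c4T, h.h4], by rw [← map_c6T, h.h6]⟩

end Map

end Fermat.Agent.S52
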