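import Fermat.Agent.S52.Defs

/-! # S52: the discriminant of the family -/

set_option autoImplicit false
set_option maxHeartbeats 4000000

namespace Fermat.Agent.S52

variable {R : Type*} [CommRing R]

theorem famH_cube_sub (c4 c6 u v : R) :
    famH c4 c6 u v ^ 3 - famT c4 c6 u v ^ 2 = (c4 ^ 3 - c6 ^ 2) * famD c4 c6 u v ^ 5 := by
  simp only [famH, famT, famD]
  ring

end Fermat.Agent.S52
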