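import Fermat.Agent.S52.Defs2
import Fermat.Agent.S52.IdBasic
import Fermat.Agent.S13.Ladder

/-! S52 task T: Tate normal form for points of order 5 on a short Weierstrass curve. -/

set_option autoImplicit false
set_option linter.unusedSectionVars false
set_option linter.unusedVariables false
open WeierstrassCurve WeierstrassCurve.Affine Polynomial

namespace Fermat.Agent.S52

section T
variable {F : Type*} [Field F] [DecidableEq F] {W : WeierstrassCurve F} {c4 c6 : F}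

namespace T

lemma ne12 (h2 : (2 : F) ≠ 0) (h3 : (3 : F) ≠ 0) : (12 : F) ≠ 0 := by
  have : (12 : F) = 2 ^ 2 * 3 := by norm_num
  rw [this]; exact mul_ne_zero (pow_ne_zero _ h2) h3

lemma ne48 (h2 : (2 : F) ≠ 0) (h3 : (3 : F) ≠ 0) : (48 : F) ≠ 0 := by
  have : (48 : F) = 2 ^ 4 * 3 := by norm_num
  rw [this]; exact mul_ne_zero (pow_ne_zero _ h2) h3

lemma ne864 (h2 : (2 : F) ≠ 0) (h3 : (3 : F) ≠ 0) : (864 : F) ≠ 0 := by
  have : (864 : F) = 2 ^ 5 * 3 ^ 3 := by norm_num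
  rw [this]; exact mul_ne_zero (pow_ne_zero _ h2) (pow_ne_zero _ h3)

lemma ne1728 (h2 : (2 : F) ≠ 0) (h3 : (3 : F) ≠ 0) : (1728 : F) ≠ 0 := by
  have : (1728 : F) = 2 ^ 6 * 3 ^ 3 := by norm_num
  rw [this]; exact mul_ne_zero (pow_ne_zero _ h2) (pow_ne_zero _ h3)

/-- equation of a short curve -/
lemma equation_iff_short (hW : IsShortOf W c4 c6) (x y : F) :
    W.toAffine.Equation x y ↔ y ^ 2 = x ^ 3 + W.a₄ * x + W.a₆ := by
  rw [equation_iff, hW.a₁, hW.a₂, hW.a₃]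
  constructor <;> intro h <;> linear_combination h

lemma negY_short (hW : IsShortOf W c4 c6) (x y : F) : W.toAffine.negY x y = -y := by
  rw [negY, hW.a₁, hW.a₃]; ring

/-- chord addition on a short curve -/
lemma add_eq_some (hW : IsShortOf W c4 c6) {x₁ y₁ x₂ y₂ : F} (h₁ : W.toAffine.Nonsingular x₁ y₁)
    (h₂ : W.toAffine.Nonsingular x₂ y₂) (hx : x₁ ≠ x₂) {l x₃ y₃ : F}
    (hl : l * (x₁ - x₂) = y₁ - y₂) (hx₃ : x₃ = l ^ 2 - x₁ - x₂)
    (hy₃ : y₃ = -(l * (x₃ - x₁) + y₁)) :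
    ∃ h₃ : W.toAffine.Nonsingular x₃ y₃,
      Point.some _ _ h₁ + Point.some _ _ h₂ = Point.some x₃ y₃ h₃ := by
  have hs : W.toAffine.slope x₁ x₂ y₁ y₂ = l := by
    rw [slope_of_X_ne hx, div_eq_iff (sub_ne_zero.2 hx)]; exact hl.symm
  have e1 : W.toAffine.addX x₁ x₂ (W.toAffine.slope x₁ x₂ y₁ y₂) = x₃ := by
    rw [hs, addX, hW.a₁, hW.a₂, hx₃]; ring
  have e2 : W.toAffine.addY x₁ x₂ y₁ (W.toAffine.slope x₁ x₂ y₁ y₂) = y₃ := by
    rw [addY, negAddY, e1, negY_short hW, hs, hy₃]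
  have h3 := nonsingular_add h₁ h₂ (fun hxy => hx hxy.1)
  rw [e1, e2] at h3
  refine ⟨h3, ?_⟩
  rw [Point.add_of_X_ne hx, Point.some.injEq]
  exact ⟨e1, e2⟩

/-- tangent addition on a short curve -/
lemma dbl_eq_some (h2 : (2 : F) ≠ 0) (hW : IsShortOf W c4 c6) {x₁ y₁ : F}
    (h₁ : W.toAffine.Nonsingular x₁ y₁) (hy : y₁ ≠ 0) {l x₃ y₃ : F}
    (hl : l * (2 * y₁) = 3 * x₁ ^ 2 + W.a₄) (hx₃ : x₃ = l ^ 2 - 2 * x₁)
    (hy₃ : y₃ = -(l * (x₃ - x₁) + y₁)) :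
    ∃ h₃ : W.toAffine.Nonsingular x₃ y₃,
      Point.some _ _ h₁ + Point.some _ _ h₁ = Point.some x₃ y₃ h₃ := by
  have hne : y₁ ≠ W.toAffine.negY x₁ y₁ := by
    rw [negY_short hW]
    intro h
    apply hy
    have : 2 * y₁ = 0 := by linear_combination h
    exact (mul_eq_zero.mp this).resolve_left h2
  have hs : W.toAffine.slope x₁ x₁ y₁ y₁ = l := by
    rw [slope_of_Y_ne rfl hne, negY_short hW, hW.a₁, hW.a₂,
      div_eq_iff (by
        have : y₁ - -y₁ = 2 * y₁ := by ring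
        rw [this]; exact mul_ne_zero h2 hy)]
    linear_combination -hl
  have e1 : W.toAffine.addX x₁ x₁ (W.toAffine.slope x₁ x₁ y₁ y₁) = x₃ := by
    rw [hs, addX, hW.a₁, hW.a₂, hx₃]; ring
  have e2 : W.toAffine.addY x₁ x₁ y₁ (W.toAffine.slope x₁ x₁ y₁ y₁) = y₃ := by
    rw [addY, negAddY, e1, negY_short hW, hs, hy₃]
  have h3 := nonsingular_add h₁ h₁ (fun hxy => hne hxy.2)
  rw [e1, e2] at h3
  refine ⟨h3, ?_⟩
  rw [Point.add_self_of_Y_ne hne, Point.some.injEq]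
  exact ⟨e1, e2⟩

end T

open T

theorem IsShortOf.Δ_ne_zero (h2 : (2 : F) ≠ 0) (h3 : (3 : F) ≠ 0) (hW : IsShortOf W c4 c6)
    (hΔ : c4 ^ 3 - c6 ^ 2 ≠ 0) : W.Δ ≠ 0 := by
  have h48 := ne48 h2 h3
  have h864 := ne864 h2 h3
  have h1728 := ne1728 h2 h3
  have : W.Δ * 1728 = c4 ^ 3 - c6 ^ 2 := by
    rw [WeierstrassCurve.Δ, b₂, b₄, b₆, b₈, hW.a₁, hW.a₂, hW.a₃, hW.a₄, hW.a₆]
    field_simp
    ring
  intro h
  rw [h, zero_mul] at this
  exact hΔ this.symm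

theorem isShortOf_shortW (c4 c6 : F) : IsShortOf (shortW c4 c6) c4 c6 :=
  ⟨rfl, rfl, rfl, rfl, rfl⟩

theorem IsShortOf.map {F' : Type*} [Field F'] (f : F →+* F') (hW : IsShortOf W c4 c6) :
    IsShortOf (W.map f) (f c4) (f c6) := by
  refine ⟨?_, ?_, ?_, ?_, ?_⟩
  · rw [map_a₁, hW.a₁, map_zero]
  · rw [map_a₂, hW.a₂, map_zero]
  · rw [map_a₃, hW.a₃, map_zero]
  · rw [map_a₄, hW.a₄, map_div₀, map_neg, map_ofNat]
  · rw [map_a₆, hW.a₆, map_div₀, map_neg, map_ofNat]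

theorem IsTate.ne_zero (h2 : (2 : F) ≠ 0) (h3 : (3 : F) ≠ 0) (hΔ : c4 ^ 3 - c6 ^ 2 ≠ 0) {a b : F}
    (h : IsTate c4 c6 a b) : a ≠ 0 ∧ b ≠ 0 ∧ a ^ 2 - 11 * a * b - b ^ 2 ≠ 0 := by
  have h1 := c4T_cube_sub a b
  rw [h.h4, h.h6, dT] at h1
  rw [h1] at hΔ
  refine ⟨?_, ?_, ?_⟩
  · rintro rfl; apply hΔ; ring
  · rintro rfl; apply hΔ; ring
  · intro h0; apply hΔ; rw [h0]; ring

theorem exists_TP (h2 : (2 : F) ≠ 0) (h3 : (3 : F) ≠ 0) (hW : IsShortOf W c4 c6)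
    (hΔ : c4 ^ 3 - c6 ^ 2 ≠ 0) {a b : F} (h : IsTate c4 c6 a b) :
    ∃ P : W.toAffine.Point, TP W P a b := by
  have h12 := ne12 h2 h3
  have h48 := ne48 h2 h3
  have h864 := ne864 h2 h3
  have heq : W.toAffine.Equation (tptX a b) (tptY a b) := by
    rw [equation_iff_short hW, hW.a₄, hW.a₆, ← h.h4, ← h.h6, tptX, tptY, c4T, c6T]
    field_simp
    ring
  have hns := (equation_iff_nonsingular_of_Δ_ne_zero
    (W := W.toAffine) (hW.Δ_ne_zero h2 h3 hΔ)).mp heq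
  exact ⟨Point.some _ _ hns, hns, rfl⟩

theorem TP.ne_zero {P : W.toAffine.Point} {a b : F} (h : TP W P a b) : P ≠ 0 := by
  obtain ⟨h1, rfl⟩ := h
  exact Point.some_ne_zero h1

theorem TP.eq {P Q : W.toAffine.Point} {a b : F} (h : TP W P a b) (h' : TP W Q a b) : P = Q := by
  obtain ⟨h1, rfl⟩ := h
  obtain ⟨h2, rfl⟩ := h'
  rfl

theorem TP.neg (hW : IsShortOf W c4 c6) {P : W.toAffine.Point} {a b : F} (h : TP W P a b) :
    TP W (-P) (-a) (-b) := by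
  obtain ⟨h1, rfl⟩ := h
  have e1 : tptX (-a) (-b) = tptX a b := by simp only [tptX]; ring
  have e2 : tptY (-a) (-b) = W.toAffine.negY (tptX a b) (tptY a b) := by
    rw [negY_short hW]; simp only [tptY]; ring
  have h3 := (nonsingular_neg ..).mpr h1
  rw [← e2, ← e1] at h3
  refine ⟨h3, ?_⟩
  rw [Point.neg_some, Point.some.injEq]
  exact ⟨e1.symm, e2.symm⟩

theorem TP.two_nsmul (h2 : (2 : F) ≠ 0) (h3 : (3 : F) ≠ 0) (hW : IsShortOf W c4 c6)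
    (hΔ : c4 ^ 3 - c6 ^ 2 ≠ 0) {a b : F} (h : IsTate c4 c6 a b) {P : W.toAffine.Point}
    (hP : TP W P a b) : TP W (2 • P) (-b) a := by
  obtain ⟨h1, rfl⟩ := hP
  obtain ⟨ha, hb, -⟩ := h.ne_zero h2 h3 hΔ
  have h12 := ne12 h2 h3
  have h48 := ne48 h2 h3
  have hy : tptY a b ≠ 0 := by
    rw [tptY]; exact div_ne_zero (mul_ne_zero (pow_ne_zero _ ha) hb) h2
  obtain ⟨h3', e⟩ := dbl_eq_some (l := (a + b) / 2) (x₃ := tptX (-b) a) (y₃ := tptY (-b) a)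
    h2 hW h1 hy
    (by rw [hW.a₄, ← h.h4, tptX, tptY, c4T]; field_simp; ring)
    (by simp only [tptX]; field_simp; ring)
    (by simp only [tptX, tptY]; field_simp; ring)
  exact ⟨h3', by rw [_root_.two_nsmul, e]⟩

theorem TP.five_nsmul (h2 : (2 : F) ≠ 0) (h3 : (3 : F) ≠ 0) (hW : IsShortOf W c4 c6)
    (hΔ : c4 ^ 3 - c6 ^ 2 ≠ 0) {a b : F} (h : IsTate c4 c6 a b) {P : W.toAffine.Point}
    (hP : TP W P a b) : 5 • P = 0 := by
  have t2 := hP.two_nsmul h2 h3 hW hΔ h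
  have t4 := t2.two_nsmul h2 h3 hW hΔ h.swap
  have tn := hP.neg hW
  have e := t4.eq tn
  have : 5 • P = 2 • 2 • P + P := by rw [smul_smul, ← succ_nsmul]; norm_num
  rw [this, e, neg_add_cancel]

theorem TP.unique (h2 : (2 : F) ≠ 0) (h3 : (3 : F) ≠ 0) (hW : IsShortOf W c4 c6)
    (hΔ : c4 ^ 3 - c6 ^ 2 ≠ 0) {a b a' b' : F} (h : IsTate c4 c6 a b) (h' : IsTate c4 c6 a' b')
    {P : W.toAffine.Point} (hP : TP W P a b) (hP' : TP W P a' b') : a = a' ∧ b = b' := by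
  have t2 := hP.two_nsmul h2 h3 hW hΔ h
  have t2' := hP'.two_nsmul h2 h3 hW hΔ h'
  obtain ⟨ha, hb, -⟩ := h.ne_zero h2 h3 hΔ
  obtain ⟨ha', hb', -⟩ := h'.ne_zero h2 h3 hΔ
  have h12 := ne12 h2 h3
  obtain ⟨n1, e1⟩ := hP
  obtain ⟨n1', e1'⟩ := hP'
  obtain ⟨n2, e2⟩ := t2
  obtain ⟨n2', e2'⟩ := t2'
  rw [e1, Point.some.injEq] at e1'
  rw [e2, Point.some.injEq] at e2'
  obtain ⟨x1, y1⟩ := e1'
  obtain ⟨x2, -⟩ := e2'
  simp only [tptX, tptY] at x1 y1 x2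
  have hab : a * b = a' * b' := by
    field_simp at x1 x2
    have : 12 * (a * b) = 12 * (a' * b') := by linear_combination x1 - x2
    exact mul_left_cancel₀ h12 this
  have hy : a ^ 2 * b = a' ^ 2 * b' := by
    field_simp at y1
    exact y1
  have haa : a = a' := by
    have : a * (a * b) = a' * (a * b) := by rw [hab]; nth_rewrite 1 [← hab]; linear_combination hy
    exact mul_right_cancel₀ (mul_ne_zero ha hb) this
  subst haa
  exact ⟨rfl, mul_left_cancel₀ ha hab⟩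

/-- the pure algebra behind `exists_isTate_of_five_nsmul`. -/
theorem T.tate_algebra (h2 : (2 : F) ≠ 0) (h3 : (3 : F) ≠ 0) {a4 a6 x0 y0 x2 y2 l m a b : F}
    (hy0 : y0 ≠ 0) (hx : x0 ≠ x2)
    (heq : y0 ^ 2 = x0 ^ 3 + a4 * x0 + a6)
    (hl : l * (2 * y0) = 3 * x0 ^ 2 + a4) (hx2 : x2 = l ^ 2 - 2 * x0)
    (hy2 : y2 = -(l * (x2 - x0) + y0))
    (hm : m * (x0 - x2) = y0 - y2) (hx3 : x2 = m ^ 2 - x0 - x2)
    (ha : a * (x0 - x2) = 2 * y0) (hb : b * (2 * y0) = (x0 - x2) ^ 2) :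
    c4T a b = -48 * a4 ∧ c6T a b = -864 * a6 ∧ a ^ 2 + 6 * a * b + b ^ 2 = 12 * x0 ∧
      a ^ 2 * b = 2 * y0 := by
  have hd : x0 - x2 ≠ 0 := sub_ne_zero.2 hx
  have h2y : 2 * y0 ≠ 0 := mul_ne_zero h2 hy0
  have ha0 : a ≠ 0 := by
    rintro rfl
    rw [zero_mul] at ha
    exact h2y ha.symm
  have hab : a * b = x0 - x2 := by
    have : (a * b) * ((x0 - x2) * (2 * y0)) = (x0 - x2) * ((x0 - x2) * (2 * y0)) := by
      linear_combination (b * (2 * y0)) * ha + (2 * y0) * hb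
    exact mul_right_cancel₀ (mul_ne_zero hd h2y) this
  have hma : m = a - l := by
    have : m * (x0 - x2) = (a - l) * (x0 - x2) := by
      linear_combination hm - ha - hy2
    exact mul_right_cancel₀ hd this
  have hsum : a + b = 2 * l := by
    have : a * (a + b) = a * (2 * l) := by
      rw [hma] at hx3
      linear_combination hab - hx3 + hx2
    exact mul_left_cancel₀ ha0 this
  have hX : a ^ 2 + 6 * a * b + b ^ 2 = 12 * x0 := by
    have : (a + b) ^ 2 = 4 * l ^ 2 := by rw [hsum]; ring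
    linear_combination this + 4 * hab - 4 * hx2
  have hY : a ^ 2 * b = 2 * y0 := by
    linear_combination a * hab + ha
  have h4 : c4T a b = -48 * a4 := by
    have e1 : 4 * a4 = 4 * (l * (2 * y0)) - 12 * x0 ^ 2 := by linear_combination -4 * hl
    have e2 : (12 * x0) ^ 2 = (a ^ 2 + 6 * a * b + b ^ 2) ^ 2 := by rw [hX]
    have e3 : (2 * l) * (2 * y0) = (a + b) * (a ^ 2 * b) := by rw [hsum, hY]
    rw [c4T]
    linear_combination 12 * e1 + 24 * e3 - e2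
  refine ⟨h4, ?_, hX, hY⟩
  have e4 : (2 * y0) ^ 2 = (a ^ 2 * b) ^ 2 := by rw [hY]
  have e5 : (12 * x0) ^ 3 = (a ^ 2 + 6 * a * b + b ^ 2) ^ 3 := by rw [hX]
  have e6 : (-48 * a4) * (12 * x0) = c4T a b * (a ^ 2 + 6 * a * b + b ^ 2) := by rw [hX, h4]
  rw [c4T] at e6
  have : 2 * c6T a b = 2 * (-864 * a6) := by
    rw [c6T]
    linear_combination -1728 * heq + 432 * e4 - e5 + 3 * e6
  exact mul_left_cancel₀ h2 this

theorem exists_isTate_of_five_nsmul (h2 : (2 : F) ≠ 0) (h3 : (3 : F) ≠ 0) (hW : IsShortOf W c4 c6)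
    (hΔ : c4 ^ 3 - c6 ^ 2 ≠ 0) {P : W.toAffine.Point} (hP : P ≠ 0) (h5 : 5 • P = 0) :
    ∃ a b : F, IsTate c4 c6 a b ∧ TP W P a b := by
  have h12 := ne12 h2 h3
  have h48 := ne48 h2 h3
  have h864 := ne864 h2 h3
  rcases P with _ | ⟨x0, y0, hns⟩
  · exact absurd rfl hP
  have heq := (equation_iff_short hW x0 y0).mp hns.1
  have hy0 : y0 ≠ 0 := by
    rintro rfl
    have h2P : Point.some x0 0 hns + Point.some x0 0 hns = 0 :=
      Point.add_self_of_Y_eq (by rw [negY_short hW]; simp)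
    apply hP
    have : 5 • Point.some x0 0 hns = (Point.some x0 0 hns + Point.some x0 0 hns) +
        (Point.some x0 0 hns + Point.some x0 0 hns) + Point.some x0 0 hns := by abel
    rw [this, h2P] at h5
    simp at h5
  have h2y : 2 * y0 ≠ 0 := mul_ne_zero h2 hy0
  obtain ⟨l, hl⟩ : ∃ l : F, l * (2 * y0) = 3 * x0 ^ 2 + W.a₄ :=
    ⟨(3 * x0 ^ 2 + W.a₄) / (2 * y0), by field_simp⟩
  obtain ⟨x2, hx2⟩ : ∃ x2 : F, x2 = l ^ 2 - 2 * x0 := ⟨_, rfl⟩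
  obtain ⟨y2, hy2⟩ : ∃ y2 : F, y2 = -(l * (x2 - x0) + y0) := ⟨_, rfl⟩
  obtain ⟨hns2, e2⟩ := dbl_eq_some h2 hW hns hy0 hl hx2 hy2
  have hx : x0 ≠ x2 := by
    intro hxx
    rcases (Point.X_eq_iff (h₁ := hns) (h₂ := hns2)).mp hxx with h | h
    · rw [← e2] at h
      simp at h
    · rw [← e2] at h
      apply hP
      have h3P : 3 • Point.some x0 y0 hns = 0 := by
        have : 3 • Point.some x0 y0 hns = Point.some x0 y0 hns +
          (Point.some x0 y0 hns + Point.some x0 y0 hns) := by abel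
        rw [this]
        nth_rewrite 1 [h]
        exact neg_add_cancel _
      have : Point.some x0 y0 hns = 2 • 3 • Point.some x0 y0 hns - 5 • Point.some x0 y0 hns := by
        abel
      rw [this, h3P, h5]
      simp
  have hd : x0 - x2 ≠ 0 := sub_ne_zero.2 hx
  obtain ⟨m, hm⟩ : ∃ m : F, m * (x0 - x2) = y0 - y2 := ⟨(y0 - y2) / (x0 - x2), by field_simp⟩
  obtain ⟨hns3, e3⟩ := add_eq_some hW hns hns2 hx hm rfl rfl
  have h32 : Point.some x0 y0 hns + (Point.some x0 y0 hns + Point.some x0 y0 hns) =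
      -(Point.some x0 y0 hns + Point.some x0 y0 hns) := by
    rw [eq_neg_iff_add_eq_zero, ← h5]; abel
  rw [e2, e3, Point.neg_some, Point.some.injEq] at h32
  obtain ⟨hx3, -⟩ := h32
  obtain ⟨t4, t6, tx, ty⟩ := T.tate_algebra (a := 2 * y0 / (x0 - x2))
    (b := (x0 - x2) ^ 2 / (2 * y0)) h2 h3 hy0 hx heq hl hx2 hy2 hm hx3.symm
    (by field_simp) (by field_simp)
  refine ⟨_, _, ⟨by rw [t4, hW.a₄]; field_simp, by rw [t6, hW.a₆]; field_simp⟩, ?_⟩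
  have ex : tptX (2 * y0 / (x0 - x2)) ((x0 - x2) ^ 2 / (2 * y0)) = x0 := by
    rw [tptX, tx]; field_simp
  have ey : tptY (2 * y0 / (x0 - x2)) ((x0 - x2) ^ 2 / (2 * y0)) = y0 := by
    rw [tptY, ty]; field_simp
  exact ⟨by rw [ex, ey]; exact hns, by rw [Point.some.injEq]; exact ⟨ex.symm, ey.symm⟩⟩

theorem TP.add_iff (h2 : (2 : F) ≠ 0) (h3 : (3 : F) ≠ 0) (hW : IsShortOf W c4 c6)
    {P₁ P₂ P₃ : W.toAffine.Point} {a₁ b₁ a₂ b₂ a₃ b₃ : F} (p₁ : TP W P₁ a₁ b₁) (p₂ : TP W P₂ a₂ b₂)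
    (p₃ : TP W P₃ a₃ b₃) (hx : tX a₁ b₁ ≠ tX a₂ b₂) :
    P₁ + P₂ = P₃ ↔ AddRel a₁ b₁ a₂ b₂ a₃ b₃ := by
  have h12 := ne12 h2 h3
  obtain ⟨n₁, rfl⟩ := p₁
  obtain ⟨n₂, rfl⟩ := p₂
  obtain ⟨n₃, rfl⟩ := p₃
  have ex : ∀ a b : F, tptX a b = tX a b / 12 := fun a b => rfl
  have ey : ∀ a b : F, tptY a b = tY a b / 2 := fun a b => rfl
  have hx' : tptX a₁ b₁ ≠ tptX a₂ b₂ := by
    rw [ex, ex]
    intro h
    apply hx
    field_simp at h
    exact h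
  have hd : tX a₁ b₁ - tX a₂ b₂ ≠ 0 := sub_ne_zero.2 hx
  obtain ⟨n, e⟩ := add_eq_some (l := 6 * (tY a₁ b₁ - tY a₂ b₂) / (tX a₁ b₁ - tX a₂ b₂))
    hW n₁ n₂ hx' (by rw [ex, ex, ey, ey]; field_simp; ring) rfl rfl
  rw [e, Point.some.injEq, AddRel]
  simp only [ex, ey]
  generalize tX a₁ b₁ = X₁ at *
  generalize tX a₂ b₂ = X₂ at *
  generalize tX a₃ b₃ = X₃ at *
  generalize tY a₁ b₁ = Y₁ at *
  generalize tY a₂ b₂ = Y₂ at *
  generalize tY a₃ b₃ = Y₃ at *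
  constructor
  · rintro ⟨k1, k2⟩
    rw [k1] at k2
    constructor
    · field_simp at k1
      linear_combination -k1
    · field_simp at k2
      apply mul_left_cancel₀ h12
      linear_combination -k2
  · rintro ⟨k1, k2⟩
    have k1' : (6 * (Y₁ - Y₂) / (X₁ - X₂)) ^ 2 - X₁ / 12 - X₂ / 12 = X₃ / 12 := by
      field_simp
      linear_combination -k1
    refine ⟨k1', ?_⟩
    rw [k1']
    field_simp
    linear_combination -12 * k2

theorem exists_isTate [IsAlgClosed F] (h2 : (2 : F) ≠ 0) (h3 : (3 : F) ≠ 0) (h5 : (5 : F) ≠ 0)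
    (hΔ : c4 ^ 3 - c6 ^ 2 ≠ 0) : ∃ a b : F, IsTate c4 c6 a b := by
  have hW := isShortOf_shortW c4 c6
  obtain ⟨P, hP, hP5⟩ := Fermat.Agent.S13.Ladder.exists_torsion_point
    (W := (shortW c4 c6).toAffine) (hW.Δ_ne_zero h2 h3 hΔ) (m := 2) (by norm_num)
    (by norm_num; exact h5)
  obtain ⟨a, b, h, -⟩ := exists_isTate_of_five_nsmul h2 h3 hW hΔ hP hP5
  exact ⟨a, b, h⟩

end T

end Fermat.Agent.S52
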