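/-
S52 / task G : the forms famH, famT have no common zero; semistability of the family.
-/
import Fermat.Agent.S52.Id
import Fermat.Agent.S52.Tate

set_option autoImplicit false

namespace Fermat.Agent.S52

theorem c4T_c6T_eq_zero {F : Type*} [Field F] (h2 : (2 : F) ≠ 0) (h3 : (3 : F) ≠ 0)
    (h5 : (5 : F) ≠ 0) {a b : F} (h4 : c4T a b = 0) (h6 : c6T a b = 0) : a = 0 ∧ b = 0 := by
  have hd : (1728 : F) * dT a b = 0 := by
    rw [← c4T_cube_sub, h4, h6]; ring
  have h1728 : (1728 : F) ≠ 0 := by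
    have : (1728 : F) = 2 ^ 6 * 3 ^ 3 := by norm_num
    rw [this]
    exact mul_ne_zero (pow_ne_zero _ h2) (pow_ne_zero _ h3)
  have hd' : dT a b = 0 := (mul_eq_zero.mp hd).resolve_left h1728
  simp only [dT] at hd'
  simp only [c4T] at h4
  rcases mul_eq_zero.mp hd' with h | h
  · rcases mul_eq_zero.mp h with h | h
    · have ha : a = 0 := pow_eq_zero_iff (by norm_num) |>.mp h
      subst ha
      refine ⟨rfl, ?_⟩
      have : b ^ 4 = 0 := by linear_combination h4
      exact pow_eq_zero_iff (by norm_num) |>.mp this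
    · have hb : b = 0 := pow_eq_zero_iff (by norm_num) |>.mp h
      subst hb
      refine ⟨?_, rfl⟩
      have : a ^ 4 = 0 := by linear_combination h4
      exact pow_eq_zero_iff (by norm_num) |>.mp this
  · have e : 5 * (b ^ 3 * (11 * a + b)) = 0 := by
      linear_combination h4 - (a ^ 2 - a * b + 4 * b ^ 2) * h
    have e' := (mul_eq_zero.mp e).resolve_left h5
    rcases mul_eq_zero.mp e' with hb | hb
    · have hb : b = 0 := pow_eq_zero_iff (by norm_num) |>.mp hb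
      subst hb
      refine ⟨?_, rfl⟩
      have : a ^ 2 = 0 := by linear_combination h
      exact pow_eq_zero_iff (by norm_num) |>.mp this
    · have hb' : b = -11 * a := by linear_combination hb
      subst hb'
      have : a ^ 2 = 0 := by linear_combination h
      have ha : a = 0 := pow_eq_zero_iff (by norm_num) |>.mp this
      subst ha
      simp

theorem famH_famT_ne_zero {F : Type*} [Field F] [IsAlgClosed F] (h2 : (2 : F) ≠ 0)
    (h3 : (3 : F) ≠ 0) (h5 : (5 : F) ≠ 0) {c4 c6 u v : F} (hΔ : c4 ^ 3 - c6 ^ 2 ≠ 0)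
    (huv : u ≠ 0 ∨ v ≠ 0) : famH c4 c6 u v ≠ 0 ∨ famT c4 c6 u v ≠ 0 := by
  classical
  by_contra hcon
  push Not at hcon
  obtain ⟨hH, hT⟩ := hcon
  obtain ⟨α, β, hαβ⟩ := exists_isTate h2 h3 h5 hΔ
  obtain ⟨hα, hβ, hq⟩ := hαβ.ne_zero h2 h3 hΔ
  have hfam := hαβ.fam u v
  have h4 := hfam.h4
  have h6 := hfam.h6
  rw [hH] at h4
  rw [hT] at h6
  obtain ⟨hA, hB⟩ := c4T_c6T_eq_zero h2 h3 h5 h4 h6
  simp only [famA, famB] at hA hB
  set X := famX α β u v with hX
  set Y := famY α β v with hY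
  have hQ : famQ X Y = 0 := by
    have : (2 * (α ^ 2 - 11 * α * β - β ^ 2)) * famQ X Y = 0 := by
      linear_combination β * hA - α * hB
    exact (mul_eq_zero.mp this).resolve_left (mul_ne_zero h2 hq)
  have hP : famP X Y = 0 := by
    rw [hQ] at hA
    have : α * famP X Y = 0 := by linear_combination hA
    exact (mul_eq_zero.mp this).resolve_left hα
  obtain ⟨s, hs⟩ := IsAlgClosed.exists_pow_nat_eq (5 : F) (n := 2) (by norm_num)
  have hs0 : s ≠ 0 := by
    rintro rfl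
    apply h5
    rw [← hs]; ring
  simp only [famP, famQ] at hP hQ
  have e1 : (X + s * Y) ^ 5 = 0 := by
    have : (X + s * Y) ^ 5 = (X ^ 5 + 10 * X ^ 3 * Y ^ 2 * s ^ 2 + 5 * X * Y ^ 4 * (s ^ 2) ^ 2)
        + s * (5 * X ^ 4 * Y + 10 * X ^ 2 * Y ^ 3 * s ^ 2 + Y ^ 5 * (s ^ 2) ^ 2) := by ring
    rw [this, hs]
    linear_combination hP + 5 * s * hQ
  have e2 : (X - s * Y) ^ 5 = 0 := by
    have : (X - s * Y) ^ 5 = (X ^ 5 + 10 * X ^ 3 * Y ^ 2 * s ^ 2 + 5 * X * Y ^ 4 * (s ^ 2) ^ 2)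
        - s * (5 * X ^ 4 * Y + 10 * X ^ 2 * Y ^ 3 * s ^ 2 + Y ^ 5 * (s ^ 2) ^ 2) := by ring
    rw [this, hs]
    linear_combination hP - 5 * s * hQ
  have e1' : X + s * Y = 0 := pow_eq_zero_iff (by norm_num) |>.mp e1
  have e2' : X - s * Y = 0 := pow_eq_zero_iff (by norm_num) |>.mp e2
  have hX0 : X = 0 := by
    have : 2 * X = 0 := by linear_combination e1' + e2'
    exact (mul_eq_zero.mp this).resolve_left h2
  have hY0 : Y = 0 := by
    have : 2 * s * Y = 0 := by linear_combination e1' - e2'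
    exact (mul_eq_zero.mp this).resolve_left (mul_ne_zero h2 hs0)
  have hv : v = 0 := by
    rw [hY, famY] at hY0
    have h6' : (6 : F) ≠ 0 := by
      have : (6 : F) = 2 * 3 := by norm_num
      rw [this]; exact mul_ne_zero h2 h3
    have : (6 * α * β) * v = 0 := by linear_combination hY0
    exact (mul_eq_zero.mp this).resolve_left (mul_ne_zero (mul_ne_zero h6' hα) hβ)
  have hu : u = 0 := by
    rw [hX, famX, hv] at hX0
    linear_combination hX0
  rcases huv with h | h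
  · exact h hu
  · exact h hv

theorem not_dvd_famH (c4 c6 u v : ℤ) (p : ℕ) (hp : p.Prime) (hp7 : 7 ≤ p)
    (hΔ : ¬ (p : ℤ) ∣ c4 ^ 3 - c6 ^ 2) (huv : IsCoprime u v)
    (h : (p : ℤ) ∣ famH c4 c6 u v ^ 3 - famT c4 c6 u v ^ 2) : ¬ (p : ℤ) ∣ famH c4 c6 u v := by
  intro hH
  have : Fact p.Prime := ⟨hp⟩
  have hpi : Prime (p : ℤ) := Nat.prime_iff_prime_int.mp hp
  have hT : (p : ℤ) ∣ famT c4 c6 u v := by
    have : (p : ℤ) ∣ famT c4 c6 u v ^ 2 := by
      have h1 : (p : ℤ) ∣ famH c4 c6 u v ^ 3 := Dvd.dvd.pow hH (by norm_num)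
      have := dvd_sub h1 h
      simpa using this
    exact hpi.dvd_of_dvd_pow this
  let F := AlgebraicClosure (ZMod p)
  let f : ℤ →+* F := Int.castRingHom F
  have hf : ∀ z : ℤ, f z = 0 ↔ (p : ℤ) ∣ z := by
    intro z
    exact CharP.intCast_eq_zero_iff F p z
  have hn : ∀ n : ℕ, 0 < n → n < 7 → (n : F) ≠ 0 := by
    intro n h0 h7 hz
    have := (CharP.cast_eq_zero_iff F p n).mp hz
    have := Nat.le_of_dvd h0 this
    omega
  have h2 : (2 : F) ≠ 0 := by exact_mod_cast hn 2 (by norm_num) (by norm_num)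
  have h3 : (3 : F) ≠ 0 := by exact_mod_cast hn 3 (by norm_num) (by norm_num)
  have h5 : (5 : F) ≠ 0 := by exact_mod_cast hn 5 (by norm_num) (by norm_num)
  have hΔ' : (f c4) ^ 3 - (f c6) ^ 2 ≠ 0 := by
    rw [← map_pow, ← map_pow, ← map_sub, Ne, hf]
    exact hΔ
  have huv' : f u ≠ 0 ∨ f v ≠ 0 := by
    by_contra hcon
    push Not at hcon
    obtain ⟨hu, hv⟩ := hcon
    rw [hf] at hu hv
    obtain ⟨x, y, hxy⟩ := huv
    have : (p : ℤ) ∣ 1 := by
      rw [← hxy]
      exact dvd_add (Dvd.dvd.mul_left hu x) (Dvd.dvd.mul_left hv y)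
    exact hpi.not_isUnit (isUnit_of_dvd_one this)
  rcases famH_famT_ne_zero h2 h3 h5 hΔ' huv' with h' | h'
  · rw [← map_famH, Ne, hf] at h'
    exact h' hH
  · rw [← map_famT, Ne, hf] at h'
    exact h' hT

end Fermat.Agent.S52
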