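/-
S52 / task F : the 3-division quartic of the 5-congruent family has no polynomial root
(Mason-Stothers).
-/
import Fermat.Agent.S52.Id
import Fermat.Agent.S52.Semistable

set_option autoImplicit false

namespace Fermat.Agent.S52.F

open Polynomial UniqueFactorizationMonoid

lemma rootMult_pow {p : ℂ[X]} (hp : p ≠ 0) (x : ℂ) (n : ℕ) :
    rootMultiplicity x (p ^ n) = n * rootMultiplicity x p := by
  induction n with
  | zero => simp
  | succ n ih =>
    rw [pow_succ, rootMultiplicity_mul (mul_ne_zero (pow_ne_zero n hp) hp), ih]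
    ring

lemma natDegree_radical_le {p : ℂ[X]} (hp : p ≠ 0) : (radical p).natDegree ≤ p.natDegree :=
  natDegree_le_of_dvd radical_dvd_self hp

variable {H T D : ℂ[X]} {κ : ℂ}

lemma natDegree_rhs (hκ : κ ≠ 0) (hD : D.natDegree = 12) : (C κ * D ^ 5).natDegree = 60 := by
  rw [natDegree_C_mul hκ, natDegree_pow, hD]

lemma D_ne_zero (hD : D.natDegree = 12) : D ≠ 0 := by
  rintro rfl
  simp at hD

lemma H_ne_zero (hκ : κ ≠ 0) (hrel : H ^ 3 - T ^ 2 = C κ * D ^ 5) (hcop : IsCoprime H T)
    (hD : D.natDegree = 12) : H ≠ 0 := by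
  rintro rfl
  have hT : IsUnit T := isCoprime_zero_left.mp hcop
  have h1 := natDegree_rhs hκ hD
  rw [← hrel] at h1
  have h2 : T.natDegree = 0 := natDegree_eq_zero_of_isUnit hT
  simp [natDegree_pow, h2] at h1

lemma T_ne_zero (hκ : κ ≠ 0) (hrel : H ^ 3 - T ^ 2 = C κ * D ^ 5) (hcop : IsCoprime H T)
    (hD : D.natDegree = 12) : T ≠ 0 := by
  rintro rfl
  have hH : IsUnit H := isCoprime_zero_right.mp hcop
  have h1 := natDegree_rhs hκ hD
  rw [← hrel] at h1
  have h2 : H.natDegree = 0 := natDegree_eq_zero_of_isUnit hH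
  simp [natDegree_pow, h2] at h1

/-- Mason-Stothers: the radical of `D` has degree at least `11`. -/
lemma radical_ge (hκ : κ ≠ 0) (hrel : H ^ 3 - T ^ 2 = C κ * D ^ 5) (hcop : IsCoprime H T)
    (hD : D.natDegree = 12) (hH : H.natDegree ≤ 20) (hT : T.natDegree ≤ 30) :
    11 ≤ (radical D).natDegree := by
  have hD0 := D_ne_zero hD
  have hH0 := H_ne_zero hκ hrel hcop hD
  have hT0 := T_ne_zero hκ hrel hcop hD
  have hc0 : C κ * D ^ 5 ≠ 0 := mul_ne_zero (C_ne_zero.mpr hκ) (pow_ne_zero 5 hD0)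
  have habc := Polynomial.abc (a := H ^ 3) (b := -T ^ 2) (c := -(C κ * D ^ 5))
    (pow_ne_zero 3 hH0) (neg_ne_zero.mpr (pow_ne_zero 2 hT0)) (neg_ne_zero.mpr hc0)
    (hcop.pow.neg_right) (by linear_combination hrel)
  rcases habc with ⟨-, -, h3⟩ | ⟨-, -, h3⟩
  · rw [natDegree_neg, natDegree_rhs hκ hD] at h3
    have r1 : radical (H ^ 3) = radical H := radical_pow H (by norm_num)
    have r2 : radical (-T ^ 2) = radical T := by
      rw [radical_eq_of_associated (Associated.neg_left (Associated.refl (T ^ 2)))]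
      exact radical_pow T (by norm_num)
    have r3 : radical (-(C κ * D ^ 5)) = radical D := by
      rw [radical_eq_of_associated (Associated.neg_left (Associated.refl (C κ * D ^ 5))),
        radical_mul_of_isUnit_left (isUnit_C.mpr (isUnit_iff_ne_zero.mpr hκ))]
      exact radical_pow D (by norm_num)
    have hdvd : radical (H ^ 3 * -T ^ 2 * -(C κ * D ^ 5)) ∣ radical H * radical T * radical D := by
      refine radical_mul_dvd.trans ?_
      rw [r3]
      refine mul_dvd_mul_right ?_ _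
      refine radical_mul_dvd.trans ?_
      rw [r1, r2]
    have hne : radical H * radical T * radical D ≠ 0 :=
      mul_ne_zero (mul_ne_zero radical_ne_zero radical_ne_zero) radical_ne_zero
    have h4 := natDegree_le_of_dvd hdvd hne
    rw [natDegree_mul (mul_ne_zero radical_ne_zero radical_ne_zero) radical_ne_zero,
      natDegree_mul radical_ne_zero radical_ne_zero] at h4
    have h5 := natDegree_radical_le hH0
    have h6 := natDegree_radical_le hT0
    omega
  · have h4 := Polynomial.derivative_eq_zero.mp h3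
    rw [natDegree_neg, natDegree_rhs hκ hD] at h4
    omega

lemma not_cube_dvd (hκ : κ ≠ 0) (hrel : H ^ 3 - T ^ 2 = C κ * D ^ 5) (hcop : IsCoprime H T)
    (hD : D.natDegree = 12) (hH : H.natDegree ≤ 20) (hT : T.natDegree ≤ 30) (ρ : ℂ) :
    ¬ (X - C ρ) ^ 3 ∣ D := by
  rintro ⟨E, hE⟩
  have hD0 := D_ne_zero hD
  have hE0 : E ≠ 0 := by
    rintro rfl
    exact hD0 (by rw [hE, mul_zero])
  have h1 := radical_ge hκ hrel hcop hD hH hT
  have hX : (X - C ρ) ≠ 0 := X_sub_C_ne_zero ρ
  have h2 : radical D ∣ (X - C ρ) * E := by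
    rw [hE]
    refine radical_mul_dvd.trans ?_
    rw [radical_pow _ (by norm_num)]
    exact mul_dvd_mul radical_dvd_self radical_dvd_self
  have h3 := natDegree_le_of_dvd h2 (mul_ne_zero hX hE0)
  rw [natDegree_mul hX hE0, natDegree_X_sub_C] at h3
  rw [hE, natDegree_mul (pow_ne_zero 3 hX) hE0, natDegree_pow, natDegree_X_sub_C] at hD
  omega

lemma natDegree_S_le {S : ℂ[X]} (hH : H.natDegree ≤ 20) (hT : T.natDegree ≤ 30)
    (hS : S ^ 4 - 6 * H * S ^ 2 - 8 * T * S - 3 * H ^ 2 = 0) : S.natDegree ≤ 10 := by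
  by_contra hcon
  push Not at hcon
  have e : S ^ 4 = C 6 * (H * S ^ 2) + C 8 * (T * S) + C 3 * H ^ 2 := by
    have h6 : (C 6 : ℂ[X]) = 6 := map_ofNat C 6
    have h8 : (C 8 : ℂ[X]) = 8 := map_ofNat C 8
    have h3 : (C 3 : ℂ[X]) = 3 := map_ofNat C 3
    rw [h6, h8, h3]
    linear_combination hS
  have h1 : (C 6 * (H * S ^ 2)).natDegree ≤ 20 + 2 * S.natDegree := by
    refine (natDegree_C_mul_le _ _).trans (natDegree_mul_le.trans ?_)
    have := natDegree_pow_le (p := S) (n := 2)
    omega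
  have h2 : (C 8 * (T * S)).natDegree ≤ 30 + S.natDegree := by
    refine (natDegree_C_mul_le _ _).trans (natDegree_mul_le.trans ?_)
    omega
  have h3 : (C 3 * H ^ 2).natDegree ≤ 40 := by
    refine (natDegree_C_mul_le _ _).trans ?_
    have := natDegree_pow_le (p := H) (n := 2)
    omega
  have h4 : (S ^ 4).natDegree = 4 * S.natDegree := natDegree_pow S 4
  have h5 : (C 6 * (H * S ^ 2) + C 8 * (T * S) + C 3 * H ^ 2).natDegree ≤
      max (max (20 + 2 * S.natDegree) (30 + S.natDegree)) 40 := by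
    refine (natDegree_add_le _ _).trans (max_le_max ((natDegree_add_le _ _).trans ?_) h3)
    exact max_le_max h1 h2
  rw [← e, h4] at h5
  rcases le_max_iff.mp h5 with h6 | h6
  · rcases le_max_iff.mp h6 with h7 | h7 <;> omega
  · omega

theorem abstract_no_root (hκ : κ ≠ 0) (hrel : H ^ 3 - T ^ 2 = C κ * D ^ 5) (hcop : IsCoprime H T)
    (hD : D.natDegree = 12) (hH : H.natDegree ≤ 20) (hT : T.natDegree ≤ 30) (S : ℂ[X]) :
    S ^ 4 - 6 * H * S ^ 2 - 8 * T * S - 3 * H ^ 2 ≠ 0 := by
  intro hS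
  have hD0 := D_ne_zero hD
  have hH0 := H_ne_zero hκ hrel hcop hD
  have hSd := natDegree_S_le hH hT hS
  have hid : (S ^ 2 - H) ^ 3 * (S ^ 2 - 9 * H) = C (-64 * κ) * D ^ 5 * S ^ 2 := by
    have h64 : (C (-64 * κ) : ℂ[X]) = -64 * C κ := by
      rw [C_mul, C_neg]; congr 2
    rw [h64]
    linear_combination (S ^ 4 - 6 * H * S ^ 2 - 3 * H ^ 2 + 8 * T * S) * hS - 64 * S ^ 2 * hrel
  have hκ' : (C (-64 * κ) : ℂ[X]) ≠ 0 := C_ne_zero.mpr (mul_ne_zero (by norm_num) hκ)
  have hcopHT := (isCoprime_iff_aeval_ne_zero_of_isAlgClosed ℂ ℂ H T).mp hcop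
  -- step 7
  have hcopDA : IsCoprime D (S ^ 2 - H) := by
    rw [isCoprime_iff_aeval_ne_zero_of_isAlgClosed ℂ ℂ]
    intro ρ
    by_contra hcon
    push Not at hcon
    obtain ⟨hDρ, hAρ⟩ := hcon
    simp only [coe_aeval_eq_eval] at hDρ hAρ
    have hHT := hcopHT ρ
    simp only [coe_aeval_eq_eval] at hHT
    have hrelρ := congrArg (eval ρ) hrel
    simp only [eval_sub, eval_pow, eval_mul, eval_C, hDρ] at hrelρ
    have hHρ : eval ρ H ≠ 0 := by
      intro h0
      rw [h0] at hrelρ
      have : eval ρ T = 0 := by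
        have : eval ρ T ^ 2 = 0 := by linear_combination -hrelρ
        exact pow_eq_zero_iff (two_ne_zero) |>.mp this
      rcases hHT with h | h
      · exact h h0
      · exact h this
    simp only [eval_sub, eval_pow] at hAρ
    have hSρ : eval ρ S ≠ 0 := by
      intro h0
      rw [h0] at hAρ
      apply hHρ
      linear_combination -hAρ
    have hS0 : S ≠ 0 := by
      rintro rfl
      simp at hSρ
    have hBρ : ¬ IsRoot (S ^ 2 - 9 * H) ρ := by
      intro h
      rw [IsRoot.def] at h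
      have h9 : eval ρ (9 : ℂ[X]) = 9 := by
        rw [← map_ofNat C 9, eval_C]
      simp only [eval_sub, eval_pow, eval_mul, h9] at h
      apply hHρ
      have : 8 * eval ρ H = 0 := by linear_combination hAρ - h
      simpa using this
    have hR0 : C (-64 * κ) * D ^ 5 * S ^ 2 ≠ 0 :=
      mul_ne_zero (mul_ne_zero hκ' (pow_ne_zero 5 hD0)) (pow_ne_zero 2 hS0)
    have hL0 : (S ^ 2 - H) ^ 3 * (S ^ 2 - 9 * H) ≠ 0 := by rw [hid]; exact hR0
    have hA0 : S ^ 2 - H ≠ 0 := by
      intro h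
      apply hL0
      rw [h]; simp
    have hm := congrArg (rootMultiplicity ρ) hid
    rw [rootMultiplicity_mul hL0, rootMultiplicity_mul hR0,
      rootMultiplicity_mul (mul_ne_zero hκ' (pow_ne_zero 5 hD0)), rootMult_pow hA0,
      rootMult_pow hD0, rootMult_pow hS0, rootMultiplicity_eq_zero hBρ, rootMultiplicity_C,
      rootMultiplicity_eq_zero (p := S) (x := ρ) hSρ] at hm
    have hpos : 0 < rootMultiplicity ρ D := (rootMultiplicity_pos hD0).mpr hDρ
    have h3 : 3 ≤ rootMultiplicity ρ D := by omega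
    exact not_cube_dvd hκ hrel hcop hD hH hT ρ ((le_rootMultiplicity_iff hD0).mp h3)
  -- step 8
  have hdvd : D ^ 5 ∣ S ^ 2 - 9 * H := by
    have h1 : IsCoprime (D ^ 5) ((S ^ 2 - H) ^ 3) := hcopDA.pow
    apply h1.dvd_of_dvd_mul_left
    rw [hid]
    exact ⟨C (-64 * κ) * S ^ 2, by ring⟩
  have hB : S ^ 2 - 9 * H = 0 := by
    by_contra hB0
    have h1 := natDegree_le_of_dvd hdvd hB0
    rw [natDegree_pow, hD] at h1
    have h2 : (S ^ 2 - 9 * H).natDegree ≤ 20 := by
      have h9 : (9 : ℂ[X]) = C 9 := (map_ofNat C 9).symm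
      rw [h9]
      refine (natDegree_sub_le _ _).trans (max_le ?_ ((natDegree_C_mul_le _ _).trans hH))
      have := natDegree_pow_le (p := S) (n := 2)
      omega
    omega
  rw [hB, mul_zero] at hid
  have hS0 : S = 0 := by
    have := hid.symm
    rcases mul_eq_zero.mp this with h | h
    · exact absurd h (mul_ne_zero hκ' (pow_ne_zero 5 hD0))
    · exact pow_eq_zero_iff (two_ne_zero) |>.mp h
  rw [hS0] at hB
  apply hH0
  have : (9 : ℂ[X]) * H = 0 := by linear_combination -hB
  rcases mul_eq_zero.mp this with h | h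
  · exact absurd h (by norm_num)
  · exact h

lemma natDegree_famD_le (c4 c6 a b : ℂ) :
    (famD (C c4) (C c6) (1 + C a * X) (C b * X)).natDegree ≤ 12 := by
  unfold famD
  compute_degree

lemma natDegree_famH_le (c4 c6 a b : ℂ) :
    (famH (C c4) (C c6) (1 + C a * X) (C b * X)).natDegree ≤ 20 := by
  unfold famH
  compute_degree

lemma natDegree_famT_le (c4 c6 a b : ℂ) :
    (famT (C c4) (C c6) (1 + C a * X) (C b * X)).natDegree ≤ 30 := by
  unfold famT
  compute_degree

lemma coeff_famD (c4 c6 a b : ℂ) :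
    (famD (C c4) (C c6) (1 + C a * X) (C b * X)).coeff 12 = famD c4 c6 a b := by
  unfold famD
  compute_degree
  case rs => ring
  all_goals norm_num

end Fermat.Agent.S52.F

namespace Fermat.Agent.S52

open Polynomial

theorem no_poly_root (c4 c6 a b : ℂ) (hΔ : c4 ^ 3 - c6 ^ 2 ≠ 0) (hb : b ≠ 0)
    (hab : famH c4 c6 a b ^ 3 - famT c4 c6 a b ^ 2 ≠ 0) (S : ℂ[X]) :
    quartic3 (famH (C c4) (C c6) (1 + C a * X) (C b * X))
      (famT (C c4) (C c6) (1 + C a * X) (C b * X)) S ≠ 0 := by
  have hrel : famH (C c4) (C c6) (1 + C a * X) (C b * X) ^ 3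
      - famT (C c4) (C c6) (1 + C a * X) (C b * X) ^ 2
      = C (c4 ^ 3 - c6 ^ 2) * famD (C c4) (C c6) (1 + C a * X) (C b * X) ^ 5 := by
    rw [famH_cube_sub, C_sub, C_pow, C_pow]
  have hcop : IsCoprime (famH (C c4) (C c6) (1 + C a * X) (C b * X))
      (famT (C c4) (C c6) (1 + C a * X) (C b * X)) := by
    rw [isCoprime_iff_aeval_ne_zero_of_isAlgClosed ℂ ℂ]
    intro ρ
    simp only [coe_aeval_eq_eval]
    have e1 : eval ρ (famH (C c4) (C c6) (1 + C a * X) (C b * X)) =
        famH c4 c6 (1 + a * ρ) (b * ρ) := by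
      have := map_famH (evalRingHom ρ) (C c4) (C c6) (1 + C a * X) (C b * X)
      simpa using this
    have e2 : eval ρ (famT (C c4) (C c6) (1 + C a * X) (C b * X)) =
        famT c4 c6 (1 + a * ρ) (b * ρ) := by
      have := map_famT (evalRingHom ρ) (C c4) (C c6) (1 + C a * X) (C b * X)
      simpa using this
    rw [e1, e2]
    apply famH_famT_ne_zero (by norm_num) (by norm_num) (by norm_num) hΔ
    by_cases hρ : ρ = 0
    · left; simp [hρ]
    · right; exact mul_ne_zero hb hρ
  have hD : (famD (C c4) (C c6) (1 + C a * X) (C b * X)).natDegree = 12 := by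
    apply le_antisymm (F.natDegree_famD_le c4 c6 a b)
    apply le_natDegree_of_ne_zero
    rw [F.coeff_famD]
    intro h0
    apply hab
    rw [famH_cube_sub, h0]
    ring
  have := F.abstract_no_root hΔ hrel hcop hD (F.natDegree_famH_le c4 c6 a b)
    (F.natDegree_famT_le c4 c6 a b) S
  simpa only [quartic3] using this

end Fermat.Agent.S52
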