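import Fermat.Agent.S52.Defs
import Fermat.Agent.DivPoly.Pointwise

/-!
# S52: shared definitions, part 2

* `IsTate c4 c6 a b`, `TP W P a b`: Tate parameters of points of order 5 on a short curve;
* `tX`, `tY`, `AddRel`: the addition law on Tate parameters as polynomial relations;
* `XRat`, `HasDeg`: self-maps of `W(K)` which are given on `x`-coordinates by a rational function
  `F / G` (`F` monic of degree `d`, `deg G < d`, no common root).
-/

set_option autoImplicit false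

namespace Fermat.Agent.S52

open WeierstrassCurve WeierstrassCurve.Affine Polynomial
open Fermat.Agent.DivPoly (px pz)

section Tate

variable {R : Type*} [CommRing R]

/-- `12 x` of the Tate point. -/
def tX (a b : R) : R := a ^ 2 + 6 * a * b + b ^ 2

/-- `2 y` of the Tate point. -/
def tY (a b : R) : R := a ^ 2 * b

/-- `pt(a₁,b₁) + pt(a₂,b₂) = pt(a₃,b₃)` (chord formula, denominators cleared). -/
def AddRel (a₁ b₁ a₂ b₂ a₃ b₃ : R) : Prop :=
  (tX a₃ b₃ + tX a₁ b₁ + tX a₂ b₂) * (tX a₁ b₁ - tX a₂ b₂) ^ 2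
      = 432 * (tY a₁ b₁ - tY a₂ b₂) ^ 2 ∧
  (tY a₃ b₃ + tY a₁ b₁) * (tX a₁ b₁ - tX a₂ b₂)
      = (tY a₁ b₁ - tY a₂ b₂) * (tX a₁ b₁ - tX a₃ b₃)

/-- `(a, b)` is a Tate parameter for the invariants `(c4, c6)`. -/
structure IsTate (c4 c6 a b : R) : Prop where
  h4 : c4T a b = c4
  h6 : c6T a b = c6

end Tate

section TP

variable {F : Type*} [Field F]

/-- `P` is the point `(tptX a b, tptY a b)`. -/
def TP (W : WeierstrassCurve F) (P : W.toAffine.Point) (a b : F) : Prop :=
  ∃ h : W.toAffine.Nonsingular (tptX a b) (tptY a b), P = Point.some _ _ h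

end TP

section XRat

variable {K : Type*} [Field K]

/-- `α : W(K) → W(K)` is given on `x`-coordinates by `F / G`, of degree `d`. -/
structure XRat (W : Affine K) (α : W.Point → W.Point) (d : ℕ) (F G : K[X]) : Prop where
  monic : F.Monic
  degF : F.natDegree = d
  degG : G.degree < (d : WithBot ℕ)
  noroot : ∀ x, ¬ (F.eval x = 0 ∧ G.eval x = 0)
  map_zero : α 0 = 0
  rep : ∀ (x y : K) (h : W.Nonsingular x y), ∃ c : K, c ≠ 0 ∧
    F.eval x = c * px (α (Point.some x y h)) ∧ G.eval x = c * pz (α (Point.some x y h))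

/-- `α` is given on `x`-coordinates by a rational function of degree `d`. -/
def HasDeg (W : Affine K) (α : W.Point → W.Point) (d : ℕ) : Prop :=
  ∃ F G : K[X], XRat W α d F G

end XRat

section Frob

open Fermat.Agent.S05 (xc yc)
open Fermat.Agent.DivPoly (T0 T1 T2)

variable {K : Type*} [Field K]

/-- abstract `q`-power Frobenius on `W(K)`. -/
structure IsFrob (W : Affine K) (q : ℕ) (Φ : W.Point → W.Point) : Prop where
  map_zero : Φ 0 = 0
  ne_zero : ∀ P, P ≠ 0 → Φ P ≠ 0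
  xc : ∀ P, xc (Φ P) = xc P ^ q
  yc : ∀ P, yc (Φ P) = yc P ^ q

/-- the polynomial `4 x³ + b₂ x² + 2 b₄ x + b₆ = (2y + a₁ x + a₃)²`. -/
noncomputable def fsD (W : Affine K) : K[X] :=
  C 4 * X ^ 3 + C W.b₂ * X ^ 2 + C (2 * W.b₄) * X + C W.b₆

/-- numerator of `x(ΦP + P) x(ΦP - P)` (denominator `(x^q - x)²`). -/
noncomputable def fsS0 (W : Affine K) (q : ℕ) : K[X] :=
  T0 (C W.b₄) (C W.b₆) (C W.b₈) (X ^ q * X) (X ^ q + X) 1

/-- numerator of `x(ΦP + P) + x(ΦP - P)` (denominator `(x^q - x)²`). -/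
noncomputable def fsS1 (W : Affine K) (q : ℕ) : K[X] :=
  T1 (C W.b₂) (C W.b₄) (C W.b₆) (X ^ q * X) (X ^ q + X) 1

/-- numerator of `x(ΦP - P)` (denominator `(x^q - x)²`), `q` odd. -/
noncomputable def fsRp (W : Affine K) (q : ℕ) : K[X] :=
  C (1 / 2) * (fsS1 W q + fsD W ^ ((q + 1) / 2))

/-- numerator of `x(ΦP + P)` (denominator `(x^q - x)²`), `q` odd. -/
noncomputable def fsRm (W : Affine K) (q : ℕ) : K[X] :=
  C (1 / 2) * (fsS1 W q - fsD W ^ ((q + 1) / 2))

end Frob

end Fermat.Agent.S52
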