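import Fermat.Statements.S52
import Fermat.Agent.S52.Defs2

/-! S52 task A: a Weierstrass curve over `𝔽_p`, `p ≥ 5`, has as many points as its short form. -/

set_option autoImplicit false
open WeierstrassCurve WeierstrassCurve.Affine Polynomial

namespace Fermat.Agent.S52

namespace A

variable {F : Type*} [Field F]

theorem nonsingular_iff (h2 : (2 : F) ≠ 0) (h3 : (3 : F) ≠ 0) (W : WeierstrassCurve F) (x y : F) :
    (shortW W.c₄ W.c₆).toAffine.Nonsingular (x + W.b₂ / 12) (y + (W.a₁ * x + W.a₃) / 2) ↔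
      W.toAffine.Nonsingular x y := by
  have h12 : (12 : F) ≠ 0 := by
    have : (12 : F) = 2 * 2 * 3 := by norm_num
    rw [this]; exact mul_ne_zero (mul_ne_zero h2 h2) h3
  have h48 : (48 : F) ≠ 0 := by
    have : (48 : F) = 2 * 2 * 12 := by norm_num
    rw [this]; exact mul_ne_zero (mul_ne_zero h2 h2) h12
  have h864 : (864 : F) ≠ 0 := by
    have : (864 : F) = 2 * 3 * 12 * 12 := by norm_num
    rw [this]; exact mul_ne_zero (mul_ne_zero (mul_ne_zero h2 h3) h12) h12
  rw [Affine.nonsingular_iff, Affine.nonsingular_iff, Affine.equation_iff, Affine.equation_iff]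
  simp only [shortW]
  have e0 : (y + (W.a₁ * x + W.a₃) / 2) ^ 2 + 0 * (x + W.b₂ / 12) * (y + (W.a₁ * x + W.a₃) / 2)
        + 0 * (y + (W.a₁ * x + W.a₃) / 2)
      - ((x + W.b₂ / 12) ^ 3 + 0 * (x + W.b₂ / 12) ^ 2 + -W.c₄ / 48 * (x + W.b₂ / 12)
        + -W.c₆ / 864)
      = y ^ 2 + W.a₁ * x * y + W.a₃ * y - (x ^ 3 + W.a₂ * x ^ 2 + W.a₄ * x + W.a₆) := by
    rw [WeierstrassCurve.c₄, WeierstrassCurve.c₆, WeierstrassCurve.b₂, WeierstrassCurve.b₄,
      WeierstrassCurve.b₆]
    field_simp
    ring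
  have e1 : 3 * (x + W.b₂ / 12) ^ 2 + 2 * 0 * (x + W.b₂ / 12) + -W.c₄ / 48
        - 0 * (y + (W.a₁ * x + W.a₃) / 2)
      = (3 * x ^ 2 + 2 * W.a₂ * x + W.a₄ - W.a₁ * y) + W.a₁ * (y + (W.a₁ * x + W.a₃) / 2) := by
    rw [WeierstrassCurve.c₄, WeierstrassCurve.b₂, WeierstrassCurve.b₄]
    field_simp
    ring
  have e2 : (y + (W.a₁ * x + W.a₃) / 2) - (-(y + (W.a₁ * x + W.a₃) / 2) - 0 * (x + W.b₂ / 12) - 0)
      = y - (-y - W.a₁ * x - W.a₃) := by
    field_simp
    ring
  have e3 : 2 * (y + (W.a₁ * x + W.a₃) / 2) = y - (-y - W.a₁ * x - W.a₃) := by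
    field_simp
    ring
  refine and_congr ?_ ?_
  · rw [← sub_eq_zero, e0, sub_eq_zero]
  · constructor
    · intro h
      by_contra hcon
      push Not at hcon
      obtain ⟨c1, c2⟩ := hcon
      have hY : y + (W.a₁ * x + W.a₃) / 2 = 0 := by
        have : 2 * (y + (W.a₁ * x + W.a₃) / 2) = 0 := by rw [e3, sub_eq_zero]; exact c2
        exact (mul_eq_zero.mp this).resolve_left h2
      rcases h with h | h
      · apply h
        rw [eq_comm, ← sub_eq_zero, e1, hY, c1]; ring
      · apply h
        rw [← sub_eq_zero, e2, sub_eq_zero]; exact c2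
    · intro h
      by_contra hcon
      push Not at hcon
      obtain ⟨c1, c2⟩ := hcon
      have c2' : y = -y - W.a₁ * x - W.a₃ := by
        rw [← sub_eq_zero, ← e2, sub_eq_zero]; exact c2
      have hY : y + (W.a₁ * x + W.a₃) / 2 = 0 := by
        have : 2 * (y + (W.a₁ * x + W.a₃) / 2) = 0 := by rw [e3, sub_eq_zero]; exact c2'
        exact (mul_eq_zero.mp this).resolve_left h2
      rcases h with h | h
      · apply h
        have := e1
        rw [← c1, hY] at this
        linear_combination this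
      · exact h c2'

/-- The bijection between the points of `W` and those of its short form. -/
noncomputable def pointEquiv (h2 : (2 : F) ≠ 0) (h3 : (3 : F) ≠ 0) (W : WeierstrassCurve F) :
    W.toAffine.Point ≃ (shortW W.c₄ W.c₆).toAffine.Point where
  toFun P := match P with
    | .zero => .zero
    | .some x y h => .some _ _ ((nonsingular_iff h2 h3 W x y).mpr h)
  invFun Q := match Q with
    | .zero => .zero
    | .some X Y h => .some (X - W.b₂ / 12) (Y - (W.a₁ * (X - W.b₂ / 12) + W.a₃) / 2)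
        ((nonsingular_iff h2 h3 W _ _).mp (by simpa using h))
  left_inv P := by
    cases P with
    | zero => rfl
    | some x y h => simp
  right_inv Q := by
    cases Q with
    | zero => rfl
    | some x y h => simp

end A

theorem traceOfFrobenius_eq_shortW (p : ℕ) [Fact p.Prime] (hp : 5 ≤ p)
    (W : WeierstrassCurve (ZMod p)) :
    W.traceOfFrobenius = (shortW W.c₄ W.c₆).traceOfFrobenius := by
  have hpp : p.Prime := Fact.out
  have h2 : (2 : ZMod p) ≠ 0 := by
    intro h
    have : ((2 : ℕ) : ZMod p) = 0 := by exact_mod_cast h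
    rw [ZMod.natCast_eq_zero_iff] at this
    have := Nat.le_of_dvd (by norm_num) this
    omega
  have h3 : (3 : ZMod p) ≠ 0 := by
    intro h
    have : ((3 : ℕ) : ZMod p) = 0 := by exact_mod_cast h
    rw [ZMod.natCast_eq_zero_iff] at this
    have := Nat.le_of_dvd (by norm_num) this
    omega
  unfold WeierstrassCurve.traceOfFrobenius WeierstrassCurve.card
  rw [Nat.card_congr (A.pointEquiv h2 h3 W)]

end Fermat.Agent.S52
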