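import Fermat.Statements.S52
import Fermat.Agent.S52.Defs2
import Fermat.Agent.S51.Three

/-! S52 task D: no integer root of the 3-division quartic implies mod 3 irreducibility. -/

set_option autoImplicit false
open WeierstrassCurve WeierstrassCurve.Affine Polynomial

namespace Fermat.Agent.S52

namespace D

/-- The key identity relating `quartic3` and the 3-division polynomial. -/
theorem quartic3_eq (E : WeierstrassCurve ℚ) (x : ℚ) :
    quartic3 E.c₄ E.c₆ (12 * x + E.b₂) =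
      6912 * (3*x^4 + E.b₂*x^3 + 3*E.b₄*x^2 + 3*E.b₆*x + E.b₈) := by
  have h := E.b_relation
  unfold quartic3
  rw [WeierstrassCurve.c₄, WeierstrassCurve.c₆]
  linear_combination (-1728 : ℚ) * h

/-- A rational root of the monic integral quartic is an integer. -/
theorem exists_int_of_root (c4 c6 : ℤ) (s : ℚ)
    (hs : quartic3 (c4 : ℚ) (c6 : ℚ) s = 0) : ∃ z : ℤ, (z : ℚ) = s := by
  have hint : IsIntegral ℤ s := by
    refine ⟨X ^ 4 - C (6 * c4) * X ^ 2 - C (8 * c6) * X - C (3 * c4 ^ 2), ?_, ?_⟩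
    · monicity!
    · unfold quartic3 at hs
      rw [eval₂_sub, eval₂_sub, eval₂_sub, eval₂_mul, eval₂_mul, eval₂_pow, eval₂_pow, eval₂_X,
        eval₂_C, eval₂_C, eval₂_C]
      simp only [eq_intCast, Int.cast_mul, Int.cast_pow, Int.cast_ofNat]
      linear_combination hs
  obtain ⟨z, hz⟩ := IsIntegrallyClosed.isIntegral_iff.mp hint
  exact ⟨z, by simpa using hz⟩

end D

theorem modRepIsIrreducible_three (W : WeierstrassCurve ℤ) (hΔ : W.Δ ≠ 0)
    (h : ∀ s : ℤ, quartic3 W.c₄ W.c₆ s ≠ 0) : W.ModRepIsIrreducible 3 := by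
  by_contra hirr
  have hΔ' : (W.map (Int.castRingHom ℚ)).Δ ≠ 0 := by
    rw [map_Δ]
    simpa using hΔ
  obtain ⟨x, hx⟩ := Fermat.Agent.S51.exists_root_psi3 (W.map (Int.castRingHom ℚ)) hΔ' hirr
  have h1 := D.quartic3_eq (W.map (Int.castRingHom ℚ)) x
  rw [hx, mul_zero, map_c₄, map_c₆] at h1
  obtain ⟨z, hz⟩ := D.exists_int_of_root W.c₄ W.c₆ _ (by simpa using h1)
  apply h z
  have h2 : ((quartic3 W.c₄ W.c₆ z : ℤ) : ℚ) = 0 := by
    have : ((quartic3 W.c₄ W.c₆ z : ℤ) : ℚ) = quartic3 (W.c₄ : ℚ) (W.c₆ : ℚ) (z : ℚ) := by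
      unfold quartic3; push_cast; ring
    rw [this, hz]
    simpa using h1
  exact_mod_cast h2

end Fermat.Agent.S52
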