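import Fermat.Agent.S52.Id
import Fermat.Agent.S52.Tate
import Fermat.Agent.S13.Ladder

/-!
# S52, task GEN: the generic member of the pencil

Over `L = Frac K[X]` the 24 obvious points of order 5 of the generic member of the pencil
`(1 + t (u - 1), t v)` together with `0` are all the 5-torsion, hence closed under addition.
-/

set_option autoImplicit false
open WeierstrassCurve WeierstrassCurve.Affine Polynomial

namespace Fermat.Agent.S52

theorem generic_addRel {K : Type*} [Field K] (h2 : (2 : K) ≠ 0) (h3 : (3 : K) ≠ 0)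
    (h5 : (5 : K) ≠ 0) {c4 c6 : K} (hΔ : c4 ^ 3 - c6 ^ 2 ≠ 0) (u v : K)
    (T : Finset (K × K)) (hcard : T.card = 24) (hT : ∀ q ∈ T, IsTate c4 c6 q.1 q.2)
    {q₁ q₂ : K × K} (h₁ : q₁ ∈ T) (h₂ : q₂ ∈ T) (hx : tX q₁.1 q₁.2 ≠ tX q₂.1 q₂.2) :
    ∃ q₃ ∈ T, AddRel
      (famA (C q₁.1) (C q₁.2) (1 + X * C (u - 1)) (X * C v))
      (famB (C q₁.1) (C q₁.2) (1 + X * C (u - 1)) (X * C v))
      (famA (C q₂.1) (C q₂.2) (1 + X * C (u - 1)) (X * C v))
      (famB (C q₂.1) (C q₂.2) (1 + X * C (u - 1)) (X * C v))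
      (famA (C q₃.1) (C q₃.2) (1 + X * C (u - 1)) (X * C v))
      (famB (C q₃.1) (C q₃.2) (1 + X * C (u - 1)) (X * C v)) := by
  classical
  obtain ⟨U, hU⟩ : ∃ U : K[X], U = 1 + X * C (u - 1) := ⟨_, rfl⟩
  obtain ⟨V, hV⟩ : ∃ V : K[X], V = X * C v := ⟨_, rfl⟩
  rw [← hU, ← hV]
  have hU0 : evalRingHom (0 : K) U = 1 := by simp [hU]
  have hV0 : evalRingHom (0 : K) V = 0 := by simp [hV]
  have hC0 : ∀ c : K, evalRingHom (0 : K) (C c) = c := fun c => by simp
  set L := FractionRing K[X] with hL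
  set φ : K[X] →+* L := algebraMap K[X] L with hφdef
  have hφ : Function.Injective φ := IsFractionRing.injective K[X] L
  have hψ : Function.Injective (φ.comp C) := hφ.comp C_injective
  have h2L : (2 : L) ≠ 0 := by
    have := (map_ne_zero_iff (φ.comp C) hψ).mpr h2
    rwa [map_ofNat] at this
  have h3L : (3 : L) ≠ 0 := by
    have := (map_ne_zero_iff (φ.comp C) hψ).mpr h3
    rwa [map_ofNat] at this
  have h5L : (5 : L) ≠ 0 := by
    have := (map_ne_zero_iff (φ.comp C) hψ).mpr h5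
    rwa [map_ofNat] at this
  obtain ⟨C4, hC4⟩ : ∃ C4 : K[X], C4 = famH (C c4) (C c6) U V := ⟨_, rfl⟩
  obtain ⟨C6, hC6⟩ : ∃ C6 : K[X], C6 = famT (C c4) (C c6) U V := ⟨_, rfl⟩
  have hΔt : (φ C4) ^ 3 - (φ C6) ^ 2 ≠ 0 := by
    rw [← map_pow, ← map_pow, ← map_sub]
    apply (map_ne_zero_iff φ hφ).mpr
    intro h0
    have h1 := congrArg (evalRingHom (0 : K)) h0
    rw [map_sub, map_pow, map_pow, hC4, hC6, map_famH, map_famT, hU0, hV0, hC0, hC0,
      famH_one_zero, famT_one_zero, map_zero] at h1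
    exact hΔ h1
  set Wt : WeierstrassCurve L := shortW (φ C4) (φ C6) with hWtdef
  have hWt : IsShortOf Wt (φ C4) (φ C6) := isShortOf_shortW _ _
  have hΔW : Wt.toAffine.Δ ≠ 0 := IsShortOf.Δ_ne_zero h2L h3L hWt hΔt
  -- parameters
  set A : K × K → K[X] := fun q => famA (C q.1) (C q.2) U V with hA
  set B : K × K → K[X] := fun q => famB (C q.1) (C q.2) U V with hB
  have hA0 : ∀ q, evalRingHom (0 : K) (A q) = q.1 := by
    intro q
    simp only [hA]
    rw [map_famA, hU0, hV0, hC0, hC0, famA_one_zero]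
  have hB0 : ∀ q, evalRingHom (0 : K) (B q) = q.2 := by
    intro q
    simp only [hB]
    rw [map_famB, hU0, hV0, hC0, hC0, famB_one_zero]
  have hTate : ∀ q ∈ T, IsTate (φ C4) (φ C6) (φ (A q)) (φ (B q)) := by
    intro q hq
    rw [hC4, hC6]
    exact (((hT q hq).map C).fam U V).map φ
  have hex : ∀ q ∈ T, ∃ P : Wt.toAffine.Point, TP Wt P (φ (A q)) (φ (B q)) :=
    fun q hq => exists_TP h2L h3L hWt hΔt (hTate q hq)
  choose! Pt hPt using hex
  have hinj : Set.InjOn Pt T := by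
    intro q hq q' hq' heq
    have hP' : TP Wt (Pt q) (φ (A q')) (φ (B q')) := by rw [heq]; exact hPt q' hq'
    obtain ⟨e1, e2⟩ := TP.unique h2L h3L hWt hΔt (hTate q hq) (hTate q' hq') (hPt q hq) hP'
    have e1' := congrArg (evalRingHom (0 : K)) (hφ e1)
    have e2' := congrArg (evalRingHom (0 : K)) (hφ e2)
    rw [hA0, hA0] at e1'
    rw [hB0, hB0] at e2'
    exact Prod.ext e1' e2'
  have h5P : ∀ q ∈ T, 5 • Pt q = 0 :=
    fun q hq => TP.five_nsmul h2L h3L hWt hΔt (hTate q hq) (hPt q hq)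
  obtain ⟨s, hs, hmem⟩ := Fermat.Agent.S13.Ladder.exists_finset_torsion (W := Wt.toAffine) hΔW
    (m := 2) (by norm_num) (by push_cast; norm_num; exact h5L)
  have hnot0 : (0 : Wt.toAffine.Point) ∉ T.image Pt := by
    intro h0
    obtain ⟨q, hq, hq0⟩ := Finset.mem_image.mp h0
    exact (hPt q hq).ne_zero hq0
  have hS'card : (insert (0 : Wt.toAffine.Point) (T.image Pt)).card = 25 := by
    rw [Finset.card_insert_of_notMem hnot0, Finset.card_image_of_injOn hinj, hcard]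
  have hsub : insert (0 : Wt.toAffine.Point) (T.image Pt) ⊆ s := by
    intro P hP
    apply hmem
    rcases Finset.mem_insert.mp hP with rfl | hP
    · simp
    · obtain ⟨q, hq, rfl⟩ := Finset.mem_image.mp hP
      exact h5P q hq
  have heq : insert (0 : Wt.toAffine.Point) (T.image Pt) = s :=
    Finset.eq_of_subset_of_card_le hsub (by rw [hS'card]; exact hs)
  have hsum_mem : Pt q₁ + Pt q₂ ∈ insert (0 : Wt.toAffine.Point) (T.image Pt) := by
    rw [heq]
    apply hmem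
    have e1 := h5P q₁ h₁
    have e2 := h5P q₂ h₂
    show 5 • (Pt q₁ + Pt q₂) = 0
    rw [nsmul_add, e1, e2, add_zero]
  have hxL : tX (φ (A q₁)) (φ (B q₁)) ≠ tX (φ (A q₂)) (φ (B q₂)) := by
    rw [← map_tX, ← map_tX]
    intro h
    have h' := congrArg (evalRingHom (0 : K)) (hφ h)
    rw [map_tX, map_tX, hA0, hA0, hB0, hB0] at h'
    exact hx h'
  have hsum0 : Pt q₁ + Pt q₂ ≠ 0 := by
    intro h0
    have hneg : Pt q₂ = - Pt q₁ := (neg_eq_of_add_eq_zero_right h0).symm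
    have hP' : TP Wt (Pt q₂) (-(φ (A q₁))) (-(φ (B q₁))) := by
      rw [hneg]; exact (hPt q₁ h₁).neg hWt
    obtain ⟨e1, e2⟩ := TP.unique h2L h3L hWt hΔt (hTate q₂ h₂) (hTate q₁ h₁).neg (hPt q₂ h₂) hP'
    apply hxL
    rw [e1, e2]
    simp only [tX]
    ring
  rcases Finset.mem_insert.mp hsum_mem with h0 | hmem3
  · exact absurd h0 hsum0
  · obtain ⟨q₃, hq₃, hq₃eq⟩ := Finset.mem_image.mp hmem3
    refine ⟨q₃, hq₃, ?_⟩
    apply AddRel.of_map φ hφ
    exact (TP.add_iff h2L h3L hWt (hPt q₁ h₁) (hPt q₂ h₂) (hPt q₃ hq₃) hxL).mp hq₃eq.symm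

end Fermat.Agent.S52
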