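import Fermat.Agent.S52.Tate
import Fermat.Agent.S52.Id
import Fermat.Agent.S52.Generic

/-! S52 task ADD: the map on Tate parameters is additive on independent pairs. -/

set_option autoImplicit false
set_option linter.unusedSectionVars false
set_option linter.unusedVariables false
open WeierstrassCurve WeierstrassCurve.Affine Polynomial

namespace Fermat.Agent.S52

namespace ADD

variable {K : Type*} [Field K] [DecidableEq K]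

lemma eq_or_eq_neg_of_tX_eq {W : WeierstrassCurve K} {R₁ R₂ : W.toAffine.Point}
    {α₁ β₁ α₂ β₂ : K} (p₁ : TP W R₁ α₁ β₁) (p₂ : TP W R₂ α₂ β₂)
    (h : tX α₁ β₁ = tX α₂ β₂) : R₁ = R₂ ∨ R₁ = -R₂ := by
  obtain ⟨n₁, rfl⟩ := p₁
  obtain ⟨n₂, rfl⟩ := p₂
  apply Point.X_eq_iff.mp
  have ex : ∀ a b : K, tptX a b = tX a b / 12 := fun a b => rfl
  rw [ex, ex, h]

/-- one application of `generic_addRel`, specialised at `0` and at `1`. -/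
lemma step (h2 : (2 : K) ≠ 0) (h3 : (3 : K) ≠ 0)
    (h5 : (5 : K) ≠ 0) {c4 c6 u v : K} {W : WeierstrassCurve K} (hW : IsShortOf W c4 c6)
    (hΔ : c4 ^ 3 - c6 ^ 2 ≠ 0)
    (T : Finset (K × K)) (hcard : T.card = 24) (hT : ∀ q ∈ T, IsTate c4 c6 q.1 q.2)
    {R₁ R₂ : W.toAffine.Point} {α₁ β₁ α₂ β₂ α₃ β₃ : K}
    (t₃ : IsTate c4 c6 α₃ β₃) (p₁ : TP W R₁ α₁ β₁) (p₂ : TP W R₂ α₂ β₂)
    (p₃ : TP W (R₁ + R₂) α₃ β₃) (m₁ : (α₁, β₁) ∈ T) (m₂ : (α₂, β₂) ∈ T)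
    (hx : tX α₁ β₁ ≠ tX α₂ β₂) :
    AddRel (famA α₁ β₁ u v) (famB α₁ β₁ u v) (famA α₂ β₂ u v) (famB α₂ β₂ u v)
      (famA α₃ β₃ u v) (famB α₃ β₃ u v) := by
  obtain ⟨q₃, hq₃, hrel⟩ := generic_addRel h2 h3 h5 hΔ u v T hcard hT m₁ m₂ hx
  have r0 := hrel.map (evalRingHom (0 : K))
  have r1 := hrel.map (evalRingHom (1 : K))
  simp only [map_famA, map_famB, coe_evalRingHom, eval_C, eval_add, eval_one, eval_mul, eval_X,
    zero_mul, add_zero, one_mul, famA_one_zero, famB_one_zero, add_sub_cancel] at r0 r1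
  obtain ⟨R₃, p₃'⟩ := exists_TP h2 h3 hW hΔ (hT q₃ hq₃)
  have e := (TP.add_iff h2 h3 hW p₁ p₂ p₃' hx).mpr r0
  rw [← e] at p₃'
  obtain ⟨e1, e2⟩ := TP.unique h2 h3 hW hΔ t₃ (hT q₃ hq₃) p₃ p₃'
  rw [e1, e2]
  exact r1

/-- the set of the 24 Tate parameters. -/
lemma exists_T (h2 : (2 : K) ≠ 0) (h3 : (3 : K) ≠ 0) {c4 c6 : K} {W : WeierstrassCurve K}
    (hW : IsShortOf W c4 c6) (hΔ : c4 ^ 3 - c6 ^ 2 ≠ 0)
    {P₁ P₂ : W.toAffine.Point} (h51 : 5 • P₁ = 0) (h52 : 5 • P₂ = 0)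
    (hind : ∀ m n : ℤ, m • P₁ + n • P₂ = 0 → (5 : ℤ) ∣ m ∧ (5 : ℤ) ∣ n) :
    ∃ T : Finset (K × K), T.card = 24 ∧ (∀ q ∈ T, IsTate c4 c6 q.1 q.2) ∧
      ∀ (i : Fin 5 × Fin 5), i ≠ (0, 0) → ∀ a b : K, IsTate c4 c6 a b →
        TP W (((i.1 : ℕ) : ℤ) • P₁ + ((i.2 : ℕ) : ℤ) • P₂) a b → (a, b) ∈ T := by
  have hne : ∀ i : Fin 5 × Fin 5, i ≠ (0, 0) →
      ((i.1 : ℕ) : ℤ) • P₁ + ((i.2 : ℕ) : ℤ) • P₂ ≠ 0 := by
    intro i hi h0
    obtain ⟨d1, d2⟩ := hind _ _ h0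
    apply hi
    have l1 := i.1.isLt
    have l2 := i.2.isLt
    ext
    · simp only [Fin.val_zero]; omega
    · simp only [Fin.val_zero]; omega
  have h5' : ∀ i : Fin 5 × Fin 5, 5 • (((i.1 : ℕ) : ℤ) • P₁ + ((i.2 : ℕ) : ℤ) • P₂) = 0 := by
    intro i
    rw [smul_add, smul_comm, smul_comm 5 (((i.2 : ℕ) : ℤ)), h51, h52]
    simp
  have hex : ∀ i : Fin 5 × Fin 5, i ≠ (0, 0) → ∃ q : K × K, IsTate c4 c6 q.1 q.2 ∧
      TP W (((i.1 : ℕ) : ℤ) • P₁ + ((i.2 : ℕ) : ℤ) • P₂) q.1 q.2 := by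
    intro i hi
    obtain ⟨a, b, h, h'⟩ := exists_isTate_of_five_nsmul h2 h3 hW hΔ (hne i hi) (h5' i)
    exact ⟨(a, b), h, h'⟩
  choose! f hf using hex
  refine ⟨((Finset.univ : Finset (Fin 5 × Fin 5)).erase (0, 0)).image f, ?_, ?_, ?_⟩
  · rw [Finset.card_image_of_injOn]
    · rw [Finset.card_erase_of_mem (Finset.mem_univ _)]
      simp
    · intro i hi j hj hij
      have hi' : i ≠ (0, 0) := by simpa using hi
      have hj' : j ≠ (0, 0) := by simpa using hj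
      have e := (hf i hi').2.eq (by rw [hij]; exact (hf j hj').2)
      have e0 : (((i.1 : ℕ) : ℤ) - ((j.1 : ℕ) : ℤ)) • P₁ +
          (((i.2 : ℕ) : ℤ) - ((j.2 : ℕ) : ℤ)) • P₂ = 0 := by
        rw [sub_smul, sub_smul]
        have := sub_eq_zero.mpr e
        rw [← this]; abel
      obtain ⟨d1, d2⟩ := hind _ _ e0
      have l1 := i.1.isLt
      have l2 := i.2.isLt
      have l3 := j.1.isLt
      have l4 := j.2.isLt
      ext <;> omega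
  · intro q hq
    obtain ⟨i, hi, rfl⟩ := Finset.mem_image.mp hq
    exact (hf i (by simpa using hi)).1
  · intro i hi a b h h'
    obtain ⟨e1, e2⟩ := TP.unique h2 h3 hW hΔ h (hf i hi).1 h' (hf i hi).2
    refine Finset.mem_image.mpr ⟨i, by simpa using hi, ?_⟩
    ext
    · exact e1.symm
    · exact e2.symm

end ADD

open ADD

theorem add_compat {K : Type*} [Field K] [DecidableEq K] (h2 : (2 : K) ≠ 0) (h3 : (3 : K) ≠ 0)
    (h5 : (5 : K) ≠ 0) {c4 c6 u v : K} {W W' : WeierstrassCurve K} (hW : IsShortOf W c4 c6)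
    (hW' : IsShortOf W' (famH c4 c6 u v) (famT c4 c6 u v)) (hΔ : c4 ^ 3 - c6 ^ 2 ≠ 0)
    (hΔ' : famH c4 c6 u v ^ 3 - famT c4 c6 u v ^ 2 ≠ 0)
    {P₁ P₂ : W.toAffine.Point} (h51 : 5 • P₁ = 0) (h52 : 5 • P₂ = 0)
    (hind : ∀ m n : ℤ, m • P₁ + n • P₂ = 0 → (5 : ℤ) ∣ m ∧ (5 : ℤ) ∣ n)
    {a₁ b₁ a₂ b₂ a₃ b₃ : K} (t₁ : IsTate c4 c6 a₁ b₁) (t₂ : IsTate c4 c6 a₂ b₂)
    (t₃ : IsTate c4 c6 a₃ b₃) (p₁ : TP W P₁ a₁ b₁) (p₂ : TP W P₂ a₂ b₂) (p₃ : TP W (P₁ + P₂) a₃ b₃)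
    {Q₁ Q₂ : W'.toAffine.Point} (q₁ : TP W' Q₁ (famA a₁ b₁ u v) (famB a₁ b₁ u v))
    (q₂ : TP W' Q₂ (famA a₂ b₂ u v) (famB a₂ b₂ u v)) :
    TP W' (Q₁ + Q₂) (famA a₃ b₃ u v) (famB a₃ b₃ u v) := by
  obtain ⟨T, hcard, hT, hmem⟩ := exists_T h2 h3 hW hΔ h51 h52 hind
  have m₁ : (a₁, b₁) ∈ T := hmem (1, 0) (by simp) a₁ b₁ t₁ (by simpa using p₁)
  have m₂ : (a₂, b₂) ∈ T := hmem (0, 1) (by simp) a₂ b₂ t₂ (by simpa using p₂)
  have hn2 : -P₂ = (4 : ℤ) • P₂ := by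
    have : (5 : ℤ) • P₂ = 0 := by exact_mod_cast h52
    rw [neg_eq_iff_add_eq_zero, ← this]
    have : (5 : ℤ) • P₂ = (4 : ℤ) • P₂ + P₂ := by
      rw [show (5 : ℤ) = 4 + 1 by norm_num, add_smul, one_smul]
    rw [this]; abel
  have m₂' : (-a₂, -b₂) ∈ T := hmem (0, 4) (by simp) (-a₂) (-b₂) t₂.neg (by
    have := p₂.neg hW
    rw [hn2] at this
    simpa using this)
  have hxne : tX a₁ b₁ ≠ tX a₂ b₂ := by
    intro h
    rcases eq_or_eq_neg_of_tX_eq p₁ p₂ h with e | e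
    · have := (hind 1 (-1) (by rw [e]; simp)).1
      omega
    · have := (hind 1 1 (by rw [e]; simp)).1
      omega
  have hxne' : tX a₁ b₁ ≠ tX (-a₂) (-b₂) := by
    have : tX (-a₂) (-b₂) = tX a₂ b₂ := by simp only [tX]; ring
    rw [this]; exact hxne
  have r := step (u := u) (v := v) h2 h3 h5 hW hΔ T hcard hT t₃ p₁ p₂ p₃ m₁ m₂ hxne
  -- the difference
  have hdne : P₁ + -P₂ ≠ 0 := by
    intro h
    have := (hind 1 (-1) (by simpa using h)).1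
    omega
  have hd5 : 5 • (P₁ + -P₂) = 0 := by rw [smul_add, smul_neg, h51, h52]; simp
  obtain ⟨a₄, b₄, t₄, p₄⟩ := exists_isTate_of_five_nsmul h2 h3 hW hΔ hdne hd5
  have r' := step (u := u) (v := v) h2 h3 h5 hW hΔ T hcard hT t₄ p₁ (p₂.neg hW) p₄ m₁ m₂' hxne'
  rw [famA_neg, famB_neg] at r'
  have t₁' := t₁.fam u v
  obtain ⟨ha', hb', -⟩ := t₁'.ne_zero h2 h3 hΔ'
  have hxne2 : tX (famA a₁ b₁ u v) (famB a₁ b₁ u v) ≠ tX (famA a₂ b₂ u v) (famB a₂ b₂ u v) := by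
    intro h
    have k1 := r.1
    have k2 := r'.1
    have hX : tX (-famA a₂ b₂ u v) (-famB a₂ b₂ u v) = tX (famA a₂ b₂ u v) (famB a₂ b₂ u v) := by
      simp only [tX]; ring
    have hY : tY (-famA a₂ b₂ u v) (-famB a₂ b₂ u v) = -tY (famA a₂ b₂ u v) (famB a₂ b₂ u v) := by
      simp only [tY]; ring
    rw [hX, hY] at k2
    rw [h, sub_self] at k1 k2
    have h432 : (432 : K) ≠ 0 := by
      have : (432 : K) = 2 ^ 4 * 3 ^ 3 := by norm_num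
      rw [this]; exact mul_ne_zero (pow_ne_zero _ h2) (pow_ne_zero _ h3)
    have z1 : tY (famA a₁ b₁ u v) (famB a₁ b₁ u v) - tY (famA a₂ b₂ u v) (famB a₂ b₂ u v) = 0 := by
      have : 432 * (tY (famA a₁ b₁ u v) (famB a₁ b₁ u v) -
          tY (famA a₂ b₂ u v) (famB a₂ b₂ u v)) ^ 2 = 0 := by rw [← k1]; ring
      exact pow_eq_zero_iff (two_ne_zero) |>.mp ((mul_eq_zero.mp this).resolve_left h432)
    have z2 : tY (famA a₁ b₁ u v) (famB a₁ b₁ u v) - -tY (famA a₂ b₂ u v) (famB a₂ b₂ u v) = 0 := by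
      have : 432 * (tY (famA a₁ b₁ u v) (famB a₁ b₁ u v) -
          -tY (famA a₂ b₂ u v) (famB a₂ b₂ u v)) ^ 2 = 0 := by rw [← k2]; ring
      exact pow_eq_zero_iff (two_ne_zero) |>.mp ((mul_eq_zero.mp this).resolve_left h432)
    have z3 : 2 * tY (famA a₁ b₁ u v) (famB a₁ b₁ u v) = 0 := by linear_combination z1 + z2
    have z4 := (mul_eq_zero.mp z3).resolve_left h2
    rw [tY] at z4
    exact (mul_ne_zero (pow_ne_zero _ ha') hb') z4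
  obtain ⟨Q₃, q₃⟩ := exists_TP h2 h3 hW' hΔ' (t₃.fam u v)
  have e := (TP.add_iff h2 h3 hW' q₁ q₂ q₃ hxne2).mpr r
  rw [e]
  exact q₃

end Fermat.Agent.S52
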