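import Fermat.Statements.S52
import Fermat.Agent.S52.Defs2
import Fermat.Agent.S52.Id
import Fermat.Agent.S52.Tate
import Fermat.Agent.S52.Additive
import Fermat.Agent.S52.FrobQuad
import Fermat.Agent.S13.Ladder

/-! # S52 / TC : the traces of Frobenius of two members of the 5-congruent family agree mod 5 -/

set_option autoImplicit false
open WeierstrassCurve WeierstrassCurve.Affine Polynomial
open Fermat.Agent.DivPoly (px pz)
open Fermat.Agent.S05 (xc yc)

namespace Fermat.Agent.S52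

namespace TC

section Group

variable {G : Type*} [AddCommGroup G]

theorem zsmul_congr {P : G} (h5 : 5 • P = 0) {m n : ℤ} (h : (5 : ℤ) ∣ m - n) : m • P = n • P := by
  obtain ⟨c, hc⟩ := h
  have h5' : (5 : ℤ) • P = 0 := by exact_mod_cast h5
  have e : m = n + c * 5 := by linarith
  rw [e, add_zsmul, mul_zsmul, h5', zsmul_zero, add_zero]

theorem zsmul_eq_zero_of_dvd {P : G} (h5 : 5 • P = 0) {m : ℤ} (h : (5 : ℤ) ∣ m) : m • P = 0 := by
  rw [zsmul_congr h5 (n := 0) (by simpa using h), zero_zsmul]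

theorem exists_inv_mod_five {m : ℤ} (h : ¬ (5 : ℤ) ∣ m) : ∃ x : ℤ, (5 : ℤ) ∣ x * m - 1 := by
  have : m % 5 = 1 ∨ m % 5 = 2 ∨ m % 5 = 3 ∨ m % 5 = 4 := by omega
  rcases this with h | h | h | h
  · exact ⟨1, by omega⟩
  · exact ⟨3, by omega⟩
  · exact ⟨2, by omega⟩
  · exact ⟨4, by omega⟩

theorem five_dvd_of_zsmul {P : G} (hP : P ≠ 0) (h5 : 5 • P = 0) {n : ℤ} (hn : n • P = 0) :
    (5 : ℤ) ∣ n := by
  by_contra h
  obtain ⟨x, hx⟩ := exists_inv_mod_five h
  apply hP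
  have := zsmul_congr h5 hx
  rw [mul_zsmul, hn, zsmul_zero, one_zsmul] at this
  exact this.symm

theorem eq_zero_of_two_five {R : G} (h2 : (2 : ℤ) • R = 0) (h5 : 5 • R = 0) : R = 0 := by
  by_contra h
  have := five_dvd_of_zsmul h h5 h2
  omega

end Group

section Corr

variable {K : Type*} [Field K] [DecidableEq K]

/-- the standing hypotheses -/
structure Hyp (W W' : WeierstrassCurve K) (c4 c6 u v : K) : Prop where
  h2 : (2 : K) ≠ 0
  h3 : (3 : K) ≠ 0
  h5 : (5 : K) ≠ 0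
  hW : IsShortOf W c4 c6
  hW' : IsShortOf W' (famH c4 c6 u v) (famT c4 c6 u v)
  hΔ : c4 ^ 3 - c6 ^ 2 ≠ 0
  hΔ' : famH c4 c6 u v ^ 3 - famT c4 c6 u v ^ 2 ≠ 0

/-- the correspondence between the points of order 5 of the two curves -/
def Corr (W W' : WeierstrassCurve K) (c4 c6 u v : K) (R : W.toAffine.Point)
    (R' : W'.toAffine.Point) : Prop :=
  ∃ α β : K, IsTate c4 c6 α β ∧ TP W R α β ∧ TP W' R' (famA α β u v) (famB α β u v)

variable {W W' : WeierstrassCurve K} {c4 c6 u v : K}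
variable {R R₁ R₂ : W.toAffine.Point} {R' R₁' R₂' : W'.toAffine.Point}

theorem Corr.ne_zero (h : Corr W W' c4 c6 u v R R') : R ≠ 0 := by
  obtain ⟨α, β, _, hR, _⟩ := h
  exact hR.ne_zero

theorem Corr.ne_zero' (h : Corr W W' c4 c6 u v R R') : R' ≠ 0 := by
  obtain ⟨α, β, _, _, hR⟩ := h
  exact hR.ne_zero

theorem Corr.five (H : Hyp W W' c4 c6 u v) (h : Corr W W' c4 c6 u v R R') : 5 • R = 0 := by
  obtain ⟨α, β, ht, hR, _⟩ := h
  exact TP.five_nsmul H.h2 H.h3 H.hW H.hΔ ht hR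

theorem Corr.five' (H : Hyp W W' c4 c6 u v) (h : Corr W W' c4 c6 u v R R') : 5 • R' = 0 := by
  obtain ⟨α, β, ht, _, hR⟩ := h
  exact TP.five_nsmul H.h2 H.h3 H.hW' H.hΔ' (ht.fam u v) hR

theorem Corr.unique (H : Hyp W W' c4 c6 u v) (h₁ : Corr W W' c4 c6 u v R R₁')
    (h₂ : Corr W W' c4 c6 u v R R₂') : R₁' = R₂' := by
  obtain ⟨α, β, ht, hR, hR'⟩ := h₁
  obtain ⟨α₂, β₂, ht₂, hR₂, hR₂'⟩ := h₂
  obtain ⟨rfl, rfl⟩ := TP.unique H.h2 H.h3 H.hW H.hΔ ht ht₂ hR hR₂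
  exact hR'.eq hR₂'

theorem Corr.exists (H : Hyp W W' c4 c6 u v) (hR : R ≠ 0) (h5 : 5 • R = 0) :
    ∃ R' : W'.toAffine.Point, Corr W W' c4 c6 u v R R' := by
  obtain ⟨α, β, ht, hT⟩ := exists_isTate_of_five_nsmul H.h2 H.h3 H.hW H.hΔ hR h5
  obtain ⟨R', hR'⟩ := exists_TP H.h2 H.h3 H.hW' H.hΔ' (ht.fam u v)
  exact ⟨R', α, β, ht, hT, hR'⟩

theorem Corr.neg (H : Hyp W W' c4 c6 u v) (h : Corr W W' c4 c6 u v R R') :
    Corr W W' c4 c6 u v (-R) (-R') := by
  obtain ⟨α, β, ht, hR, hR'⟩ := h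
  refine ⟨-α, -β, ht.neg, hR.neg H.hW, ?_⟩
  rw [famA_neg, famB_neg]
  exact hR'.neg H.hW'

theorem Corr.two (H : Hyp W W' c4 c6 u v) (h : Corr W W' c4 c6 u v R R') :
    Corr W W' c4 c6 u v (2 • R) (2 • R') := by
  obtain ⟨α, β, ht, hR, hR'⟩ := h
  refine ⟨-β, α, ht.swap, TP.two_nsmul H.h2 H.h3 H.hW H.hΔ ht hR, ?_⟩
  rw [famA_swap, famB_swap]
  exact TP.two_nsmul H.h2 H.h3 H.hW' H.hΔ' (ht.fam u v) hR'

theorem Corr.zsmul (H : Hyp W W' c4 c6 u v) (h : Corr W W' c4 c6 u v R R') {k : ℤ}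
    (hk : ¬ (5 : ℤ) ∣ k) : Corr W W' c4 c6 u v (k • R) (k • R') := by
  have h5 := h.five H
  have h5' := h.five' H
  have hc : (5 : ℤ) ∣ k - 1 ∨ (5 : ℤ) ∣ k - 2 ∨ (5 : ℤ) ∣ k - (-2) ∨ (5 : ℤ) ∣ k - (-1) := by omega
  rcases hc with hc | hc | hc | hc
  · rw [zsmul_congr h5 hc, zsmul_congr h5' hc, one_zsmul, one_zsmul]
    exact h
  · rw [zsmul_congr h5 hc, zsmul_congr h5' hc]
    have := h.two H
    exact_mod_cast this
  · rw [zsmul_congr h5 hc, zsmul_congr h5' hc, neg_zsmul, neg_zsmul]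
    have := (h.two H).neg H
    exact_mod_cast this
  · rw [zsmul_congr h5 hc, zsmul_congr h5' hc, neg_zsmul, neg_zsmul, one_zsmul, one_zsmul]
    exact h.neg H

theorem Corr.add (H : Hyp W W' c4 c6 u v) (h₁ : Corr W W' c4 c6 u v R₁ R₁')
    (h₂ : Corr W W' c4 c6 u v R₂ R₂')
    (hind : ∀ m n : ℤ, m • R₁ + n • R₂ = 0 → (5 : ℤ) ∣ m ∧ (5 : ℤ) ∣ n) :
    Corr W W' c4 c6 u v (R₁ + R₂) (R₁' + R₂') := by
  have h51 := h₁.five H
  have h52 := h₂.five H
  have hne : R₁ + R₂ ≠ 0 := by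
    intro h0
    have := (hind 1 1 (by simpa using h0)).1
    omega
  have h5 : 5 • (R₁ + R₂) = 0 := by rw [smul_add, h51, h52, add_zero]
  obtain ⟨a₃, b₃, t₃, p₃⟩ := exists_isTate_of_five_nsmul H.h2 H.h3 H.hW H.hΔ hne h5
  obtain ⟨a₁, b₁, t₁, p₁, q₁⟩ := h₁
  obtain ⟨a₂, b₂, t₂, p₂, q₂⟩ := h₂
  exact ⟨a₃, b₃, t₃, p₃, add_compat H.h2 H.h3 H.h5 H.hW H.hW' H.hΔ H.hΔ' h51 h52 hind t₁ t₂ t₃
    p₁ p₂ p₃ q₁ q₂⟩

/-- the abstract form of the congruence of traces -/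
theorem main (H : Hyp W W' c4 c6 u v) (F : W.toAffine.Point →+ W.toAffine.Point)
    (F' : W'.toAffine.Point →+ W'.toAffine.Point)
    (hF : ∀ R R', Corr W W' c4 c6 u v R R' → Corr W W' c4 c6 u v (F R) (F' R'))
    (a a' p : ℤ) (hp : ¬ (5 : ℤ) ∣ p)
    (hq : ∀ P, (2 : ℤ) • (F (F P) - a • F P + p • P) = 0)
    (hq' : ∀ P, (2 : ℤ) • (F' (F' P) - a' • F' P + p • P) = 0)
    (P : W.toAffine.Point) (hP : P ≠ 0) (h5P : 5 • P = 0) : (5 : ℤ) ∣ a' - a := by
  obtain ⟨P', cP⟩ := Corr.exists H hP h5P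
  have h5P' := cP.five' H
  have hP' := cP.ne_zero'
  have cF := hF _ _ cP
  have cFF := hF _ _ cF
  have h5F := cF.five H
  have h5F' := cF.five' H
  have e : F (F P) - a • F P + p • P = 0 := by
    refine eq_zero_of_two_five (hq P) ?_
    rw [smul_add, smul_sub, smul_comm 5 a, smul_comm 5 p, cFF.five H, h5F, h5P]
    simp
  have e' : F' (F' P') - a' • F' P' + p • P' = 0 := by
    refine eq_zero_of_two_five (hq' P') ?_
    rw [smul_add, smul_sub, smul_comm 5 a', smul_comm 5 p, cFF.five' H, h5F', h5P']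
    simp
  by_cases hk : ∃ k : ℤ, F P = k • P
  · obtain ⟨k, hk⟩ := hk
    have hk5 : ¬ (5 : ℤ) ∣ k := by
      intro h
      exact cF.ne_zero (by rw [hk, zsmul_eq_zero_of_dvd h5P h])
    have hk' : F' P' = k • P' := by
      have c := cP.zsmul H hk5
      rw [← hk] at c
      exact Corr.unique H cF c
    have d : (5 : ℤ) ∣ k * k - a * k + p := by
      refine five_dvd_of_zsmul hP h5P ?_
      rw [hk, map_zsmul, hk] at e
      rw [add_zsmul, sub_zsmul, mul_zsmul, mul_zsmul]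
      exact e
    have d' : (5 : ℤ) ∣ k * k - a' * k + p := by
      refine five_dvd_of_zsmul hP' h5P' ?_
      rw [hk', map_zsmul, hk'] at e'
      rw [add_zsmul, sub_zsmul, mul_zsmul, mul_zsmul]
      exact e'
    have d'' : (5 : ℤ) ∣ (a' - a) * k := by
      have := dvd_sub d d'
      have e2 : k * k - a * k + p - (k * k - a' * k + p) = (a' - a) * k := by ring
      rwa [e2] at this
    exact ((by norm_num : Prime (5 : ℤ)).dvd_or_dvd d'').resolve_right hk5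
  · push Not at hk
    have hind : ∀ m n : ℤ, m • F P + n • P = 0 → (5 : ℤ) ∣ m ∧ (5 : ℤ) ∣ n := by
      intro m n hmn
      by_cases hm : (5 : ℤ) ∣ m
      · refine ⟨hm, five_dvd_of_zsmul hP h5P ?_⟩
        rwa [zsmul_eq_zero_of_dvd h5F hm, zero_add] at hmn
      · exfalso
        obtain ⟨x, hx⟩ := exists_inv_mod_five hm
        have h1 := zsmul_congr h5F hx
        rw [one_zsmul, mul_zsmul, eq_neg_of_add_eq_zero_left hmn, ← neg_zsmul, ← mul_zsmul] at h1
        exact hk _ h1.symm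
    have hp' : ¬ (5 : ℤ) ∣ -p := by rwa [dvd_neg]
    have c : Corr W W' c4 c6 u v (a • F P + (-p) • P) (a • F' P' + (-p) • P') := by
      by_cases ha : (5 : ℤ) ∣ a
      · rw [zsmul_eq_zero_of_dvd h5F ha, zsmul_eq_zero_of_dvd h5F' ha, zero_add, zero_add]
        exact cP.zsmul H hp'
      · refine Corr.add H (cF.zsmul H ha) (cP.zsmul H hp') ?_
        intro m n hmn
        rw [← mul_zsmul, ← mul_zsmul] at hmn
        obtain ⟨h1, h2⟩ := hind _ _ hmn
        exact ⟨((by norm_num : Prime (5 : ℤ)).dvd_or_dvd h1).resolve_right ha,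
          ((by norm_num : Prime (5 : ℤ)).dvd_or_dvd h2).resolve_right hp'⟩
    have e1 : F (F P) = a • F P + (-p) • P := by
      rw [neg_zsmul, ← sub_eq_add_neg, eq_sub_iff_add_eq, ← sub_eq_zero, ← e]
      abel
    rw [← e1] at c
    have e2 : F' (F' P') = a • F' P' + (-p) • P' := Corr.unique H cFF c
    have e3 : (a - a') • F' P' = 0 := by
      rw [e2] at e'
      rw [sub_zsmul, ← e', neg_zsmul]
      abel
    have := five_dvd_of_zsmul cF.ne_zero' h5F' e3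
    rw [← dvd_neg, neg_sub] at this
    exact this

end Corr

section Frob

variable {p : ℕ} [Fact p.Prime] {K : Type*} [Field K] [Algebra (ZMod p) K]

theorem map_tptX (f : K →+* K) (a b : K) : f (tptX a b) = tptX (f a) (f b) := by
  simp [tptX, map_div₀, map_ofNat]

theorem map_tptY (f : K →+* K) (a b : K) : f (tptY a b) = tptY (f a) (f b) := by
  simp [tptY, map_div₀, map_ofNat]

theorem TP.map [DecidableEq K] (W₀ : WeierstrassCurve (ZMod p)) (f : K →ₐ[ZMod p] K)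
    {R : (W₀⁄K).toAffine.Point} {a b : K} (h : TP (W₀⁄K) R a b) :
    TP (W₀⁄K) (Point.map (W' := W₀.toAffine) f R) (f a) (f b) := by
  obtain ⟨hns, rfl⟩ := h
  have hx : f (tptX a b) = tptX (f a) (f b) := map_tptX f.toRingHom a b
  have hy : f (tptY a b) = tptY (f a) (f b) := map_tptY f.toRingHom a b
  rw [Point.map_some]
  have hns' := (W₀.toAffine.baseChange_nonsingular f.injective (tptX a b) (tptY a b)).mpr hns
  refine ⟨by rw [← hx, ← hy]; exact hns', ?_⟩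
  simp only [hx, hy]

end Frob

end TC

open TC in
theorem trace_congr (p : ℕ) [Fact p.Prime] (hp : 7 ≤ p) (c4 c6 u v : ZMod p)
    (h : c4 ^ 3 - c6 ^ 2 ≠ 0) (h' : famH c4 c6 u v ^ 3 - famT c4 c6 u v ^ 2 ≠ 0) :
    (5 : ℤ) ∣ (shortW (famH c4 c6 u v) (famT c4 c6 u v)).traceOfFrobenius
      - (shortW c4 c6).traceOfFrobenius := by
  classical
  have hpp : p.Prime := Fact.out
  let K := AlgebraicClosure (ZMod p)
  let ι : ZMod p →+* K := algebraMap (ZMod p) K
  have hι : Function.Injective ι := ι.injective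
  have hn0 : ∀ n : ℕ, 0 < n → n < 7 → ((n : ℕ) : ZMod p) ≠ 0 := by
    intro n h0 h7 hn
    rw [ZMod.natCast_eq_zero_iff] at hn
    have := Nat.le_of_dvd h0 hn
    omega
  have h2 : (2 : ZMod p) ≠ 0 := by exact_mod_cast hn0 2 (by norm_num) (by norm_num)
  have h3 : (3 : ZMod p) ≠ 0 := by exact_mod_cast hn0 3 (by norm_num) (by norm_num)
  have h5 : (5 : ZMod p) ≠ 0 := by exact_mod_cast hn0 5 (by norm_num) (by norm_num)
  have hK : ∀ x : ZMod p, x ≠ 0 → ι x ≠ 0 := fun x hx => (map_ne_zero_iff ι hι).mpr hx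
  have H : Hyp ((shortW c4 c6)⁄K) ((shortW (famH c4 c6 u v) (famT c4 c6 u v))⁄K)
      (ι c4) (ι c6) (ι u) (ι v) :=
    { h2 := by have := hK 2 h2; rwa [map_ofNat] at this
      h3 := by have := hK 3 h3; rwa [map_ofNat] at this
      h5 := by have := hK 5 h5; rwa [map_ofNat] at this
      hW := (isShortOf_shortW c4 c6).map ι
      hW' := by
        have := (isShortOf_shortW (famH c4 c6 u v) (famT c4 c6 u v)).map ι
        rwa [map_famH, map_famT] at this
      hΔ := by simpa using hK _ h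
      hΔ' := by
        have := hK _ h'
        rwa [map_sub, map_pow, map_pow, map_famH, map_famT] at this }
  have hΔ₀ : (shortW c4 c6).Δ ≠ 0 := (isShortOf_shortW c4 c6).Δ_ne_zero h2 h3 h
  have hΔ₀' : (shortW (famH c4 c6 u v) (famT c4 c6 u v)).Δ ≠ 0 :=
    (isShortOf_shortW _ _).Δ_ne_zero h2 h3 h'
  have hΔK : ((shortW c4 c6)⁄K).Δ ≠ 0 := H.hW.Δ_ne_zero H.h2 H.h3 H.hΔ
  obtain ⟨P, hP, h5P⟩ := S13.Ladder.exists_torsion_point (W := ((shortW c4 c6)⁄K).toAffine) hΔK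
    (m := 2) (by norm_num) (by simpa using H.h5)
  have hp2 : p ≠ 2 := by omega
  have hp5 : ¬ (5 : ℤ) ∣ (p : ℤ) := by
    intro hd
    have hd' : 5 ∣ p := by exact_mod_cast hd
    have := (Nat.prime_dvd_prime_iff_eq (by norm_num) hpp).mp hd'
    omega
  have key := main H (frobPt p (shortW c4 c6) K)
    (frobPt p (shortW (famH c4 c6 u v) (famT c4 c6 u v)) K) ?_
    ((p : ℤ) + 1 - (Nat.card (shortW c4 c6).toAffine.Point : ℤ))
    ((p : ℤ) + 1 - (Nat.card (shortW (famH c4 c6 u v) (famT c4 c6 u v)).toAffine.Point : ℤ))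
    (p : ℤ) hp5
    (frobenius_quadratic_two p hp2 _ hΔ₀ K) (frobenius_quadratic_two p hp2 _ hΔ₀' K) P hP h5P
  · simpa [WeierstrassCurve.traceOfFrobenius, WeierstrassCurve.card, Nat.card_zmod] using key
  · rintro R R' ⟨α, β, ht, hR, hR'⟩
    let f := FiniteField.frobeniusAlgHom (ZMod p) K
    have hf : ∀ x : ZMod p, f (ι x) = ι x := fun x => f.commutes x
    refine ⟨f α, f β, ?_, TP.map _ f hR, ?_⟩
    · have := ht.map f.toRingHom
      simpa [hf] using this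
    · have := TP.map _ f hR'
      have eA : f (famA α β (ι u) (ι v)) = famA (f α) (f β) (ι u) (ι v) := by
        have := map_famA f.toRingHom α β (ι u) (ι v)
        simpa [hf] using this
      have eB : f (famB α β (ι u) (ι v)) = famB (f α) (f β) (ι u) (ι v) := by
        have := map_famB f.toRingHom α β (ι u) (ι v)
        simpa [hf] using this
      rw [eA, eB] at this
      exact this

end Fermat.Agent.S52
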