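import Mathlib

set_option autoImplicit false

namespace Fermat.Agent.S52

variable {R : Type*} [CommRing R]

/-- `c₄` of the Tate normal form `y² + (a+b)xy + a²b y = x³ + ab x²` (point `(0,0)` of order 5). -/
def c4T (a b : R) : R := a^4 - 12*a^3*b + 14*a^2*b^2 + 12*a*b^3 + b^4

/-- `c₆` of the Tate normal form. -/
def c6T (a b : R) : R := -a^6 + 18*a^5*b - 75*a^4*b^2 - 75*a^2*b^4 - 18*a*b^5 - b^6

/-- discriminant of the Tate normal form. -/
def dT (a b : R) : R := a^5*b^5*(a^2 - 11*a*b - b^2)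

def famX (a b u v : R) : R := u + v*(a^2+b^2)
def famY (a b v : R) : R := 6*v*a*b
def famP (X Y : R) : R := X^5 + 50*X^3*Y^2 + 125*X*Y^4
def famQ (X Y : R) : R := X^4*Y + 10*X^2*Y^3 + 5*Y^5

/-- new Tate parameter `α'`. -/
def famA (a b u v : R) : R :=
  a * famP (famX a b u v) (famY a b v) - (11*a + 2*b) * famQ (famX a b u v) (famY a b v)

/-- new Tate parameter `β'`. -/
def famB (a b u v : R) : R :=
  b * famP (famX a b u v) (famY a b v) + (11*b - 2*a) * famQ (famX a b u v) (famY a b v)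

/-- `c₄` of the 5-congruent family. -/
def famH (c4 c6 u v : R) : R :=
    (c4)*u^20
    + (-20*c6)*u^19*v
    + (190*c4^2)*u^18*v^2
    + (-1140*c4*c6)*u^17*v^3
    + (5700*c6^2 - 855*c4^3)*u^16*v^4
    + (-15504*c4^2*c6)*u^15*v^5
    + (-63840*c4*c6^2 + 102600*c4^4)*u^14*v^6
    + (182400*c6^3 - 259920*c4^3*c6)*u^13*v^7
    + (1126320*c4^2*c6^2 - 1000350*c4^5)*u^12*v^8
    + (-7904000*c4*c6^3 + 7736040*c4^4*c6)*u^11*v^9
    + (15808000*c6^4 - 5619744*c4^3*c6^2 - 10003500*c4^6)*u^10*v^10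
    + (-54853760*c4^2*c6^3 + 54685800*c4^5*c6)*u^9*v^11
    + (37939200*c4*c6^4 + 7202520*c4^4*c6^2 - 45015750*c4^7)*u^8*v^12
    + (-58368000*c6^5 + 23201280*c4^3*c6^3 + 35089200*c4^6*c6)*u^7*v^13
    + (287462400*c4^2*c6^4 - 495188640*c4^5*c6^2 + 207765000*c4^8)*u^6*v^14
    + (-466944000*c4*c6^5 + 882458496*c4^4*c6^3 - 415530000*c4^7*c6)*u^5*v^15
    + (583680000*c6^6 - 1220474880*c4^3*c6^4 + 714711600*c4^6*c6^2 - 77911875*c4^9)*u^4*v^16
    + (-361881600*c4^2*c6^5 + 715080960*c4^5*c6^3 - 353200500*c4^8*c6)*u^3*v^17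
    + (-622592000*c4*c6^6 + 2026391040*c4^4*c6^4 - 2182917600*c4^7*c6^2 + 779118750*c4^10)*u^2*v^18
    + (655360000*c6^7 - 2005401600*c4^3*c6^5 + 2044414080*c4^6*c6^3 - 694372500*c4^9*c6)*u*v^19
    + (-180224000*c4^2*c6^6 + 544997376*c4^5*c6^4 - 549301500*c4^8*c6^2 + 184528125*c4^11)*v^20

/-- `c₆` of the 5-congruent family. -/
def famT (c4 c6 u v : R) : R :=
    (c6)*u^30
    + (-30*c4^2)*u^29*v
    + (435*c4*c6)*u^28*v^2
    + (-2900*c6^2 - 1160*c4^3)*u^27*v^3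
    + (27405*c4^2*c6)*u^26*v^4
    + (-46980*c4*c6^2 - 95526*c4^4)*u^25*v^5
    + (156600*c6^3 + 437175*c4^3*c6)*u^24*v^6
    + (-3915000*c4^2*c6^2 + 1879200*c4^5)*u^23*v^7
    + (14407200*c4*c6^3 - 8554275*c4^4*c6)*u^22*v^8
    + (-32016000*c6^4 + 42021000*c4^3*c6^2 - 24312150*c4^6)*u^21*v^9
    + (-216588240*c4^2*c6^3 + 246633255*c4^5*c6)*u^20*v^10
    + (1459929600*c4*c6^4 - 1352475900*c4^4*c6^2 - 162081000*c4^7)*u^19*v^11
    + (-2433216000*c6^5 - 1612005600*c4^3*c6^3 + 4131714825*c4^6*c6)*u^18*v^12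
    + (12044419200*c4^2*c6^4 - 5235216300*c4^5*c6^2 - 6928962750*c4^8)*u^17*v^13
    + (-43045111800*c4^4*c6^3 + 43190534475*c4^7*c6)*u^16*v^14
    + (79420170240*c4^3*c6^4 - 79575287760*c4^6*c6^2)*u^15*v^15
    + (-297825638400*c4^2*c6^5 + 474659611200*c4^5*c6^3 - 176688550125*c4^8*c6)*u^14*v^16
    + (700766208000*c4*c6^6 - 935084908800*c4^4*c6^4 - 77604382800*c4^7*c6^2 + 311803323750*c4^10)*u^13*v^17
    + (-778629120000*c6^7 - 303665356800*c4^3*c6^5 + 2776512362400*c4^6*c6^3 - 1694131392375*c4^9*c6)*u^12*v^18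
    + (4290656256000*c4^2*c6^6 - 8100765158400*c4^5*c6^4 + 3481840250100*c4^8*c6^2 + 328214025000*c4^11)*u^11*v^19
    + (-3442360320000*c4*c6^7 + 3892110842880*c4^4*c6^5 + 2424887357760*c4^7*c6^3 - 2874607835625*c4^10*c6)*u^10*v^20
    + (3278438400000*c6^8 - 5125838438400*c4^3*c6^6 + 2709129888000*c4^6*c6^4 - 3077188825500*c4^9*c6^2 + 2215444668750*c4^12)*u^9*v^21
    + (-4573421568000*c4^2*c6^7 + 7701051801600*c4^5*c6^5 - 1724509423800*c4^8*c6^3 - 1403114956875*c4^11*c6)*u^8*v^22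
    + (-6157762560000*c4*c6^8 + 30337884979200*c4^4*c6^6 - 49888700928000*c4^7*c6^4 + 33414470973000*c4^10*c6^2 - 7705894500000*c4^13)*u^7*v^23
    + (5131468800000*c6^9 - 22779445248000*c4^3*c6^7 + 35246094796800*c4^6*c6^5 - 22687218914400*c4^9*c6^3 + 5089101159375*c4^12*c6)*u^6*v^24
    + (18216714240000*c4^2*c6^8 - 71274600677376*c4^5*c6^6 + 105528606261120*c4^8*c6^4 - 70097953635000*c4^11*c6^2 + 17627233668750*c4^14)*u^5*v^25
    + (-41051750400000*c4*c6^9 + 163803539865600*c4^4*c6^7 - 245438120632320*c4^7*c6^5 + 163672057566000*c4^10*c6^3 - 40985726371875*c4^13*c6)*u^4*v^26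
    + (30408704000000*c6^10 - 111934439424000*c4^3*c6^8 + 143803576074240*c4^6*c6^6 - 63806176396800*c4^9*c6^4 - 8104032382500*c4^12*c6^2 + 9632368125000*c4^15)*u^3*v^27
    + (-21438136320000*c4^2*c6^9 + 85731449241600*c4^5*c6^7 - 128580522647040*c4^8*c6^5 + 85719228804000*c4^11*c6^3 - 21432019078125*c4^14*c6)*u^2*v^28
    + (-5033164800000*c4*c6^10 + 31344427008000*c4^4*c6^8 - 75042714746880*c4^7*c6^6 + 87394892457600*c4^10*c6^4 - 49873523512500*c4^13*c6^2 + 11210083593750*c4^16)*u*v^29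
    + (3355443200000*c6^11 - 17532190720000*c4^3*c6^9 + 36574189977600*c4^6*c6^7 - 38083944628224*c4^9*c6^5 + 19796866155000*c4^12*c6^3 - 4110363984375*c4^15*c6)*v^30

/-- The discriminant of the family is `Δ * famD ^ 5`. -/
def famD (c4 c6 u v : R) : R :=
    (1)*u^12
    + (-66*c4)*u^10*v^2
    + (440*c6)*u^9*v^3
    + (-1485*c4^2)*u^8*v^4
    + (3168*c4*c6)*u^7*v^5
    + (-10560*c6^2 + 5940*c4^3)*u^6*v^6
    + (4752*c4^2*c6)*u^5*v^7
    + (63360*c4*c6^2 - 66825*c4^4)*u^4*v^8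
    + (-140800*c6^3 + 142560*c4^3*c6)*u^3*v^9
    + (133056*c4^2*c6^2 - 133650*c4^5)*u^2*v^10
    + (-61440*c4*c6^3 + 61560*c4^4*c6)*u*v^11
    + (102400*c6^4 - 193536*c4^3*c6^2 + 91125*c4^6)*v^12

/-- The short Weierstrass curve `y² = x³ - (c₄/48) x - c₆/864` with invariants `c₄`, `c₆`
(over a field of characteristic `≠ 2, 3`). -/
def shortW {F : Type*} [Field F] (c4 c6 : F) : WeierstrassCurve F :=
  ⟨0, 0, 0, -c4 / 48, -c6 / 864⟩

/-- `W` is (propositionally) the short Weierstrass curve with invariants `c₄`, `c₆`. -/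
structure IsShortOf {F : Type*} [Field F] (W : WeierstrassCurve F) (c4 c6 : F) : Prop where
  a₁ : W.a₁ = 0
  a₂ : W.a₂ = 0
  a₃ : W.a₃ = 0
  a₄ : W.a₄ = -c4 / 48
  a₆ : W.a₆ = -c6 / 864

/-- `x`-coordinate (on `shortW (c4T a b) (c6T a b)`) of the point `(0,0)` of the Tate normal form. -/
def tptX {F : Type*} [Field F] (a b : F) : F := (a^2 + 6*a*b + b^2) / 12

/-- `y`-coordinate (on `shortW (c4T a b) (c6T a b)`) of the point `(0,0)` of the Tate normal form. -/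
def tptY {F : Type*} [Field F] (a b : F) : F := a^2*b / 2

/-- The `p`-power Frobenius on the `K`-points of a Weierstrass curve over `𝔽_p`. -/
noncomputable def frobPt (p : ℕ) [Fact p.Prime] (W : WeierstrassCurve (ZMod p)) (K : Type*) [Field K]
    [Algebra (ZMod p) K] [DecidableEq K] :
    (W.baseChange K).toAffine.Point →+ (W.baseChange K).toAffine.Point :=
  WeierstrassCurve.Affine.Point.map (W' := W.toAffine) (FiniteField.frobeniusAlgHom (ZMod p) K)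

/-- The quartic whose roots are `12 x + b₂`, `x` the `x`-coordinate of a point of order 3. -/
def quartic3 (c4 c6 s : R) : R := s^4 - 6*c4*s^2 - 8*c6*s - 3*c4^2

end Fermat.Agent.S52
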