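import Fermat.Agent.S52.Defs

/-!
# S52, task E1a: truncated Hensel lifting for the 3-division quartic, and its four simple roots
-/

set_option autoImplicit false
open Polynomial

namespace Fermat.Agent.S52

namespace E1a

theorem eval_quartic3 (h t g : ℂ[X]) (z : ℂ) :
    (quartic3 h t g).eval z = quartic3 (h.eval z) (t.eval z) (g.eval z) := by
  simp [quartic3]

theorem quartic3_add {R : Type*} [CommRing R] (h t g d : R) :
    quartic3 h t (g + d) = quartic3 h t g + d * (4 * g ^ 3 - 12 * h * g - 8 * t)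
      + d ^ 2 * (6 * g ^ 2 - 6 * h + 4 * g * d + d ^ 2) := by
  unfold quartic3; ring

/-- the quartic as a polynomial in `Y`. -/
noncomputable def qpoly (h t : ℂ) : ℂ[X] := X ^ 4 - C (6 * h) * X ^ 2 - C (8 * t) * X - C (3 * h ^ 2)

theorem eval_qpoly (h t y : ℂ) : (qpoly h t).eval y = quartic3 h t y := by
  simp only [qpoly, quartic3, eval_sub, eval_mul, eval_pow, eval_X, eval_C]

theorem monic_qpoly (h t : ℂ) : (qpoly h t).Monic := by
  unfold qpoly
  monicity!

theorem natDegree_qpoly (h t : ℂ) : (qpoly h t).natDegree = 4 := by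
  unfold qpoly
  compute_degree!

theorem eval_derivative_qpoly (h t y : ℂ) :
    (derivative (qpoly h t)).eval y = 4 * y ^ 3 - 12 * h * y - 8 * t := by
  simp only [qpoly, derivative_sub, derivative_mul, derivative_C, derivative_X_pow, derivative_X,
    eval_sub, eval_mul, eval_pow, eval_X, eval_C, eval_add, eval_zero, eval_one]
  norm_num
  ring

/-- a root of the quartic is simple. -/
theorem simple_root (h t c : ℂ) (hht : h ^ 3 ≠ t ^ 2) (hQ : quartic3 h t c = 0) :
    4 * c ^ 3 - 12 * h * c - 8 * t ≠ 0 := by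
  intro hD
  unfold quartic3 at hQ
  have key : 2 * (t ^ 2 - h ^ 3) * c = 0 := by
    linear_combination (-(t - h * c / 2) / 3) * hQ + ((t - h * c / 2) * c / 12 + h ^ 2 / 8) * hD
  have hne : 2 * (t ^ 2 - h ^ 3) ≠ 0 :=
    mul_ne_zero two_ne_zero (sub_ne_zero.mpr (Ne.symm hht))
  have hc : c = 0 := by
    rcases mul_eq_zero.mp key with h1 | h1
    · exact absurd h1 hne
    · exact h1
  subst hc
  have ht : t = 0 := by
    have : 8 * t = 0 := by linear_combination -hD
    simpa using this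
  have hh : h = 0 := by
    have : 3 * h ^ 2 = 0 := by linear_combination -hQ
    simpa using this
  apply hht
  rw [ht, hh]; norm_num

theorem separable_qpoly (h t : ℂ) (hht : h ^ 3 ≠ t ^ 2) : (qpoly h t).Separable := by
  rw [separable_def, isCoprime_iff_aeval_ne_zero_of_isAlgClosed ℂ ℂ]
  intro a
  by_cases ha : aeval a (qpoly h t) = 0
  · right
    rw [coe_aeval_eq_eval] at ha ⊢
    rw [eval_derivative_qpoly]
    rw [eval_qpoly] at ha
    exact simple_root h t a hht ha
  · exact Or.inl ha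

end E1a

open E1a in
theorem hensel_trunc (h t : ℂ[X]) (c : ℂ) (hc : quartic3 (h.eval 0) (t.eval 0) c = 0)
    (hc' : 4 * c ^ 3 - 12 * h.eval 0 * c - 8 * t.eval 0 ≠ 0) (N : ℕ) :
    ∃ g : ℂ[X], g.eval 0 = c ∧ g.natDegree ≤ N ∧ X ^ (N + 1) ∣ quartic3 h t g := by
  induction N with
  | zero =>
    refine ⟨C c, eval_C, by simp, ?_⟩
    rw [zero_add, pow_one, X_dvd_iff, coeff_zero_eq_eval_zero, eval_quartic3, eval_C, hc]
  | succ N ih =>
    obtain ⟨g, hg0, hgdeg, w, hw⟩ := ih
    set e : ℂ := -(w.eval 0) / (4 * c ^ 3 - 12 * h.eval 0 * c - 8 * t.eval 0) with he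
    refine ⟨g + C e * X ^ (N + 1), by simp [hg0], ?_, ?_⟩
    · refine le_trans (natDegree_add_le _ _) (max_le (by omega) ?_)
      exact natDegree_C_mul_X_pow_le _ _
    · rw [quartic3_add, hw]
      have h1 : X ∣ w + C e * (4 * g ^ 3 - 12 * h * g - 8 * t) := by
        rw [X_dvd_iff, coeff_zero_eq_eval_zero]
        simp only [eval_add, eval_mul, eval_C, eval_sub, eval_pow, hg0, eval_ofNat]
        rw [he, div_mul_cancel₀ _ hc']
        ring
      obtain ⟨v, hv⟩ := h1
      refine ⟨v + X ^ N * C e ^ 2 * (6 * g ^ 2 - 6 * h + 4 * g * (C e * X ^ (N + 1))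
        + (C e * X ^ (N + 1)) ^ 2), ?_⟩
      have : X ^ (N + 1) * w + C e * X ^ (N + 1) * (4 * g ^ 3 - 12 * h * g - 8 * t)
          = X ^ (N + 1) * (X * v) := by rw [← hv]; ring
      rw [this]
      ring

open E1a in
theorem quartic3_roots (h t : ℂ) (hht : h ^ 3 ≠ t ^ 2) :
    ∃ c : Fin 4 → ℂ, Function.Injective c ∧
      ∀ i, quartic3 h t (c i) = 0 ∧ 4 * c i ^ 3 - 12 * h * c i - 8 * t ≠ 0 := by
  have hcard : (qpoly h t).roots.toFinset.card = 4 := by
    rw [Multiset.toFinset_card_of_nodup (nodup_roots (separable_qpoly h t hht)),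
      IsAlgClosed.card_roots_eq_natDegree, natDegree_qpoly]
  let e := (Finset.equivFinOfCardEq hcard).symm
  refine ⟨fun i => (e i : ℂ), Subtype.val_injective.comp e.injective, fun i => ?_⟩
  have hmem := (e i).2
  rw [Multiset.mem_toFinset, mem_roots (monic_qpoly h t).ne_zero, IsRoot.def, eval_qpoly] at hmem
  exact ⟨hmem, simple_root h t _ hht hmem⟩

end Fermat.Agent.S52
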