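import Fermat.Agent.S52.HenselTrunc

/-!
# S52, task E1b: integer roots of the 3-division quartic lie near four polynomial branches
-/

set_option autoImplicit false
open Polynomial

namespace Fermat.Agent.S52

namespace E1b

/-- the quartic as a polynomial in `Y`. -/
noncomputable def qpoly (h t : ℂ) : ℂ[X] := X ^ 4 - C (6 * h) * X ^ 2 - C (8 * t) * X - C (3 * h ^ 2)

theorem eval_qpoly (h t y : ℂ) : (qpoly h t).eval y = quartic3 h t y := by
  simp only [qpoly, quartic3, eval_sub, eval_mul, eval_pow, eval_X, eval_C]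

theorem monic_qpoly (h t : ℂ) : (qpoly h t).Monic := by
  unfold qpoly
  monicity!

theorem natDegree_qpoly (h t : ℂ) : (qpoly h t).natDegree = 4 := by
  unfold qpoly
  compute_degree!

/-- the product over the four nodes. -/
noncomputable def npoly (γ : Fin 4 → ℂ) : ℂ[X] := ∏ i, (X - C (γ i))

theorem monic_npoly (γ : Fin 4 → ℂ) : (npoly γ).Monic :=
  monic_prod_of_monic _ _ fun i _ => monic_X_sub_C (γ i)

theorem natDegree_npoly (γ : Fin 4 → ℂ) : (npoly γ).natDegree = 4 := by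
  unfold npoly
  rw [natDegree_prod_of_monic _ _ fun i _ => monic_X_sub_C (γ i)]
  simp

theorem eval_npoly (γ : Fin 4 → ℂ) (y : ℂ) : (npoly γ).eval y = ∏ i, (y - γ i) := by
  simp [npoly, eval_prod]

theorem eval_npoly_node (γ : Fin 4 → ℂ) (i : Fin 4) : (npoly γ).eval (γ i) = 0 := by
  rw [eval_npoly]
  exact Finset.prod_eq_zero (Finset.mem_univ i) (sub_self _)

theorem degree_sub_lt_four (h t : ℂ) (γ : Fin 4 → ℂ) :
    (qpoly h t - npoly γ).degree < 4 := by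
  have h1 : (qpoly h t).degree = (npoly γ).degree := by
    rw [degree_eq_natDegree (monic_qpoly h t).ne_zero, degree_eq_natDegree (monic_npoly γ).ne_zero,
      natDegree_qpoly, natDegree_npoly]
  have h2 := degree_sub_lt_left h1 (monic_qpoly h t).ne_zero
    (by rw [(monic_qpoly h t).leadingCoeff, (monic_npoly γ).leadingCoeff])
  rw [degree_eq_natDegree (monic_qpoly h t).ne_zero, natDegree_qpoly] at h2
  exact h2

/-- Lagrange bound for the product of the distances to the nodes. -/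
theorem prod_le (h t y : ℂ) (γ : Fin 4 → ℂ) (δ R ε : ℝ) (hδ : 0 < δ)
    (hsep : ∀ i k, i ≠ k → δ ≤ ‖γ i - γ k‖) (hy : quartic3 h t y = 0)
    (hR : ∀ k, ‖y - γ k‖ ≤ R) (hε : ∀ i, ‖quartic3 h t (γ i)‖ ≤ ε) :
    ∏ i, ‖y - γ i‖ ≤ 4 * (ε * (δ⁻¹ * R) ^ 3) := by
  have hinj : Set.InjOn γ (Finset.univ : Finset (Fin 4)) := by
    intro i _ k _ hik
    by_contra hne
    have := hsep i k hne
    rw [hik, sub_self, norm_zero] at this
    linarith
  have hE := Lagrange.eq_interpolate (f := qpoly h t - npoly γ) hinj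
    (by simpa using degree_sub_lt_four h t γ)
  have hEy : (qpoly h t - npoly γ).eval y = - ∏ i, (y - γ i) := by
    rw [eval_sub, eval_qpoly, hy, eval_npoly, zero_sub]
  have hR0 : 0 ≤ R := le_trans (norm_nonneg _) (hR 0)
  have hε0 : 0 ≤ ε := le_trans (norm_nonneg _) (hε 0)
  rw [← norm_prod, ← norm_neg, ← hEy, hE, Lagrange.interpolate_apply, eval_finsetSum]
  refine le_trans (norm_sum_le _ _) ?_
  have : ∀ i ∈ (Finset.univ : Finset (Fin 4)),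
      ‖eval y (C (eval (γ i) (qpoly h t - npoly γ)) * Lagrange.basis Finset.univ γ i)‖
        ≤ ε * (δ⁻¹ * R) ^ 3 := by
    intro i _
    rw [eval_mul, eval_C, eval_sub, eval_qpoly, eval_npoly_node, sub_zero, norm_mul]
    refine mul_le_mul (hε i) ?_ (norm_nonneg _) hε0
    rw [Lagrange.basis, eval_prod, norm_prod]
    have hcard : (Finset.univ.erase i : Finset (Fin 4)).card = 3 := by
      rw [Finset.card_erase_of_mem (Finset.mem_univ i)]; simp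
    rw [← hcard, ← Finset.prod_const]
    refine Finset.prod_le_prod (fun k _ => norm_nonneg _) ?_
    intro k hk
    have hki : k ≠ i := Finset.ne_of_mem_erase hk
    rw [Lagrange.basisDivisor, eval_mul, eval_C, eval_sub, eval_X, eval_C, norm_mul, norm_inv]
    refine mul_le_mul ?_ (hR k) (norm_nonneg _) (inv_nonneg.mpr hδ.le)
    exact inv_anti₀ hδ (hsep i k hki.symm)
  refine le_trans (Finset.sum_le_card_nsmul _ _ _ this) ?_
  simp

/-- A root of the quartic is very close to one of four separated approximate roots. -/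
theorem near_node (h t y : ℂ) (γ : Fin 4 → ℂ) (δ R ε : ℝ) (hδ : 0 < δ)
    (hsep : ∀ i k, i ≠ k → δ ≤ ‖γ i - γ k‖) (hy : quartic3 h t y = 0)
    (hR : ∀ k, ‖y - γ k‖ ≤ R) (hε : ∀ i, ‖quartic3 h t (γ i)‖ ≤ ε) :
    ∃ i, ‖y - γ i‖ ≤ (2 / δ) ^ 3 * (4 * (ε * (δ⁻¹ * R) ^ 3)) := by
  obtain ⟨i, hi⟩ := Finite.exists_min (fun i : Fin 4 => ‖y - γ i‖)
  refine ⟨i, ?_⟩
  have hprod := prod_le h t y γ δ R ε hδ hsep hy hR hε
  have hfar : ∀ k, k ≠ i → δ / 2 ≤ ‖y - γ k‖ := by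
    intro k hk
    have h1 := hsep i k hk.symm
    have h2 : ‖γ i - γ k‖ ≤ ‖y - γ i‖ + ‖y - γ k‖ := by
      have : γ i - γ k = (y - γ k) - (y - γ i) := by ring
      rw [this]
      linarith [norm_sub_le (y - γ k) (y - γ i)]
    linarith [hi k]
  have hcard : (Finset.univ.erase i : Finset (Fin 4)).card = 3 := by
    rw [Finset.card_erase_of_mem (Finset.mem_univ i)]; simp
  have hlow : (δ / 2) ^ 3 ≤ ∏ k ∈ Finset.univ.erase i, ‖y - γ k‖ := by
    rw [← hcard, ← Finset.prod_const]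
    refine Finset.prod_le_prod (fun k _ => by positivity) ?_
    intro k hk
    exact hfar k (Finset.ne_of_mem_erase hk)
  rw [← Finset.mul_prod_erase Finset.univ _ (Finset.mem_univ i)] at hprod
  have h3 : ‖y - γ i‖ * (δ / 2) ^ 3 ≤ 4 * (ε * (δ⁻¹ * R) ^ 3) :=
    le_trans (mul_le_mul_of_nonneg_left hlow (norm_nonneg _)) hprod
  have h4 : (2 / δ) ^ 3 * (δ / 2) ^ 3 = 1 := by
    rw [← mul_pow]; field_simp
  calc ‖y - γ i‖ = (2 / δ) ^ 3 * (‖y - γ i‖ * (δ / 2) ^ 3) := by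
        rw [mul_left_comm, h4, mul_one]
    _ ≤ (2 / δ) ^ 3 * (4 * (ε * (δ⁻¹ * R) ^ 3)) :=
        mul_le_mul_of_nonneg_left h3 (by positivity)

/-- crude root bound. -/
theorem root_bound (h t y : ℂ) (M : ℝ) (hh : ‖h‖ ≤ M) (ht : ‖t‖ ≤ M)
    (hy : quartic3 h t y = 0) : ‖y‖ ≤ 1 + 14 * M + 3 * M ^ 2 := by
  have hM : 0 ≤ M := le_trans (norm_nonneg _) hh
  by_contra hcon
  rw [not_le] at hcon
  have hy1 : 1 ≤ ‖y‖ := by nlinarith
  have heq : y ^ 4 = 6 * h * y ^ 2 + 8 * t * y + 3 * h ^ 2 := by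
    unfold quartic3 at hy
    linear_combination hy
  have hn : ‖y‖ ^ 4 ≤ 6 * M * ‖y‖ ^ 2 + 8 * M * ‖y‖ + 3 * M ^ 2 := by
    rw [← norm_pow, heq]
    refine le_trans (norm_add₃_le) ?_
    simp only [norm_mul, norm_pow]
    have e6 : ‖(6 : ℂ)‖ = 6 := by simp
    have e8 : ‖(8 : ℂ)‖ = 8 := by simp
    have e3 : ‖(3 : ℂ)‖ = 3 := by simp
    rw [e6, e8, e3]
    have a1 : ‖h‖ * ‖y‖ ^ 2 ≤ M * ‖y‖ ^ 2 := mul_le_mul_of_nonneg_right hh (by positivity)
    have a2 : ‖t‖ * ‖y‖ ≤ M * ‖y‖ := mul_le_mul_of_nonneg_right ht (by positivity)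
    have a3 : ‖h‖ ^ 2 ≤ M ^ 2 := pow_le_pow_left₀ (norm_nonneg _) hh 2
    nlinarith
  have hy2 : ‖y‖ ^ 2 ≤ ‖y‖ ^ 3 := pow_le_pow_right₀ hy1 (by norm_num)
  have hy3 : ‖y‖ ≤ ‖y‖ ^ 3 := by
    calc ‖y‖ = ‖y‖ ^ 1 := (pow_one _).symm
      _ ≤ ‖y‖ ^ 3 := pow_le_pow_right₀ hy1 (by norm_num)
  have hy4 : 1 ≤ ‖y‖ ^ 3 := one_le_pow₀ hy1
  have hn2 : ‖y‖ ^ 4 ≤ (14 * M + 3 * M ^ 2) * ‖y‖ ^ 3 := by
    have b1 : 6 * M * ‖y‖ ^ 2 ≤ 6 * M * ‖y‖ ^ 3 := mul_le_mul_of_nonneg_left hy2 (by positivity)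
    have b2 : 8 * M * ‖y‖ ≤ 8 * M * ‖y‖ ^ 3 := mul_le_mul_of_nonneg_left hy3 (by positivity)
    have b3 : 3 * M ^ 2 * 1 ≤ 3 * M ^ 2 * ‖y‖ ^ 3 := mul_le_mul_of_nonneg_left hy4 (by positivity)
    nlinarith
  have hpos : 0 < ‖y‖ ^ 3 := by positivity
  have : ‖y‖ * ‖y‖ ^ 3 ≤ (14 * M + 3 * M ^ 2) * ‖y‖ ^ 3 := by
    calc ‖y‖ * ‖y‖ ^ 3 = ‖y‖ ^ 4 := by ring
      _ ≤ _ := hn2
  have := le_of_mul_le_mul_right this hpos
  linarith

/-- a polynomial is bounded on the unit disc. -/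
theorem exists_bound (p : ℂ[X]) : ∃ M : ℝ, ∀ z : ℂ, ‖z‖ ≤ 1 → ‖p.eval z‖ ≤ M := by
  obtain ⟨M, hM⟩ := (isCompact_closedBall (0 : ℂ) 1).exists_bound_of_continuousOn
    p.continuous.continuousOn
  exact ⟨M, fun z hz => hM z (by simpa using hz)⟩

/-- finitely many polynomials are bounded on the unit disc. -/
theorem exists_bound_fin {ι : Type*} [Finite ι] (p : ι → ℂ[X]) :
    ∃ M : ℝ, ∀ i, ∀ z : ℂ, ‖z‖ ≤ 1 → ‖(p i).eval z‖ ≤ M := by
  choose M hM using fun i => exists_bound (p i)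
  obtain ⟨B, hB⟩ := (Set.finite_range M).bddAbove
  exact ⟨B, fun i z hz => le_trans (hM i z hz) (hB ⟨i, rfl⟩)⟩

/-- separation of the branches near `0`. -/
theorem exists_sep (g : Fin 4 → ℂ[X]) (hinj : Function.Injective fun i => (g i).eval 0) :
    ∃ δ : ℝ, 0 < δ ∧ ∃ r : ℝ, 0 < r ∧ ∀ z : ℂ, ‖z‖ < r → ∀ i k, i ≠ k →
      δ ≤ ‖(g i).eval z - (g k).eval z‖ := by
  -- a uniform lower bound at `0`
  have : Nonempty {q : Fin 4 × Fin 4 // q.1 ≠ q.2} := ⟨⟨(0, 1), by decide⟩⟩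
  obtain ⟨q₀, hmin⟩ := Finite.exists_min
    (fun q : {q : Fin 4 × Fin 4 // q.1 ≠ q.2} => ‖(g q.1.1).eval 0 - (g q.1.2).eval 0‖)
  set δ₀ : ℝ := ‖(g q₀.1.1).eval 0 - (g q₀.1.2).eval 0‖ with hδ₀
  have hδ₀pos : 0 < δ₀ := by
    rw [hδ₀, norm_pos_iff, sub_ne_zero]
    exact fun h => q₀.2 (hinj h)
  have hev : ∀ᶠ z in nhds (0 : ℂ), ∀ i k, i ≠ k →
      δ₀ / 2 ≤ ‖(g i).eval z - (g k).eval z‖ := by
    rw [Filter.eventually_all]
    intro i
    rw [Filter.eventually_all]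
    intro k
    by_cases hik : i = k
    · exact Filter.Eventually.of_forall fun z h => absurd hik h
    · have hcont : Continuous fun z : ℂ => ‖(g i).eval z - (g k).eval z‖ :=
        ((g i).continuous.sub (g k).continuous).norm
      have hlt : δ₀ / 2 < ‖(g i).eval 0 - (g k).eval 0‖ := by
        have := hmin ⟨(i, k), hik⟩
        simp only at this
        linarith
      filter_upwards [hcont.continuousAt.eventually (lt_mem_nhds hlt)] with z hz _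
      exact hz.le
  obtain ⟨r, hr, hball⟩ := Metric.eventually_nhds_iff.mp hev
  exact ⟨δ₀ / 2, by positivity, r, hr, fun z hz => hball (by simpa using hz)⟩

theorem quartic3_scale (z A B s : ℂ) :
    quartic3 (z ^ 20 * A) (z ^ 30 * B) (s * z ^ 10) = z ^ 40 * quartic3 A B s := by
  unfold quartic3; ring

theorem eval_quartic3 (h t g : ℂ[X]) (z : ℂ) :
    (quartic3 h t g).eval z = quartic3 (h.eval z) (t.eval z) (g.eval z) := by
  simp [quartic3]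

theorem eval_reflect (g : ℂ[X]) (hg : g.natDegree ≤ 10) (z : ℂ) (hz : z ≠ 0) :
    (reflect 10 g).eval z⁻¹ * z ^ 10 = g.eval z := by
  let _ := invertibleOfNonzero hz
  have := eval₂_reflect_mul_pow (RingHom.id ℂ) z 10 g hg
  rwa [invOf_eq_inv] at this

theorem aeval_eq_eval_map (P : ℤ[X]) (z : ℂ) :
    aeval z P = (P.map (Int.castRingHom ℂ)).eval z := by
  rw [← algebraMap_int_eq, eval_map_algebraMap]

theorem cast_eval (P : ℤ[X]) (j : ℕ) :
    ((P.eval (j : ℤ) : ℤ) : ℂ) = aeval (j : ℂ) P := by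
  rw [aeval_eq_eval_map]
  simp

end E1b

open E1b in
theorem exists_branches (H T Hr Tr : ℤ[X])
    (hH : ∀ z : ℂ, z ≠ 0 → aeval z H = z ^ 20 * aeval z⁻¹ Hr)
    (hT : ∀ z : ℂ, z ≠ 0 → aeval z T = z ^ 30 * aeval z⁻¹ Tr)
    (hlead : Hr.eval 0 ^ 3 ≠ Tr.eval 0 ^ 2) :
    ∃ (Pb : Fin 4 → ℂ[X]) (B : ℝ) (J : ℕ), (∀ i, (Pb i).natDegree ≤ 10) ∧
      ∀ j : ℕ, J ≤ j → ∀ s : ℤ, quartic3 (H.eval (j : ℤ)) (T.eval (j : ℤ)) s = 0 →
        ∃ i, ‖(s : ℂ) - (Pb i).eval (j : ℂ)‖ ≤ B / j := by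
  set h : ℂ[X] := Hr.map (Int.castRingHom ℂ) with hh
  set t : ℂ[X] := Tr.map (Int.castRingHom ℂ) with ht
  have h0 : h.eval 0 = ((Hr.eval 0 : ℤ) : ℂ) := by
    simp [hh]
  have t0 : t.eval 0 = ((Tr.eval 0 : ℤ) : ℂ) := by
    simp [ht]
  have hht : h.eval 0 ^ 3 ≠ t.eval 0 ^ 2 := by
    rw [h0, t0]; exact_mod_cast hlead
  obtain ⟨c, hcinj, hc⟩ := quartic3_roots (h.eval 0) (t.eval 0) hht
  choose g hg0 hgdeg hgdvd using fun i => hensel_trunc h t (c i) (hc i).1 (hc i).2 10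
  choose w hw using hgdvd
  obtain ⟨δ, hδ, r, hr, hsep⟩ := exists_sep g (by simpa only [hg0] using hcinj)
  obtain ⟨M1, hM1⟩ := exists_bound_fin g
  obtain ⟨M2, hM2⟩ := exists_bound_fin w
  obtain ⟨M3, hM3⟩ := exists_bound h
  obtain ⟨M4, hM4⟩ := exists_bound t
  set M : ℝ := max (max M1 M2) (max M3 M4) with hM
  have hM1' : M1 ≤ M := le_trans (le_max_left _ _) (le_max_left _ _)
  have hM2' : M2 ≤ M := le_trans (le_max_right _ _) (le_max_left _ _)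
  have hM3' : M3 ≤ M := le_trans (le_max_left _ _) (le_max_right _ _)
  have hM4' : M4 ≤ M := le_trans (le_max_right _ _) (le_max_right _ _)
  have hM0 : 0 ≤ M := le_trans (le_trans (norm_nonneg _) (hM3 0 (by simp))) hM3'
  set Rr : ℝ := (1 + 14 * M + 3 * M ^ 2) + M with hRr
  set B : ℝ := (2 / δ) ^ 3 * (4 * (M * (δ⁻¹ * Rr) ^ 3)) with hB
  obtain ⟨J, hJ⟩ := exists_nat_gt (max 1 r⁻¹)
  refine ⟨fun i => reflect 10 (g i), B, J, ?_, ?_⟩
  · intro i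
    exact le_trans natDegree_reflect_le (max_le le_rfl (hgdeg i))
  intro j hj s hs
  have hjJ : (J : ℝ) ≤ j := by exact_mod_cast hj
  have hj1 : (1 : ℝ) < j := lt_of_lt_of_le (lt_of_le_of_lt (le_max_left _ _) hJ) hjJ
  have hjr : r⁻¹ < j := lt_of_lt_of_le (lt_of_le_of_lt (le_max_right _ _) hJ) hjJ
  have hjpos : (0 : ℝ) < j := by linarith
  have hjne : (j : ℂ) ≠ 0 := by
    have : (j : ℝ) ≠ 0 := hjpos.ne'
    exact_mod_cast this
  set z : ℂ := (j : ℂ)⁻¹ with hz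
  have hzne : z ≠ 0 := inv_ne_zero hjne
  have hzinv : z⁻¹ = j := inv_inv _
  have hznorm : ‖z‖ = (j : ℝ)⁻¹ := by
    rw [hz, norm_inv]; simp
  have hz1 : ‖z‖ ≤ 1 := by
    rw [hznorm]; exact inv_le_one_of_one_le₀ hj1.le
  have hzr : ‖z‖ < r := by
    rw [hznorm]; exact inv_lt_of_inv_lt₀ hr hjr
  set y : ℂ := s * z ^ 10 with hy
  have hzj : z * j = 1 := inv_mul_cancel₀ hjne
  have hHz : h.eval z = z ^ 20 * ((H.eval (j : ℤ) : ℤ) : ℂ) := by
    rw [cast_eval, hH _ hjne, ← hz, aeval_eq_eval_map, ← mul_assoc, ← mul_pow, hzj, one_pow, one_mul]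
  have hTz : t.eval z = z ^ 30 * ((T.eval (j : ℤ) : ℤ) : ℂ) := by
    rw [cast_eval, hT _ hjne, ← hz, aeval_eq_eval_map, ← mul_assoc, ← mul_pow, hzj, one_pow, one_mul]
  have hyroot : quartic3 (h.eval z) (t.eval z) y = 0 := by
    rw [hHz, hTz, hy, quartic3_scale]
    have : quartic3 ((H.eval (j : ℤ) : ℤ) : ℂ) ((T.eval (j : ℤ) : ℤ) : ℂ) (s : ℂ)
        = ((quartic3 (H.eval (j : ℤ)) (T.eval (j : ℤ)) s : ℤ) : ℂ) := by
      simp [quartic3]
    rw [this, hs]; simp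
  have hybound : ‖y‖ ≤ 1 + 14 * M + 3 * M ^ 2 :=
    root_bound _ _ _ M (le_trans (hM3 z hz1) hM3') (le_trans (hM4 z hz1) hM4') hyroot
  have hRk : ∀ k, ‖y - (g k).eval z‖ ≤ Rr := by
    intro k
    refine le_trans (norm_sub_le _ _) ?_
    have := le_trans (hM1 k z hz1) hM1'
    rw [hRr]; linarith
  have hεi : ∀ i, ‖quartic3 (h.eval z) (t.eval z) ((g i).eval z)‖ ≤ M * ‖z‖ ^ 11 := by
    intro i
    rw [← eval_quartic3, hw i, eval_mul, eval_pow, eval_X, norm_mul, norm_pow, mul_comm]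
    exact mul_le_mul_of_nonneg_right (le_trans (hM2 i z hz1) hM2') (by positivity)
  obtain ⟨i, hi⟩ := near_node (h.eval z) (t.eval z) y (fun i => (g i).eval z) δ Rr (M * ‖z‖ ^ 11)
    hδ (hsep z hzr) hyroot hRk hεi
  refine ⟨i, ?_⟩
  have hkey : (s : ℂ) - (reflect 10 (g i)).eval (j : ℂ) = (j : ℂ) ^ 10 * (y - (g i).eval z) := by
    rw [← eval_reflect (g i) (hgdeg i) z hzne, hzinv, hy, ← sub_mul, mul_comm, mul_assoc,
      ← mul_pow, hzj, one_pow, mul_one]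
  simp only at hi ⊢
  rw [hkey, norm_mul, norm_pow]
  have hjn : ‖(j : ℂ)‖ = j := by simp
  rw [hjn]
  calc (j : ℝ) ^ 10 * ‖y - (g i).eval z‖
      ≤ (j : ℝ) ^ 10 * ((2 / δ) ^ 3 * (4 * (M * ‖z‖ ^ 11 * (δ⁻¹ * Rr) ^ 3))) :=
        mul_le_mul_of_nonneg_left hi (by positivity)
    _ = B / j := by
        rw [hznorm, hB]
        field_simp

end Fermat.Agent.S52
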