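import Fermat.Agent.S52.Defs

/-! # S52: `c₄` of the transformed Tate parameters (one big `ring`) -/

set_option autoImplicit false
set_option maxHeartbeats 4000000

namespace Fermat.Agent.S52

variable {R : Type*} [CommRing R]

theorem famH_tate (a b u v : R) :
    c4T (famA a b u v) (famB a b u v) = famH (c4T a b) (c6T a b) u v := by
  simp only [c4T, c6T, famA, famB, famH, famP, famQ, famX, famY]
  ring

end Fermat.Agent.S52
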