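import Fermat.Agent.S52.IdBasic
import Fermat.Agent.S52.IdH
import Fermat.Agent.S52.IdHT
import Fermat.Agent.S52.IdD

/-!
# S52: `c₆` of the transformed Tate parameters

A direct `ring` proof is too expensive; we prove the identity up to sign from the cheaper
identities and fix the sign in the polynomial ring `ℤ[a,b,u,v]`.
-/

set_option autoImplicit false

namespace Fermat.Agent.S52

variable {R : Type*} [CommRing R]

theorem dT_fam (a b u v : R) :
    dT (famA a b u v) (famB a b u v) = dT a b * famD (c4T a b) (c6T a b) u v ^ 5 := by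
  have h1 := fam_norm a b u v
  have h2 := famD_tate a b u v
  simp only [dT]
  rw [h1]
  calc famA a b u v ^ 5 * famB a b u v ^ 5 *
        ((a ^ 2 - 11 * a * b - b ^ 2) * (famX a b u v ^ 2 - 5 * famY a b v ^ 2) ^ 5)
      = (famA a b u v * famB a b u v * (famX a b u v ^ 2 - 5 * famY a b v ^ 2)) ^ 5
          * (a ^ 2 - 11 * a * b - b ^ 2) := by ring
    _ = _ := by rw [h2]; ring

theorem famT_tate_sq (a b u v : R) :
    c6T (famA a b u v) (famB a b u v) ^ 2 = famT (c4T a b) (c6T a b) u v ^ 2 := by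
  have h1 := c4T_cube_sub (famA a b u v) (famB a b u v)
  have h2 := famH_cube_sub (c4T a b) (c6T a b) u v
  have h3 := c4T_cube_sub a b
  rw [famH_tate, dT_fam] at h1
  rw [h3] at h2
  linear_combination h2 - h1

theorem famT_tate_univ :
    c6T (famA (MvPolynomial.X 0 : MvPolynomial (Fin 4) ℤ) (MvPolynomial.X 1) (MvPolynomial.X 2)
        (MvPolynomial.X 3)) (famB (MvPolynomial.X 0) (MvPolynomial.X 1) (MvPolynomial.X 2)
        (MvPolynomial.X 3))
      = famT (c4T (MvPolynomial.X 0) (MvPolynomial.X 1)) (c6T (MvPolynomial.X 0) (MvPolynomial.X 1))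
        (MvPolynomial.X 2) (MvPolynomial.X 3) := by
  rcases sq_eq_sq_iff_eq_or_eq_neg.mp
    (famT_tate_sq (MvPolynomial.X 0 : MvPolynomial (Fin 4) ℤ) (MvPolynomial.X 1)
      (MvPolynomial.X 2) (MvPolynomial.X 3)) with h | h
  · exact h
  · exfalso
    have h' := congrArg (MvPolynomial.eval₂Hom (RingHom.id ℤ) ![1, 0, 1, 0]) h
    rw [map_neg, map_c6T, map_famT, map_famA, map_famB, map_c4T, map_c6T] at h'
    simp only [MvPolynomial.eval₂Hom_X', Matrix.cons_val_zero, Matrix.cons_val_one,
      Matrix.cons_val, famA_one_zero, famB_one_zero, famT_one_zero] at h'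
    simp only [c6T] at h'
    norm_num at h'

theorem famT_tate (a b u v : R) :
    c6T (famA a b u v) (famB a b u v) = famT (c4T a b) (c6T a b) u v := by
  have h' := congrArg (MvPolynomial.eval₂Hom (Int.castRingHom R) ![a, b, u, v]) famT_tate_univ
  rw [map_c6T, map_famT, map_famA, map_famB, map_c4T, map_c6T] at h'
  simpa only [MvPolynomial.eval₂Hom_X', Matrix.cons_val_zero, Matrix.cons_val_one,
    Matrix.cons_val] using h'

theorem IsTate.fam {c4 c6 a b : R} (h : IsTate c4 c6 a b) (u v : R) :
    IsTate (famH c4 c6 u v) (famT c4 c6 u v) (famA a b u v) (famB a b u v) :=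
  ⟨by rw [famH_tate, h.h4, h.h6], by rw [famT_tate, h.h4, h.h6]⟩

end Fermat.Agent.S52
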