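import Fermat.Agent.S52.Defs2

/-! # S52, task SGN: the signed refinement of `DivPoly.addSub` -/

set_option autoImplicit false
open WeierstrassCurve WeierstrassCurve.Affine Polynomial
open Fermat.Agent.DivPoly (px pz)
open Fermat.Agent.S05 (xc yc)

namespace Fermat.Agent.S52

namespace SGN

open Fermat.Agent.S05

variable {K : Type*} [Field K] [DecidableEq K] {W : Affine K}

/-- `(x(P+Q) - x(P-Q)) (x₁-x₂)² = - Y₁ Y₂`. -/
lemma xc_add_sub_xc_sub {P Q : W.Point} (hP : P ≠ 0) (hQ : Q ≠ 0) (hx : xc P ≠ xc Q) :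
    (xc (P + Q) - xc (P - Q)) * (xc P - xc Q) ^ 2 = - (yc P * yc Q) := by
  rcases P with _ | ⟨x₁, y₁, h₁⟩
  · exact absurd rfl hP
  rcases Q with _ | ⟨x₂, y₂, h₂⟩
  · exact absurd rfl hQ
  simp only [xc_some] at hx
  rw [sub_eq_add_neg (Point.some x₁ y₁ h₁), Point.neg_some, Point.add_of_X_ne hx,
    Point.add_of_X_ne hx]
  simp only [xc_some, yc_some, addX, slope_of_X_ne hx, negY]
  have : x₁ - x₂ ≠ 0 := sub_ne_zero.mpr hx
  field_simp
  ring

end SGN

open Fermat.Agent.DivPoly (T0 T1 T2) in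
theorem signed_addSub {K : Type*} [Field K] [DecidableEq K] {W : Affine K} (hΔ : W.Δ ≠ 0)
    {P Q : W.Point} (hP : P ≠ 0) (hQ : Q ≠ 0) :
    2 * px (P - Q) * T2 (xc P * xc Q) (xc P + xc Q) 1
      = pz (P - Q) * (T1 W.b₂ W.b₄ W.b₆ (xc P * xc Q) (xc P + xc Q) 1 + yc P * yc Q) ∧
    px (P - Q) * (T1 W.b₂ W.b₄ W.b₆ (xc P * xc Q) (xc P + xc Q) 1 - yc P * yc Q)
      = 2 * pz (P - Q) * T0 W.b₄ W.b₆ W.b₈ (xc P * xc Q) (xc P + xc Q) 1 := by
  by_cases hx : xc P = xc Q
  · have hT1 : T1 W.b₂ W.b₄ W.b₆ (xc P * xc P) (xc P + xc P) 1 = yc P ^ 2 := by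
      rw [Fermat.Agent.S05.yc_sq P hP]
      simp only [T1, Fermat.Agent.S05.D2]; ring
    have hT2 : T2 (xc P * xc P) (xc P + xc P) 1 = 0 := by
      simp only [T2]; ring
    rcases Fermat.Agent.S05.eq_or_eq_neg_of_xc_eq hP hQ hx with h | h
    · subst h
      rw [sub_self, hT1, hT2]
      simp only [Fermat.Agent.DivPoly.px_zero, Fermat.Agent.DivPoly.pz_zero]
      constructor <;> ring
    · have hQ' : Q = -P := by rw [h, neg_neg]
      subst hQ'
      rw [Fermat.Agent.S05.xc_neg, Fermat.Agent.S05.yc_neg, sub_neg_eq_add, hT1, hT2]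
      refine ⟨by ring, ?_⟩
      by_cases h2 : P + P = 0
      · have hy := Fermat.Agent.S05.yc_eq_zero_of_add_self h2
        rw [h2, hy]
        simp only [Fermat.Agent.DivPoly.px_zero, Fermat.Agent.DivPoly.pz_zero]
        ring
      · rw [Fermat.Agent.DivPoly.px_of_ne h2, Fermat.Agent.DivPoly.pz_of_ne h2]
        have e := Fermat.Agent.S05.xc_add_self h2
        rw [← Fermat.Agent.S05.yc_sq P hP] at e
        simp only [Fermat.Agent.S05.F0] at e
        simp only [T0]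
        linear_combination 2 * e
  · have hsub : P - Q ≠ 0 := by
      intro h
      apply hx
      rw [sub_eq_zero.mp h]
    rw [Fermat.Agent.DivPoly.px_of_ne hsub, Fermat.Agent.DivPoly.pz_of_ne hsub]
    have e1 := Fermat.Agent.S05.xc_add_add_xc_sub hP hQ hx
    have e0 := Fermat.Agent.S05.xc_add_mul_xc_sub hP hQ hx
    have e2 := SGN.xc_add_sub_xc_sub hP hQ hx
    simp only [Fermat.Agent.S05.F1] at e1
    simp only [Fermat.Agent.S05.F0] at e0
    simp only [T0, T1, T2]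
    constructor
    · linear_combination e1 - e2
    · linear_combination (-xc (P - Q)) * e1 - xc (P - Q) * e2 + 2 * e0

end Fermat.Agent.S52
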