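import Fermat.Agent.S52.Defs2

/-! # S52, task XB: basic closure properties of `HasDeg` -/

set_option autoImplicit false
set_option linter.unusedSectionVars false
open WeierstrassCurve WeierstrassCurve.Affine Polynomial
open Fermat.Agent.DivPoly (px pz)
open Fermat.Agent.S05 (xc yc)

namespace Fermat.Agent.S52

namespace XB

variable {K : Type*} [Field K]

lemma degree_mul_lt'' {p q : K[X]} {m n : ℕ} (hp : p.degree < (m : WithBot ℕ))
    (hq : q.degree ≤ (n : WithBot ℕ)) : (p * q).degree < ((m + n : ℕ) : WithBot ℕ) := by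
  rcases eq_or_ne p 0 with rfl | hp0
  · simp
  rcases eq_or_ne q 0 with rfl | hq0
  · simp
  rw [degree_mul, degree_eq_natDegree hp0, degree_eq_natDegree hq0]
  rw [degree_eq_natDegree hp0] at hp
  rw [degree_eq_natDegree hq0] at hq
  norm_cast at *
  omega

lemma degree_pow_lt {Q : K[X]} {b : ℕ} (hQ : Q.degree < (b : WithBot ℕ)) (k : ℕ) :
    (Q ^ (k + 1)).degree < (((k + 1) * b : ℕ) : WithBot ℕ) := by
  induction k with
  | zero => simpa using hQ
  | succ k ih =>
    rw [pow_succ, show (k + 1 + 1) * b = (k + 1) * b + b by ring]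
    exact degree_mul_lt'' ih hQ.le

/-- homogenisation of `H` (in degree `a`) evaluated at `(P, Q)` -/
noncomputable def hom (H : K[X]) (a : ℕ) (P Q : K[X]) : K[X] :=
  ∑ i ∈ Finset.range (a + 1), C (H.coeff i) * P ^ i * Q ^ (a - i)

/-- homogenisation of `H` (in degree `a`) evaluated at scalars -/
noncomputable def homv (H : K[X]) (a : ℕ) (p q : K) : K :=
  ∑ i ∈ Finset.range (a + 1), H.coeff i * p ^ i * q ^ (a - i)

lemma eval_hom (H : K[X]) (a : ℕ) (P Q : K[X]) (x : K) :
    (hom H a P Q).eval x = homv H a (P.eval x) (Q.eval x) := by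
  simp [hom, homv, eval_finsetSum]

lemma homv_smul (H : K[X]) (a : ℕ) (c u v : K) :
    homv H a (c * u) (c * v) = c ^ a * homv H a u v := by
  unfold homv
  rw [Finset.mul_sum]
  refine Finset.sum_congr rfl fun i hi => ?_
  have hia : i ≤ a := Nat.lt_succ_iff.mp (Finset.mem_range.mp hi)
  have : c ^ a = c ^ i * c ^ (a - i) := by rw [← pow_add, Nat.add_sub_cancel' hia]
  rw [this, mul_pow, mul_pow]
  ring

lemma homv_one (H : K[X]) {a : ℕ} (ha : H.natDegree ≤ a) (u : K) :
    homv H a u 1 = H.eval u := by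
  unfold homv
  rw [eval_eq_sum_range' (Nat.lt_succ_of_le ha)]
  simp

lemma homv_zero (H : K[X]) (a : ℕ) (u : K) : homv H a u 0 = H.coeff a * u ^ a := by
  unfold homv
  rw [Finset.sum_range_succ, Finset.sum_eq_zero, zero_add]
  · simp
  · intro i hi
    have : a - i ≠ 0 := by
      have := Finset.mem_range.mp hi
      omega
    rw [zero_pow this, mul_zero]

lemma homv_of_ne (H : K[X]) {a : ℕ} (ha : H.natDegree ≤ a) (p : K) {q : K} (hq : q ≠ 0) :
    homv H a p q = q ^ a * H.eval (p / q) := by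
  have e1 : homv H a p q = homv H a (q * (p / q)) (q * 1) := by
    congr 1
    · field_simp
    · rw [mul_one]
  rw [e1, homv_smul, homv_one _ ha]

lemma degree_low {H P Q : K[X]} {a b : ℕ} (hP : P.Monic) (hPd : P.natDegree = b)
    (hQ : Q.degree < (b : WithBot ℕ)) :
    (∑ i ∈ Finset.range a, C (H.coeff i) * P ^ i * Q ^ (a - i)).degree
      < ((a * b : ℕ) : WithBot ℕ) := by
  refine lt_of_le_of_lt (degree_sum_le _ _) ?_
  rw [Finset.sup_lt_iff (WithBot.bot_lt_coe _)]
  intro i hi
  have hia : i < a := Finset.mem_range.mp hi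
  obtain ⟨k, hk⟩ : ∃ k, a - i = k + 1 := ⟨a - i - 1, by omega⟩
  have h1 : (Q ^ (a - i)).degree < (((a - i) * b : ℕ) : WithBot ℕ) := by
    rw [hk]; exact degree_pow_lt hQ k
  have h2 : (C (H.coeff i) * P ^ i).degree ≤ ((i * b : ℕ) : WithBot ℕ) := by
    refine (degree_mul_le _ _).trans ?_
    have h3 : (P ^ i).degree ≤ ((i * b : ℕ) : WithBot ℕ) := by
      rw [← hPd, ← hP.natDegree_pow]; exact degree_le_natDegree
    calc (C (H.coeff i)).degree + (P ^ i).degree ≤ 0 + ((i * b : ℕ) : WithBot ℕ) :=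
          add_le_add degree_C_le h3
      _ = _ := zero_add _
  have h4 := degree_mul_lt'' h1 h2
  have h5 : (a - i) * b + i * b = a * b := by
    rw [← add_mul, Nat.sub_add_cancel hia.le]
  rw [h5, mul_comm] at h4
  exact h4

end XB

section XB
variable {K : Type*} [Field K] [DecidableEq K] {W : Affine K}

theorem HasDeg.zero : HasDeg W 0 0 :=
  ⟨1, 0, monic_one, natDegree_one, by simp, by simp, rfl,
    fun x y h => ⟨1, one_ne_zero, by simp, by simp⟩⟩

theorem HasDeg.id : HasDeg W id 1 :=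
  ⟨X, 1, monic_X, natDegree_X, by simp, by simp, rfl,
    fun x y h => ⟨1, one_ne_zero, by simp, by simp⟩⟩

theorem HasDeg.neg {α : W.Point → W.Point} {d : ℕ} (h : HasDeg W α d) : HasDeg W (-α) d := by
  obtain ⟨F, G, hFG⟩ := h
  refine ⟨F, G, hFG.monic, hFG.degF, hFG.degG, hFG.noroot, ?_, fun x y h => ?_⟩
  · rw [Pi.neg_apply, hFG.map_zero, neg_zero]
  · rw [Pi.neg_apply, Fermat.Agent.DivPoly.px_neg, Fermat.Agent.DivPoly.pz_neg]
    exact hFG.rep x y h

theorem HasDeg.eq_zero {α : W.Point → W.Point} (h : HasDeg W α 0) (P : W.Point) : α P = 0 := by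
  obtain ⟨F, G, hFG⟩ := h
  rcases P with _ | ⟨x, y, hxy⟩
  · exact hFG.map_zero
  · obtain ⟨c, hc, -, eG⟩ := hFG.rep x y hxy
    have hG : G = 0 := by
      have := hFG.degG
      rw [Nat.cast_zero] at this
      exact degree_eq_bot.mp (by
        rcases h : G.degree with _ | n
        · rfl
        · rw [h] at this
          exact absurd this (by
            intro h'
            have : (n : WithBot ℕ) < 0 := h'
            norm_cast at this))
    rw [hG, eval_zero] at eG
    exact Fermat.Agent.DivPoly.pz_eq_zero_iff.mp ((mul_eq_zero.mp eG.symm).resolve_left hc)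

theorem HasDeg.comp {α β : W.Point → W.Point} {a b : ℕ} (hα : HasDeg W α a) (hβ : HasDeg W β b) :
    HasDeg W (α ∘ β) (a * b) := by
  obtain ⟨F, G, h1⟩ := hα
  obtain ⟨P, Q, h2⟩ := hβ
  have hFa : F.coeff a = 1 := by rw [← h1.degF]; exact h1.monic.coeff_natDegree
  have hGa : G.coeff a = 0 := coeff_eq_zero_of_degree_lt h1.degG
  have hGd : G.natDegree ≤ a := natDegree_le_of_degree_le h1.degG.le
  have hPa : (P ^ a).Monic := h2.monic.pow a
  have hPad : (P ^ a).natDegree = a * b := by rw [h2.monic.natDegree_pow, h2.degF]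
  have hPad' : (P ^ a).degree = ((a * b : ℕ) : WithBot ℕ) := by
    rw [degree_eq_natDegree hPa.ne_zero, hPad]
  have eF : XB.hom F a P Q = P ^ a
      + ∑ i ∈ Finset.range a, C (F.coeff i) * P ^ i * Q ^ (a - i) := by
    unfold XB.hom
    rw [Finset.sum_range_succ, hFa, add_comm]
    simp
  have eG : XB.hom G a P Q = ∑ i ∈ Finset.range a, C (G.coeff i) * P ^ i * Q ^ (a - i) := by
    unfold XB.hom
    rw [Finset.sum_range_succ, hGa]
    simp
  have lowF := XB.degree_low (H := F) (a := a) h2.monic h2.degF h2.degG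
  have lowG := XB.degree_low (H := G) (a := a) h2.monic h2.degF h2.degG
  refine ⟨XB.hom F a P Q, XB.hom G a P Q, ?_, ?_, ?_, ?_, ?_, ?_⟩
  · rw [eF]
    exact hPa.add_of_left (by rw [hPad']; exact lowF)
  · rw [eF, natDegree_add_eq_left_of_degree_lt (by rw [hPad']; exact lowF), hPad]
  · rw [eG]; exact lowG
  · rintro x ⟨hx1, hx2⟩
    rw [XB.eval_hom] at hx1 hx2
    by_cases hq : Q.eval x = 0
    · rw [hq, XB.homv_zero, hFa, one_mul] at hx1
      refine h2.noroot x ⟨?_, hq⟩
      by_contra hp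
      exact pow_ne_zero a hp hx1
    · rw [XB.homv_of_ne _ h1.degF.le _ hq] at hx1
      rw [XB.homv_of_ne _ hGd _ hq] at hx2
      have hqa : Q.eval x ^ a ≠ 0 := pow_ne_zero _ hq
      exact h1.noroot _ ⟨(mul_eq_zero.mp hx1).resolve_left hqa,
        (mul_eq_zero.mp hx2).resolve_left hqa⟩
  · rw [Function.comp_apply, h2.map_zero, h1.map_zero]
  · intro x y h
    obtain ⟨c, hc, eP, eQ⟩ := h2.rep x y h
    rw [XB.eval_hom, XB.eval_hom, eP, eQ, XB.homv_smul, XB.homv_smul, Function.comp_apply]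
    rcases hβR : β (Point.some x y h) with _ | ⟨x', y', h'⟩
    · refine ⟨c ^ a, pow_ne_zero _ hc, ?_, ?_⟩
      · have : α Point.zero = 0 := h1.map_zero
        rw [this]
        show c ^ a * XB.homv F a 1 0 = _
        rw [XB.homv_zero, hFa]; simp
      · have : α Point.zero = 0 := h1.map_zero
        rw [this]
        show c ^ a * XB.homv G a 1 0 = _
        rw [XB.homv_zero, hGa]; simp
    · obtain ⟨c1, hc1, eF1, eG1⟩ := h1.rep x' y' h'
      refine ⟨c ^ a * c1, mul_ne_zero (pow_ne_zero _ hc) hc1, ?_, ?_⟩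
      · show c ^ a * XB.homv F a x' 1 = _
        rw [XB.homv_one _ h1.degF.le, eF1, mul_assoc]
      · show c ^ a * XB.homv G a x' 1 = _
        rw [XB.homv_one _ hGd, eG1, mul_assoc]
end XB

end Fermat.Agent.S52
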